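import Fermat.Agent.CFT.LS.Defs
import Fermat.Agent.CFT.K.Datum
import Fermat.Agent.Common.PlaceBridgeLocal

/-!
# CFT / layer LS : the concrete local systems (INST)

`G` acts on `Qb` through `j : G →* GQ` with image `D_A ⊓ Fix K`, levels = pull-backs of `levAll`.
-/

set_option autoImplicit false

namespace Fermat.Agent.CFT.LS

open Fermat.Agent.CFT Fermat.Agent.CFT.Br Fermat.Agent.Bridge

/-- every element of `Qb` is fixed by a level of `levAll` -/
theorem exists_levAll_fixing (x : Qb) : ∃ U ∈ levAll.carrier, ∀ s ∈ U, s x = x := by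
  have : FiniteDimensional ℚ (IntermediateField.adjoin ℚ {x}) :=
    IntermediateField.adjoin.finiteDimensional (Algebra.IsIntegral.isIntegral _)
  refine ⟨(IntermediateField.normalClosure ℚ (IntermediateField.adjoin ℚ {x}) Qb).fixingSubgroup,
    ⟨_, normalClosure.is_finiteDimensional ℚ _ Qb, normalClosure.normal ℚ _ Qb, rfl⟩,
    fun s hs => ?_⟩
  exact (IntermediateField.mem_fixingSubgroup_iff _ _).mp hs x
    (IntermediateField.le_normalClosure _ (IntermediateField.mem_adjoin_simple_self ℚ x))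

section Hom

variable {G : Type} [Group G] [MulSemiringAction G Qb] (j : G →* GQ)

/-- `IsGalAct` for any group acting on `Qb` through a homomorphism to `GQ`. -/
theorem isGalAct_of_hom (hj : ∀ (g : G) (x : Qb), g • x = j g x) (𝒰 : Levels G)
    (h𝒰 : ∀ W : Subgroup G, W ∈ 𝒰.carrier ↔ ∃ U ∈ levAll.carrier, W = U.comap j) :
    IsGalAct Qb 𝒰 where
  smooth x := by
    obtain ⟨U, hU, h⟩ := exists_levAll_fixing x
    exact ⟨U.comap j, (h𝒰 _).mpr ⟨U, hU, rfl⟩, fun s hs => by rw [hj]; exact h _ hs⟩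
  faithful W hW g hg := by
    obtain ⟨_, ⟨F, _, _, rfl⟩, rfl⟩ := (h𝒰 W).mp hW
    show j g ∈ F.fixingSubgroup
    rw [IntermediateField.mem_fixingSubgroup_iff]
    intro x hx
    rw [← hj]
    refine hg x (fun s hs => ?_)
    rw [hj]
    exact (IntermediateField.mem_fixingSubgroup_iff _ _).mp hs x hx

/-- **INST**: the local system of the henselisation of `K` at `A`. -/
theorem isLocSys_of_hom (hj : ∀ (g : G) (x : Qb), g • x = j g x) (𝒰 : Levels G)
    (h𝒰 : ∀ W : Subgroup G, W ∈ 𝒰.carrier ↔ ∃ U ∈ levAll.carrier, W = U.comap j)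
    {K : Type*} [Field K] [NumberField K] (φ : K →+* Qb) {A : ValuationSubring Qb} {ℓ : ℕ}
    (hℓ : ℓ.Prime) (hA : A.LiesOverPrime ℓ) (hrange : j.range = locGroup φ A) :
    IsLocSys 𝒰 A.valuation := by
  have hmem : ∀ g : G, j g ∈ locGroup φ A := fun g => hrange ▸ ⟨g, rfl⟩
  have hfix : ∀ x : Qb, Fix G x → ∀ σ ∈ locGroup φ A, σ x = x := fun x hx σ hσ => by
    rw [← hrange] at hσ
    obtain ⟨g, rfl⟩ := hσ
    rw [← hj]
    exact hx g
  refine ⟨isGalAct_of_hom j hj 𝒰 h𝒰, fun g x => ?_, ?_, ?_⟩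
  · rw [hj]
    exact valuation_apply_of_mem_decomposition (hmem g).1 x
  · obtain ⟨ϖ, h0, h1, h2⟩ := exists_uniformizer_fixed (φ := φ) hℓ hA
    refine ⟨φ ϖ, fun g => ?_, (map_ne_zero φ).mpr h0, h1, fun x hx hx0 => h2 x hx0 (hfix x hx)⟩
    rw [hj]
    exact (hmem g).2 ϖ
  · classical
    obtain ⟨T, hT⟩ := exists_residue_system_fixed (φ := φ) hℓ hA
    refine ⟨T.image φ, fun x hx hx1 => ?_⟩
    obtain ⟨t, ht, h⟩ := hT x (hfix x hx) hx1
    exact ⟨φ t, Finset.mem_image_of_mem _ ht, h⟩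

end Hom

theorem subLev_eq_comap {G : Type} [Group G] (𝒰 : Levels G) (H : Subgroup G) :
    subLev 𝒰 H = 𝒰.comap H.subtype := rfl

section Sub

variable {A : ValuationSubring Qb} {ℓ : ℕ}

/-- the local system of a subgroup `H = D_A ⊓ Fix K` of `GQ` -/
theorem isLocSys_of_eq_locGroup {K : Type*} [Field K] [NumberField K] (φ : K →+* Qb)
    (hℓ : ℓ.Prime) (hA : A.LiesOverPrime ℓ) {H : Subgroup GQ} (hH : H = locGroup φ A) :
    IsLocSys (Ω := Qb) (levAll.comap H.subtype) A.valuation :=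
  isLocSys_of_hom H.subtype (fun _ _ => rfl) _ (fun _ => Iff.rfl) φ hℓ hA
    (by rw [Subgroup.range_subtype, hH])

/-- every open subgroup of `D_A` gives a local system -/
theorem isLocSys_of_open (hℓ : ℓ.Prime) (hA : A.LiesOverPrime ℓ) {H : Subgroup GQ}
    (hH : H ≤ A.decompositionSubgroup ℚ) {U : Subgroup GQ} (hU : U ∈ levAll.carrier)
    (hUH : A.decompositionSubgroup ℚ ⊓ U ≤ H) :
    IsLocSys (Ω := Qb) (levAll.comap H.subtype) A.valuation := by
  obtain ⟨F, hF, _, rfl⟩ := hU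
  obtain ⟨M, _, _, ψ, hψ⟩ := exists_model_of_fixingSubgroup_le hH F hUH
  exact isLocSys_of_eq_locGroup ψ hℓ hA hψ

/-- the local system of the full decomposition group -/
theorem isLocSys_decompositionSubgroup (hℓ : ℓ.Prime) (hA : A.LiesOverPrime ℓ) :
    IsLocSys (Ω := Qb) (levAll.comap (A.decompositionSubgroup ℚ).subtype) A.valuation := by
  obtain ⟨U, hU⟩ := levAll.nonempty
  exact isLocSys_of_open hℓ hA le_rfl hU inf_le_left

end Sub

section Frozen

open ExtCitation

theorem liesOverPrime_padicPlace (q : ℕ) [Fact q.Prime] : (padicPlace q).LiesOverPrime q := by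
  show (q : AlgebraicClosure ℚ) ∈ (padicPlace q).nonunits
  rw [mem_nonunits_iff_inv]
  right
  rw [mem_padicPlace_iff, map_inv₀, map_natCast, nnnorm_inv, not_le]
  have h1 : ‖((q : ℕ) : PadicAlgCl q)‖ = (q : ℝ)⁻¹ := by
    have h2 := PadicAlgCl.norm_extends q ((q : ℕ) : ℚ_[q])
    rw [Padic.norm_p] at h2
    rw [← h2]
    simp
  have h3 : ‖((q : ℕ) : PadicAlgCl q)‖₊ = (q : NNReal)⁻¹ := by
    ext
    simpa using h1
  rw [h3, inv_inv]
  exact_mod_cast (Fact.out : q.Prime).one_lt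

theorem liesOverPrime_primeLocalPlace (q : Nat.Primes) :
    (primeLocalPlace q).LiesOverPrime (q : ℕ) :=
  have : Fact (q : ℕ).Prime := ⟨q.2⟩
  liesOverPrime_padicPlace (q : ℕ)

/-- the local system at `q` of the datum `DS S`:
`G = (DS S).Gv q`, levels `(DS S).levv q`. -/
theorem isLocSys_decomp (q : Nat.Primes) :
    IsLocSys (Ω := Qb) (levAll.comap (decomp q).subtype) (primeLocalPlace q).valuation :=
  isLocSys_decompositionSubgroup q.2 (liesOverPrime_primeLocalPlace q)

end Frozen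

end Fermat.Agent.CFT.LS
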