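import Fermat.Agent.CFT.LS.NormIdx
import Fermat.Agent.CFT.LS.Inst
import Fermat.Agent.CFT.Global.GC3.HNTSpec

/-!
# (l2) in the shape asked by GC3 (helper57): `Global.LocalNonNorm p`.
-/

set_option autoImplicit false

namespace Fermat.Agent.CFT.LS

open Fermat.Agent.CFT Fermat.Agent.CFT.Br Finset

section Kum
variable {G : Type} [Group G] {Ω : Type} [Field Ω] [MulSemiringAction G Ω] {p : ℕ} [Fact p.Prime]

omit [Fact p.Prime] in
lemma pow_mod_of_prim {ζ : Ω} (hζ : IsPrimitiveRoot ζ p) (a : ℕ) : ζ ^ (a % p) = ζ ^ a := by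
  conv_lhs => rw [hζ.eq_orderOf]
  exact pow_mod_orderOf ζ a

lemma modEq_of_pow_eq {ζ : Ω} (hζ : IsPrimitiveRoot ζ p) {a b : ℕ} (h : ζ ^ a = ζ ^ b) :
    a ≡ b [MOD p] := by
  have hp : 0 < p := (Fact.out : p.Prime).pos
  rw [← pow_mod_of_prim hζ a, ← pow_mod_of_prim hζ b] at h
  exact hζ.pow_inj (Nat.mod_lt _ hp) (Nat.mod_lt _ hp) h

/-- abstract Kummer character -/
theorem exists_kummer_char {ζ B : Ω} (hζ : IsPrimitiveRoot ζ p) (hζG : ∀ g : G, g • ζ = ζ)
    (hB : B ≠ 0) (h : ∀ g : G, ∃ i : ℕ, g • B = ζ ^ i * B) :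
    ∃ ψ : G →* Multiplicative (ZMod p), ∀ g, g • B = ζ ^ (ψ g).toAdd.val * B := by
  classical
  choose i hi using h
  have hp : p ≠ 0 := (Fact.out : p.Prime).ne_zero
  have key : ∀ a b : ℕ, ζ ^ a = ζ ^ b → (a : ZMod p) = (b : ZMod p) := by
    intro a b hab
    exact (ZMod.natCast_eq_natCast_iff a b p).2 (modEq_of_pow_eq hζ hab)
  have hval : ∀ a : ℕ, ζ ^ ((a : ZMod p)).val = ζ ^ a := by
    intro a
    rw [ZMod.val_natCast]
    exact pow_mod_of_prim hζ a
  refine ⟨{ toFun := fun g => Multiplicative.ofAdd ((i g : ℕ) : ZMod p)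
            map_one' := ?_
            map_mul' := ?_ }, fun g => ?_⟩
  · have h1 := hi 1
    rw [one_smul] at h1
    have h2 : ζ ^ (i 1) = ζ ^ 0 := by
      rw [pow_zero]
      exact (mul_right_cancel₀ hB (by rw [one_mul]; exact h1)).symm
    have := key _ _ h2
    simp [this]
  · intro g g'
    have h1 := hi (g * g')
    rw [mul_smul, hi g', smul_mul', smul_pow', hζG, hi g] at h1
    have h2 : ζ ^ (i (g * g')) = ζ ^ (i g + i g') := by
      apply mul_right_cancel₀ hB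
      rw [← h1, pow_add]; ring
    have := key _ _ h2
    rw [← ofAdd_add, this]; push_cast; rfl
  · change g • B = ζ ^ ((i g : ℕ) : ZMod p).val * B
    rw [hval, hi g]

end Kum

theorem localNonNorm (p : ℕ) [Fact p.Prime] : Global.LocalNonNorm p := by
  intro q A V ζ B τ hq hA hV hζ hζV hB hBV hτA hτV hτB
  obtain ⟨U, ⟨F, hFfin, hFn, rfl⟩, hUV⟩ := hV
  set H : Subgroup GQ := A.decompositionSubgroup ℚ ⊓ V with hH
  have hsys : IsLocSys (subLev levAll H) A.valuation :=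
    isLocSys_of_open hq hA inf_le_left ⟨F, hFfin, hFn, rfl⟩ (inf_le_inf_left _ hUV)
  obtain ⟨ψ, hψ⟩ := exists_kummer_char (G := ↥H) (Ω := Qb) hζ (fun g => hζV g.1 g.2.2) hB
    (fun g => hBV g.1 g.2.2)
  have hp1 : 1 < p := (Fact.out : p.Prime).one_lt
  have : Fact (1 < p) := ⟨hp1⟩
  have hker : ∀ g : ↥H, g ∈ ψ.ker ↔ (g : GQ) B = B := by
    intro g
    rw [MonoidHom.mem_ker]
    constructor
    · intro hg
      have := hψ g
      rw [hg] at this
      simp only [toAdd_one, ZMod.val_zero, pow_zero, one_mul] at this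
      exact this
    · intro hg
      have h1 := hψ g
      have h2 : ζ ^ (ψ g).toAdd.val = ζ ^ 0 := by
        rw [pow_zero]
        apply mul_right_cancel₀ hB
        rw [one_mul, ← h1]; exact hg
      have h3 := modEq_of_pow_eq hζ h2
      have h4 : (ψ g).toAdd.val = 0 := by
        have := Nat.ModEq.eq_of_lt_of_lt h3 (ZMod.val_lt _) (Fact.out : p.Prime).pos
        exact this
      have h5 : (ψ g).toAdd = 0 := (ZMod.val_eq_zero _).1 h4
      exact h5
  have hsm : IsSmoothChar (subLev levAll H) ψ := by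
    obtain ⟨W, hW, hWB⟩ := hsys.gal.smooth B
    exact ⟨W, hW, fun s hs => (hker s).2 (hWB s hs)⟩
  let σ : ↥H := ⟨τ, hτA, hτV⟩
  have hσ : ψ σ = Multiplicative.ofAdd 1 := by
    have h1 := hψ σ
    have h2 : ζ ^ (ψ σ).toAdd.val = ζ ^ 1 := by
      apply mul_right_cancel₀ hB
      rw [← h1, pow_one]; exact hτB
    have h3 := modEq_of_pow_eq hζ h2
    have h4 : (ψ σ).toAdd.val = 1 := Nat.ModEq.eq_of_lt_of_lt h3 (ZMod.val_lt _) hp1
    have h5 : (ψ σ).toAdd = 1 := by
      apply ZMod.val_injective p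
      rw [h4, ZMod.val_one]
    exact h5
  obtain ⟨y₀, hy₀, hn⟩ := hsys.exists_not_norm hsm hσ
  refine ⟨(y₀ : Qb), y₀.ne_zero, fun g hgA hgV => ?_, ?_⟩
  · exact congrArg Units.val (hy₀ ⟨g, hgA, hgV⟩)
  · rintro ⟨b, hb, hyb⟩
    have hb0 : b ≠ 0 := by
      rintro rfl
      apply y₀.ne_zero
      rw [hyb]
      apply Finset.prod_eq_zero (Finset.mem_range.2 (Fact.out : p.Prime).pos)
      simp
    refine hn (Units.mk0 b hb0) ?_ ?_
    · intro g
      apply Units.ext
      exact hb g.1.1 g.1.2.1 g.1.2.2 ((hker g.1).1 g.2)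
    · apply Units.ext
      rw [hyb, Units.coe_prod]
      rfl

end Fermat.Agent.CFT.LS
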