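import Fermat.Agent.CFT.LS.Defs

/-!
# WP LS-BASIC : elementary valuation facts (roots of unity, Teichmüller representatives, Frobenius).

`v` any valuation on a field `Ω`.
* roots of unity have `v = 1`; if `v (m : Ω) = 1` two distinct `m`-th roots of unity satisfy
  `v (ω - ω') = 1`  (`∏_{ω' ≠ ω} (ω - ω') = m ω^(m-1)`; all factors have `v ≤ 1`).
* `X^Q - X = ∏_{t ∈ {0} ∪ μ_{Q-1}} (X - t)`, hence `v (c^Q - c) < 1 ⇒ v (c - t) < 1` for some such `t`.
* `Q = q^f`, `v q < 1` : `(x+y)^Q ≡ x^Q + y^Q`.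
-/

set_option autoImplicit false

namespace Fermat.Agent.CFT.LS

open Fermat.Agent.CFT Fermat.Agent.CFT.Br

variable {G : Type} [Group G] {Ω : Type} [Field Ω] [MulSemiringAction G Ω]
  {Γ₀ : Type} [LinearOrderedCommGroupWithZero Γ₀] {v : Valuation Ω Γ₀}

lemma val_natCast_le_one (v : Valuation Ω Γ₀) (n : ℕ) : v (n : Ω) ≤ 1 := by
  induction n with
  | zero => simp
  | succ k ih =>
    rw [Nat.cast_succ]
    exact (v.map_add _ _).trans (max_le ih (by simp))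

lemma val_eq_one_of_pow_eq_one {ω : Ω} {m : ℕ} (hm : m ≠ 0) (h : ω ^ m = 1) : v ω = 1 := by
  have h1 : v ω ^ m = 1 := by rw [← map_pow, h, map_one]
  exact (pow_eq_one_iff.1 h1).resolve_right hm

lemma val_geomSum_le_one_of_le {ζ : Ω} (hζ : v ζ ≤ 1) (i : ℕ) :
    v (∑ j ∈ Finset.range i, ζ ^ j) ≤ 1 :=
  v.map_sum_le fun j _ => by rw [map_pow]; exact pow_le_one' hζ j

/-- distinct roots of unity of order prime to the residue characteristic are distinct mod `𝔪` -/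
theorem val_sub_eq_one_of_roots {m : ℕ} (hm : v (m : Ω) = 1) {ω ω' : Ω} (h : ω ^ m = 1)
    (h' : ω' ^ m = 1) (hne : ω ≠ ω') : v (ω - ω') = 1 := by
  have hm0 : m ≠ 0 := by
    rintro rfl
    simp at hm
  have hω : v ω = 1 := val_eq_one_of_pow_eq_one hm0 h
  have hω0 : ω ≠ 0 := by
    rintro rfl
    simp at hω
  set ζ := ω' / ω with hζdef
  have hζm : ζ ^ m = 1 := by rw [hζdef, div_pow, h, h', div_one]
  have hζ1 : ζ ≠ 1 := by
    intro hh
    rw [hζdef, div_eq_one_iff_eq hω0] at hh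
    exact hne hh.symm
  have hvζ : v ζ = 1 := val_eq_one_of_pow_eq_one hm0 hζm
  have hsum : ∑ i ∈ Finset.range m, ζ ^ i = 0 := by
    have := geom_sum_mul ζ m
    rw [hζm, sub_self] at this
    exact (mul_eq_zero.1 this).resolve_right (sub_ne_zero.2 hζ1)
  have hmeq : (m : Ω) = ∑ i ∈ Finset.range m, (1 - ζ) * ∑ j ∈ Finset.range i, ζ ^ j := by
    have : ∀ i ∈ Finset.range m, (1 - ζ) * ∑ j ∈ Finset.range i, ζ ^ j = 1 - ζ ^ i :=
      fun i _ => mul_neg_geom_sum ζ i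
    rw [Finset.sum_congr rfl this, Finset.sum_sub_distrib, hsum]
    simp
  have h1 : v (m : Ω) ≤ v (1 - ζ) := by
    rw [hmeq]
    refine v.map_sum_le fun i _ => ?_
    rw [map_mul]
    exact mul_le_of_le_one_right' (val_geomSum_le_one_of_le hvζ.le i)
  have h2 : v (1 - ζ) ≤ 1 := by
    refine (v.map_sub _ _).trans (max_le (by simp) hvζ.le)
  have h3 : v (1 - ζ) = 1 := le_antisymm h2 (hm ▸ h1)
  have h4 : ω - ω' = ω * (1 - ζ) := by
    rw [hζdef]; field_simp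
  rw [h4, map_mul, hω, h3, one_mul]

lemma HasResCard.one_lt {Q : ℕ} (hQ : HasResCard G v Q) : 1 < Q := hQ.isPrimePow.one_lt

lemma HasResCard.val_pow_sub_one {Q : ℕ} (hQ : HasResCard G v Q) {n : ℕ} (hn : n ≠ 0) :
    v (((Q ^ n - 1 : ℕ) : Ω)) = 1 := by
  have h1 : 1 ≤ Q ^ n := Nat.one_le_pow _ _ (by have := hQ.one_lt; omega)
  rw [Nat.cast_sub h1, Nat.cast_pow, Nat.cast_one]
  have h2 : v ((Q : Ω) ^ n) < 1 := by
    rw [map_pow]
    exact pow_lt_one₀ zero_le hQ.val_lt hn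
  rw [Valuation.map_sub_eq_of_lt_right _ (by rw [map_one]; exact h2), map_one]

/-- `c^Q ≡ c` ⇒ `c ≡ t` with `t ∈ k` a Teichmüller representative -/
theorem HasResCard.exists_fix_near [IsAlgClosed Ω] [CharZero Ω] {Q : ℕ} (hQ : HasResCard G v Q)
    {c : Ω} (hc : v (c ^ Q - c) < 1) : ∃ t : Ω, Fix G t ∧ t ^ Q = t ∧ v (c - t) < 1 := by
  classical
  let P : Polynomial Ω := Polynomial.X ^ Q - Polynomial.X
  have hQ1 := hQ.one_lt
  have hmonic : P.Monic := Polynomial.monic_X_pow_sub (by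
    rw [Polynomial.degree_X]; exact_mod_cast hQ1)
  have hsplit : P.Splits := IsAlgClosed.splits P
  have heval : P.eval c = (P.roots.map (c - ·)).prod := by
    rw [hsplit.eval_eq_prod_roots, hmonic.leadingCoeff, one_mul]
  have hPc : P.eval c = c ^ Q - c := by simp [P]
  have hex : ∃ t ∈ P.roots, v (c - t) < 1 := by
    by_contra hcon
    push Not at hcon
    have h1 : 1 ≤ ((P.roots.map (c - ·)).map v).prod := by
      apply Multiset.one_le_prod_of_one_le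
      intro x hx
      obtain ⟨y, hy, rfl⟩ := Multiset.mem_map.1 hx
      obtain ⟨t, ht, rfl⟩ := Multiset.mem_map.1 hy
      exact hcon t ht
    rw [← map_multiset_prod, ← heval, hPc] at h1
    exact absurd hc (not_lt.2 h1)
  obtain ⟨t, ht, hvt⟩ := hex
  have htQ : t ^ Q = t := by
    have := (Polynomial.mem_roots hmonic.ne_zero).1 ht
    simpa [P, Polynomial.IsRoot, sub_eq_zero] using this
  refine ⟨t, ?_, htQ, hvt⟩
  by_cases ht0 : t = 0
  · subst ht0
    exact fun g => smul_zero g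
  · apply hQ.root
    have h2 : t ^ (Q - 1) * t = t := by
      rw [← pow_succ, Nat.sub_add_cancel hQ1.le, htQ]
    exact mul_right_cancel₀ ht0 (by rw [h2, one_mul])

/-- the Frobenius congruence for a prime `q` with `v q < 1` -/
theorem val_add_pow_prime_pow {q : ℕ} (hq : q.Prime) (hvq : v (q : Ω) < 1) {x y : Ω}
    (hx : v x ≤ 1) (hy : v y ≤ 1) (n : ℕ) :
    v ((x + y) ^ (q ^ n) - (x ^ (q ^ n) + y ^ (q ^ n))) < 1 := by
  obtain ⟨r, hr⟩ := exists_add_pow_prime_pow_eq hq (⟨x, hx⟩ : v.integer) ⟨y, hy⟩ n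
  have hr' := congrArg (Subtype.val) hr
  simp only [Subring.coe_add, Subring.coe_pow, Subring.coe_mul, Subring.coe_natCast] at hr'
  rw [hr', add_sub_cancel_left, map_mul, map_mul, map_mul]
  have h1 : v x * v y * v (r : Ω) ≤ 1 := mul_le_one' (mul_le_one' hx hy) r.2
  calc v (q : Ω) * v x * v y * v (r : Ω) = v (q : Ω) * (v x * v y * v (r : Ω)) := by
        simp only [mul_assoc]
    _ ≤ v (q : Ω) * 1 := by gcongr
    _ < 1 := by rwa [mul_one]

lemma HasResCard.exists_prime {Q : ℕ} (hQ : HasResCard G v Q) :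
    ∃ q f : ℕ, q.Prime ∧ f ≠ 0 ∧ Q = q ^ f ∧ v (q : Ω) < 1 := by
  obtain ⟨q, f, hq, hf, rfl⟩ := hQ.isPrimePow
  refine ⟨q, f, hq.nat_prime, hf.ne', rfl, ?_⟩
  have h1 := hQ.val_lt
  rw [Nat.cast_pow, map_pow] at h1
  by_contra hcon
  exact absurd h1 (not_lt.2 (one_le_pow₀ (not_lt.1 hcon)))

theorem HasResCard.add_pow {Q : ℕ} (hQ : HasResCard G v Q) {x y : Ω} (hx : v x ≤ 1)
    (hy : v y ≤ 1) : v ((x + y) ^ Q - (x ^ Q + y ^ Q)) < 1 := by
  obtain ⟨q, f, hq, _, rfl, hvq⟩ := hQ.exists_prime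
  exact val_add_pow_prime_pow hq hvq hx hy f

theorem HasResCard.sum_pow {Q : ℕ} (hQ : HasResCard G v Q) {ι : Type*} (s : Finset ι)
    (x : ι → Ω) (hx : ∀ i ∈ s, v (x i) ≤ 1) (n : ℕ) :
    v ((∑ i ∈ s, x i) ^ (Q ^ n) - ∑ i ∈ s, x i ^ (Q ^ n)) < 1 := by
  classical
  obtain ⟨q, f, hq, _, rfl, hvq⟩ := hQ.exists_prime
  rw [← pow_mul]
  induction s using Finset.induction_on with
  | empty =>
    have : q ^ (f * n) ≠ 0 := pow_ne_zero _ hq.ne_zero
    simp only [Finset.sum_empty, sub_zero, zero_pow this, map_zero]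
    exact zero_lt_one
  | insert a s ha ih =>
    rw [Finset.sum_insert ha, Finset.sum_insert ha]
    have hxa : v (x a) ≤ 1 := hx a (Finset.mem_insert_self a s)
    have hxs : ∀ i ∈ s, v (x i) ≤ 1 := fun i hi => hx i (Finset.mem_insert_of_mem hi)
    have hsum : v (∑ i ∈ s, x i) ≤ 1 := v.map_sum_le hxs
    have h1 := val_add_pow_prime_pow hq hvq hxa hsum (f * n)
    have h2 := ih hxs
    have h3 : (x a + ∑ i ∈ s, x i) ^ q ^ (f * n) - (x a ^ q ^ (f * n) + ∑ i ∈ s, x i ^ q ^ (f * n))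
        = ((x a + ∑ i ∈ s, x i) ^ q ^ (f * n) - (x a ^ q ^ (f * n) + (∑ i ∈ s, x i) ^ q ^ (f * n)))
          + ((∑ i ∈ s, x i) ^ q ^ (f * n) - ∑ i ∈ s, x i ^ q ^ (f * n)) := by ring
    rw [h3]
    exact (v.map_add _ _).trans_lt (max_lt h1 h2)

theorem HasResCard.sub_one_dvd [IsAlgClosed Ω] [CharZero Ω] {Q Q' : ℕ} (hQ : HasResCard G v Q)
    (hQ' : HasResCard G v Q') : Q - 1 ∣ Q' - 1 := by
  have hQ1 := hQ.one_lt
  have hQ1' := hQ'.one_lt
  have : NeZero (Q - 1) := ⟨by omega⟩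
  obtain ⟨ω, hω⟩ := HasEnoughRootsOfUnity.exists_primitiveRoot Ω (Q - 1)
  have hfix : Fix G ω := hQ.root ω hω.pow_eq_one
  have hv : v ω = 1 := val_eq_one_of_pow_eq_one (by omega) hω.pow_eq_one
  have h1 := hQ'.pow ω hfix hv.le
  have hm : v (((Q - 1 : ℕ) : Ω)) = 1 := by
    have := hQ.val_pow_sub_one (n := 1) one_ne_zero
    rwa [pow_one] at this
  have h2 : ω ^ Q' = ω := by
    by_contra hne
    have := val_sub_eq_one_of_roots hm (ω := ω ^ Q') (ω' := ω)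
      (by rw [← pow_mul, mul_comm, pow_mul, hω.pow_eq_one, one_pow]) hω.pow_eq_one hne
    rw [this] at h1
    exact lt_irrefl _ h1
  have hω0 : ω ≠ 0 := by
    rintro rfl
    simp at hv
  have h3 : ω ^ (Q' - 1) = 1 := by
    have h4 : ω ^ (Q' - 1) * ω = ω := by
      rw [← pow_succ, Nat.sub_add_cancel hQ1'.le, h2]
    exact mul_right_cancel₀ hω0 (by rw [h4, one_mul])
  exact hω.dvd_of_pow_eq_one _ h3

theorem HasResCard.unique [IsAlgClosed Ω] [CharZero Ω] {Q Q' : ℕ} (hQ : HasResCard G v Q)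
    (hQ' : HasResCard G v Q') : Q = Q' := by
  have h1 := hQ.sub_one_dvd hQ'
  have h2 := hQ'.sub_one_dvd hQ
  have h3 := Nat.dvd_antisymm h1 h2
  have := hQ.one_lt
  have := hQ'.one_lt
  omega

/-- `v` is discrete on `k` : strict inequality gains a factor `v π` -/
lemma IsUnif.le_mul_of_lt {π : Ω} (hπ : IsUnif G v π) {x y : Ω} (hx : Fix G x) (hy : Fix G y)
    (hy0 : y ≠ 0) (h : v x < v y) : v x ≤ v y * v π := by
  obtain ⟨_, hπ0, hπ1, hdisc⟩ := hπ
  by_cases hx0 : x = 0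
  · subst hx0; simp
  obtain ⟨a, ha⟩ := hdisc x hx hx0
  obtain ⟨b, hb⟩ := hdisc y hy hy0
  have hpos : 0 < v π := zero_lt_iff.2 ((v.ne_zero_iff).2 hπ0)
  rw [ha, hb] at h ⊢
  rw [zpow_lt_zpow_iff_right_of_lt_one₀ hpos hπ1] at h
  rw [← zpow_add_one₀ hpos.ne']
  exact zpow_le_zpow_right_of_le_one₀ hpos hπ1.le (by omega)

lemma Fix.add {x y : Ω} (hx : Fix G x) (hy : Fix G y) : Fix G (x + y) := fun g => by
  rw [smul_add, hx g, hy g]
lemma Fix.mul {x y : Ω} (hx : Fix G x) (hy : Fix G y) : Fix G (x * y) := fun g => by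
  rw [smul_mul', hx g, hy g]
lemma Fix.neg {x : Ω} (hx : Fix G x) : Fix G (-x) := fun g => by rw [smul_neg, hx g]
lemma Fix.sub {x y : Ω} (hx : Fix G x) (hy : Fix G y) : Fix G (x - y) := fun g => by
  rw [smul_sub, hx g, hy g]
lemma Fix.inv {x : Ω} (hx : Fix G x) : Fix G x⁻¹ := fun g => by
  have := map_inv₀ (MulSemiringAction.toRingHom G Ω g) x
  rw [MulSemiringAction.toRingHom_apply, MulSemiringAction.toRingHom_apply, hx g] at this
  exact this
lemma Fix.pow {x : Ω} (hx : Fix G x) (n : ℕ) : Fix G (x ^ n) := fun g => by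
  rw [smul_pow', hx g]
lemma Fix.natCast (n : ℕ) : Fix G (n : Ω) := fun g =>
  map_natCast (MulSemiringAction.toRingHom G Ω g) n
lemma Fix.one : Fix G (1 : Ω) := fun g => smul_one g
lemma Fix.zero : Fix G (0 : Ω) := fun g => smul_zero g

end Fermat.Agent.CFT.LS
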