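import Fermat.Agent.CFT.LS.Main
import Fermat.Agent.CFT.Br.Cor
import Fermat.Agent.CFT.Br.Kummer
import Fermat.Agent.CFT.Coh.SylowTower

/-!
# WP LS-BRP : `Br(k)[p]` is cyclic of order `p`, generated by `β = (χ_p, π)`.   (l3), (l4).

`c ∈ Z²(G,Ωˣ)`, `p c ~ 0`.  `c` dies on a level `U` (`exists_level_res_mem_B2`).  `P ⊇ U` := preimage of a Sylow
`p`-subgroup of `G/U`: open, `[G:P]` prime to `p`, `[P:U] = p^r`.  LS-MAIN for `P`: `res_P c ~ (χ^P_{p^r}, y)`.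
`p c ~ 0` ⇒ `(χ^P_{p^r}, y^p) ~ 0` ⇒ `v y ^ p = v y'^(p^r)` ⇒ (`r ≥ 1`) `v y = v (π_P^a)^(p^(r-1))`, so
`res_P c ~ (χ^P_{p^r}, (π_P^a)^(p^(r-1))) ~ (χ^P_p, π_P^a) = a β_P`.
`res_P β = (χ_p|P, π) ~ (χ^P_p, π^f) ~ (e f) β_P` (`comp_subtype`, `cyc_pow_char`, `exists_ramIdx`,
`cyc_sub_mem_B2_of_val_eq`).  `β ≁ 0`, `p β ~ 0`, `[G:P]` prime to `p` ⇒ `res_P β ≁ 0` (`mem_B2_of_res_of_coprime`)
⇒ `p ∤ e f`.  Choose `b` with `b e f ≡ a mod p`: `res_P (c - b β) ~ 0` ⇒ `c ~ b β`.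
(l4): `res_{ker ψ} β ~ 0` by `stepRes` with `j = 0`.
-/

set_option autoImplicit false
set_option linter.unusedSectionVars false

namespace Fermat.Agent.CFT.LS

open Fermat.Agent.CFT Fermat.Agent.CFT.Br Module

variable {G : Type} [Group G] {𝒰 : Levels G} {Ω : Type} [Field Ω] [MulSemiringAction G Ω]
  {Γ₀ : Type} [LinearOrderedCommGroupWithZero Γ₀] {v : Valuation Ω Γ₀}
  [IsAlgClosed Ω] [CharZero Ω] {p : ℕ} [Fact p.Prime]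

omit [MulSemiringAction G Ω] [Field Ω] [IsAlgClosed Ω] [CharZero Ω] in
/-- (group theory) Sylow: an open subgroup `P ⊇ U` of index prime to `p` with `[P:U]` a power of `p` -/
theorem exists_sylow_open {U : Subgroup G} (hU : U ∈ 𝒰.carrier) :
    ∃ (P : Subgroup G) (r : ℕ), U ≤ P ∧ Nat.Coprime p P.index ∧ (U.subgroupOf P).index = p ^ r := by
  have := 𝒰.normal U hU
  have := 𝒰.finiteIndex U hU
  obtain ⟨H, hUH, _, hcop, n, hn⟩ := exists_sylow_between (p := p) (U := U) (K := ⊤) le_top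
  rw [Subgroup.relIndex_top_right] at hcop
  exact ⟨H, n, hUH, hcop.symm, hn⟩

/-! ### auxiliary lemmas -/

namespace BrPAux

section gen
variable {H : Type} [Group H] {V : Type} [AddCommGroup V]

lemma cyc_zsmul {N : ℕ} (χ : H →* Multiplicative (ZMod N)) (n : ℤ) (y : V) :
    cyc χ (n • y) = n • cyc χ y := by
  funext g
  simp only [cyc_apply, Pi.smul_apply]
  rw [← natCast_zsmul, ← natCast_zsmul, smul_comm]

lemma cyc_pow_zero (χ : H →* Multiplicative (ZMod (p ^ 0))) (y : V) : cyc χ y = 0 := by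
  funext g
  have : Subsingleton (ZMod (p ^ 0)) := by rw [pow_zero]; infer_instance
  have h0 : (χ g.1).toAdd = 0 := Subsingleton.elim _ _
  rw [cyc_apply, h0, carry_zero_left, zero_smul]
  rfl

end gen

lemma isOpenSub_ker {N : ℕ} {ψ : G →* Multiplicative (ZMod N)} (hψ : IsSmoothChar 𝒰 ψ) :
    IsOpenSub 𝒰 ψ.ker := by
  obtain ⟨U, hU, h⟩ := hψ
  exact ⟨U, hU, fun s hs => h s hs⟩

lemma fixed_of_mem_fixU {y : Ωˣ} (hy : y ∈ fixU G Ω) (g : G) :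
    uRep G Ω g (Additive.ofMul y) = Additive.ofMul y := by
  rw [uRep_apply]
  exact congrArg Additive.ofMul (hy g)

lemma mem_fixU_of_fixed {y : Additive Ωˣ} (hy : ∀ g : G, uRep G Ω g y = y) :
    y.toMul ∈ fixU G Ω := fun g => congrArg Additive.toMul (hy g)

/-! wrappers with `uRep ↥H Ω` instead of `resRep H (uRep G Ω)` (avoids unifier blow-ups) -/

lemma res2_mem_Z2_u (P : Subgroup G) {c : G × G → Additive Ωˣ} (hc : c ∈ Z2 𝒰 (uRep G Ω)) :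
    res2 P c ∈ Z2 (subLev 𝒰 P) (uRep ↥P Ω) := by
  have := res2_mem_Z2 P hc
  exact this

lemma res2_mem_B2_u (P : Subgroup G) {c : G × G → Additive Ωˣ} (hc : c ∈ B2 𝒰 (uRep G Ω)) :
    res2 P c ∈ B2 (subLev 𝒰 P) (uRep ↥P Ω) := by
  have := res2_mem_B2 P hc
  exact this

lemma res2_subgroupOf_mem_B2_u (H K : Subgroup G) {c : G × G → Additive Ωˣ}
    (h : res2 K c ∈ B2 (subLev 𝒰 K) (uRep ↥K Ω)) :
    res2 (K.subgroupOf H) (res2 H c) ∈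
      B2 (subLev (subLev 𝒰 H) (K.subgroupOf H)) (uRep ↥(K.subgroupOf H) Ω) := by
  have := res2_subgroupOf_mem_B2 (ρ := uRep G Ω) H K h
  exact this

lemma exists_level_res_mem_B2_u {c : G × G → Additive Ωˣ} (hc : c ∈ Z2 𝒰 (uRep G Ω)) :
    ∃ U ∈ 𝒰.carrier, res2 U c ∈ B2 (subLev 𝒰 U) (uRep ↥U Ω) := by
  have := exists_level_res_mem_B2 hc
  exact this

lemma mem_B2_of_res_of_coprime_u (h : IsGalAct Ω 𝒰) {H : Subgroup G} (hH : IsOpenSub 𝒰 H)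
    {m : ℕ} (hm : Nat.Coprime m H.index) {c : G × G → Additive Ωˣ} (hc : c ∈ Z2 𝒰 (uRep G Ω))
    (hmc : m • c ∈ B2 𝒰 (uRep G Ω)) (hres : res2 H c ∈ B2 (subLev 𝒰 H) (uRep ↥H Ω)) :
    c ∈ B2 𝒰 (uRep G Ω) :=
  mem_B2_of_res_of_coprime (ρ := uRep G Ω) h.isSmooth_uRep hH hm hc hmc hres

/-- transport of `cyc_sub_mem_B2_of_val_eq` to `ZMod N`, `N = p ^ j` -/
theorem cyc_sub_of_val_eq {N j : ℕ} (hN : N = p ^ j) {Q : ℕ}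
    {χ : G →* Multiplicative (ZMod N)} (h : IsLocSys 𝒰 v) (hQ : HasResCard G v Q)
    (hχ : IsUrChar Ω 𝒰 Q N χ) {y y' : Ωˣ} (hy : y ∈ fixU G Ω) (hy' : y' ∈ fixU G Ω)
    (hv : v (y : Ω) = v (y' : Ω)) :
    cyc χ (Additive.ofMul y) - cyc χ (Additive.ofMul y') ∈ B2 𝒰 (uRep G Ω) := by
  subst hN
  exact IsUrChar.cyc_sub_mem_B2_of_val_eq h hQ hχ hy hy' hv

/-- (l4) for the unramified class -/
theorem res_cyc_ur_mem_B2 {N : ℕ} (hN : N = p ^ (0 + 1)) (h : IsLocSys 𝒰 v) {Q : ℕ}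
    (hQ : HasResCard G v Q) {ψ : G →* Multiplicative (ZMod p)} (hψ : IsSmoothChar 𝒰 ψ)
    (hσ : ∃ σ, ψ σ = Multiplicative.ofAdd 1) {χ : G →* Multiplicative (ZMod N)}
    (hχ : IsUrChar Ω 𝒰 Q N χ) {y : Ωˣ} (hy : y ∈ fixU G Ω) :
    res2 ψ.ker (cyc χ (Additive.ofMul y)) ∈ B2 (subLev 𝒰 ψ.ker) (uRep ↥ψ.ker Ω) := by
  subst hN
  obtain ⟨σ, hσ⟩ := hσ
  have h₁ : IsLocSys (subLev 𝒰 ψ.ker) v := h.sub (isOpenSub_ker hψ)
  obtain ⟨Q₁, hQ₁⟩ := h₁.exists_resCard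
  obtain ⟨χ₁, hχ₁⟩ := h₁.exists_urChar hQ₁ (p ^ 0)
  obtain ⟨y', _, hy'⟩ := (h.stepRes hQ hQ₁ hψ hσ hχ hχ₁).1 y hy
  rwa [cyc_pow_zero, sub_zero] at hy'


lemma unit_zpow_mem_fixU {π : Ωˣ} (hπ : IsUnif G v (π : Ω)) (m : ℤ) : π ^ m ∈ fixU G Ω :=
  (fixU G Ω).zpow_mem ((mem_fixU_iff π).mpr hπ.1) m

/-- Lemma A: the `p`-group case -/
theorem pgroup_case (r : ℕ) (h : IsLocSys 𝒰 v) {Q : ℕ} (hQ : HasResCard G v Q)
    {χ : G →* Multiplicative (ZMod p)} (hχ : IsUrChar Ω 𝒰 Q p χ) {π : Ωˣ}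
    (hπ : IsUnif G v (π : Ω)) (U : Subgroup G) [U.Normal] (hU : IsOpenSub 𝒰 U)
    (hidx : U.index = p ^ r) {c : G × G → Additive Ωˣ} (hc : c ∈ Z2 𝒰 (uRep G Ω))
    (hres : res2 U c ∈ B2 (subLev 𝒰 U) (uRep ↥U Ω)) (hp : p • c ∈ B2 𝒰 (uRep G Ω)) :
    ∃ n : ℤ, c - n • cyc χ (Additive.ofMul π) ∈ B2 𝒰 (uRep G Ω) := by
  have hp0 : p ≠ 0 := (Fact.out : p.Prime).ne_zero
  have : NeZero p := ⟨hp0⟩
  obtain ⟨χr, hχr⟩ := h.exists_urChar hQ (p ^ r)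
  obtain ⟨y, hy, hcy⟩ := main r h hQ hχr U hU hidx c hc hres
  cases r with
  | zero =>
    refine ⟨0, ?_⟩
    rwa [cyc_pow_zero, sub_zero, ← sub_zero c, ← zero_smul ℤ (cyc χ (Additive.ofMul π))] at hcy
  | succ r =>
    -- `(χr, y^p) ~ 0`
    have h1 : cyc χr (Additive.ofMul (y ^ p)) ∈ B2 𝒰 (uRep G Ω) := by
      rw [ofMul_pow, cyc_nsmul]
      have h2 := sub_mem hp (nsmul_mem hcy p)
      rwa [nsmul_sub, sub_sub_cancel] at h2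
    obtain ⟨y', hy'fix, hvy'⟩ :=
      IsUrChar.val_of_cyc_mem_B2 h hQ hχr ((fixU G Ω).pow_mem hy p) h1
    have hy'0 : y' ≠ 0 := by
      rintro rfl
      rw [map_zero, zero_pow (pow_ne_zero _ hp0)] at hvy'
      exact (y ^ p).ne_zero ((map_eq_zero v).1 hvy')
    obtain ⟨m, hm⟩ := hπ.2.2.2 y' hy'fix hy'0
    have hvy : v (y : Ω) = v (((π ^ m) ^ (p ^ r) : Ωˣ) : Ω) := by
      apply SubAux.pow_inj hp0
      rw [Units.val_pow_eq_pow_val, map_pow] at hvy'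
      rw [hvy', hm, Units.val_pow_eq_pow_val, Units.val_zpow_eq_zpow_val, map_pow, map_zpow₀,
        ← pow_mul, pow_succ]
    have hπm := unit_zpow_mem_fixU hπ m
    have h3 := IsUrChar.cyc_sub_mem_B2_of_val_eq h hQ hχr hy ((fixU G Ω).pow_mem hπm (p ^ r)) hvy
    have h4 := cyc_proj (ρ := uRep G Ω) (N := p ^ (r + 1)) (N' := p) (d := p ^ r) (pow_succ p r)
      hχr.smooth χ (IsUrChar.proj hQ.one_lt (pow_succ p r) hχr hχ) (fixed_of_mem_fixU hπm)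
    refine ⟨m, ?_⟩
    rw [← cyc_zsmul, ← ofMul_zpow]
    rw [← ofMul_pow] at h4
    have h5 := add_mem (add_mem hcy h3) h4
    have h6 : c - cyc χr (Additive.ofMul y) +
        (cyc χr (Additive.ofMul y) - cyc χr (Additive.ofMul ((π ^ m) ^ p ^ r))) +
        (cyc χr (Additive.ofMul ((π ^ m) ^ p ^ r)) - cyc χ (Additive.ofMul (π ^ m))) =
        c - cyc χ (Additive.ofMul (π ^ m)) := by abel
    rwa [h6] at h5


/-- Lemma B: `res_P β ~ (e f) β_P` -/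
theorem res_beta (h : IsLocSys 𝒰 v) {Q : ℕ} (hQ : HasResCard G v Q)
    {χ : G →* Multiplicative (ZMod p)} (hχ : IsUrChar Ω 𝒰 Q p χ) {π : Ωˣ}
    (hπ : IsUnif G v (π : Ω)) {P : Subgroup G} (hP : IsOpenSub 𝒰 P) {Q' : ℕ}
    (hQ' : HasResCard ↥P v Q') {χ' : ↥P →* Multiplicative (ZMod p)}
    (hχ' : IsUrChar Ω (subLev 𝒰 P) Q' p χ') {π' : Ωˣ} (hπ' : IsUnif ↥P v (π' : Ω)) :
    ∃ k : ℕ, res2 P (cyc χ (Additive.ofMul π)) - k • cyc χ' (Additive.ofMul π') ∈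
      B2 (subLev 𝒰 P) (uRep ↥P Ω) := by
  have hp0 : p ≠ 0 := (Fact.out : p.Prime).ne_zero
  have : NeZero p := ⟨hp0⟩
  obtain ⟨f, _, rfl⟩ := hQ.exists_resDeg hQ'
  obtain ⟨e, _, he⟩ := hπ.exists_ramIdx hπ'
  have hπP : π ∈ fixU ↥P Ω := StepResAux.fixU_sub ((mem_fixU_iff π).mpr hπ.1) P
  have hπ'P : π' ∈ fixU ↥P Ω := (mem_fixU_iff π').mpr hπ'.1
  have h1 := cyc_pow_char (ρ := uRep ↥P Ω) hχ'.smooth (fixed_of_mem_fixU hπP) f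
  have h2 := cyc_sub_of_val_eq (pow_one p).symm (h.sub hP) hQ' hχ' hπP
    ((fixU ↥P Ω).pow_mem hπ'P e) (by rw [he, Units.val_pow_eq_pow_val, map_pow])
  refine ⟨f * e, ?_⟩
  rw [res2_cyc, IsUrChar.comp_subtype hQ.one_lt hχ hχ']
  rw [cyc_nsmul] at h1
  rw [ofMul_pow, cyc_nsmul] at h2
  have h3 := add_mem h1 (nsmul_mem h2 f)
  rwa [nsmul_sub, sub_add_sub_cancel, smul_smul] at h3


lemma exists_root (x : Ωˣ) : ∃ y : Ωˣ, y ^ p = x := by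
  have hp0 : p ≠ 0 := (Fact.out : p.Prime).ne_zero
  obtain ⟨z, hz⟩ := IsAlgClosed.exists_pow_nat_eq (x : Ω) (Nat.pos_of_ne_zero hp0)
  have hz0 : z ≠ 0 := by
    rintro rfl
    rw [zero_pow hp0] at hz
    exact x.ne_zero hz.symm
  exact ⟨Units.mk0 z hz0, Units.ext (by rw [Units.val_pow_eq_pow_val]; exact hz)⟩

lemma muEmb_comp_sub_smul {ζ : Ωˣ} (hζ : IsPrimitiveRoot ζ p) {X : Type} (c c₀ : X → ZMod p)
    (t : ZMod p) : muEmb ζ ∘ (c - t • c₀) = muEmb ζ ∘ c - t.val • (muEmb ζ ∘ c₀) := by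
  funext x
  have e : t * c₀ x = t.val • c₀ x := by rw [nsmul_eq_mul, ZMod.natCast_zmod_val]
  simp only [Function.comp_apply, Pi.sub_apply, Pi.smul_apply, smul_eq_mul]
  rw [muEmb_sub hζ, e, ← muHom_apply hζ (t.val • c₀ x), map_nsmul, muHom_apply]

lemma nsmul_muEmb_comp {ζ : Ωˣ} (hζ : IsPrimitiveRoot ζ p) {X : Type} (c : X → ZMod p) :
    p • (muEmb ζ ∘ c) = 0 := funext fun x => nsmul_muEmb hζ (c x)

end BrPAux


open BrPAux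

/-- **(l3)** every class killed by `p` is a multiple of `(χ_p, π)` -/
theorem IsLocSys.brauer_p (h : IsLocSys 𝒰 v) {Q : ℕ} (hQ : HasResCard G v Q)
    {χ : G →* Multiplicative (ZMod p)} (hχ : IsUrChar Ω 𝒰 Q p χ) {π : Ωˣ}
    (hπ : IsUnif G v (π : Ω)) {c : G × G → Additive Ωˣ} (hc : c ∈ Z2 𝒰 (uRep G Ω))
    (hp : p • c ∈ B2 𝒰 (uRep G Ω)) :
    ∃ b : ℕ, c - cyc χ (Additive.ofMul (π ^ b)) ∈ B2 𝒰 (uRep G Ω) := by
  have hpp : p.Prime := Fact.out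
  have hp0 : p ≠ 0 := hpp.ne_zero
  have : NeZero p := ⟨hp0⟩
  have hsm := h.gal.isSmooth_uRep
  obtain ⟨U, hU, hresU⟩ := exists_level_res_mem_B2_u hc
  obtain ⟨P, r, hUP, hcop, hidx⟩ := exists_sylow_open (p := p) hU
  have hUn : U.Normal := 𝒰.normal U hU
  have hP : IsOpenSub 𝒰 P := ⟨U, hU, hUP⟩
  have hPs : IsLocSys (subLev 𝒰 P) v := h.sub hP
  obtain ⟨Q', hQ'⟩ := hPs.exists_resCard
  obtain ⟨χ', hχ'⟩ := hPs.exists_urChar hQ' p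
  obtain ⟨π₀, hπ₀⟩ := hPs.disc
  obtain ⟨π', rfl⟩ : ∃ π' : Ωˣ, (π' : Ω) = π₀ := ⟨Units.mk0 π₀ hπ₀.2.1, rfl⟩
  have hπfix : π ∈ fixU G Ω := (mem_fixU_iff π).mpr hπ.1
  have hπ'fix : π' ∈ fixU ↥P Ω := (mem_fixU_iff π').mpr hπ₀.1
  set β : G × G → Additive Ωˣ := cyc χ (Additive.ofMul π) with hβ
  set β' : ↥P × ↥P → Additive Ωˣ := cyc χ' (Additive.ofMul π') with hβ'
  have hβZ : β ∈ Z2 𝒰 (uRep G Ω) := cyc_mem_Z2 hχ.smooth (fixed_of_mem_fixU hπfix)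
  have hpβ : p • β ∈ B2 𝒰 (uRep G Ω) := by
    rw [hβ, ← cyc_nsmul]
    exact nsmul_cyc_mem_B2 hχ.smooth (fixed_of_mem_fixU hπfix)
  have hpβ' : p • β' ∈ B2 (subLev 𝒰 P) (uRep ↥P Ω) := by
    rw [hβ', ← cyc_nsmul]
    exact nsmul_cyc_mem_B2 hχ'.smooth (fixed_of_mem_fixU hπ'fix)
  have hβn : β ∉ B2 𝒰 (uRep G Ω) := by
    intro hB
    have h1 := (IsUrChar.cyc_unif_pow_mem_B2_iff h hQ hχ hπ 1).1 (by rwa [pow_one])
    exact hpp.one_lt.ne' (Nat.dvd_one.1 h1)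
  have hUPn : (U.subgroupOf P).Normal := inferInstance
  have hUPo : IsOpenSub (subLev 𝒰 P) (U.subgroupOf P) := IsOpenSub.subgroupOf ⟨U, hU, le_rfl⟩
  obtain ⟨n, hn⟩ := pgroup_case r hPs hQ' hχ' hπ₀ (U.subgroupOf P) hUPo hidx
    (res2_mem_Z2_u P hc) (res2_subgroupOf_mem_B2_u P U hresU) (res2_mem_B2_u P hp)
  obtain ⟨k, hk⟩ := res_beta h hQ hχ hπ hP hQ' hχ' hπ₀
  have hpk : ¬ p ∣ k := by
    rintro ⟨t, rfl⟩
    apply hβn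
    refine mem_B2_of_res_of_coprime_u h.gal hP hcop hβZ hpβ ?_
    have h1 := add_mem hk (nsmul_mem hpβ' t)
    rwa [smul_smul, mul_comm t p, sub_add_cancel] at h1
  have hk0 : (k : ZMod p) ≠ 0 := by rwa [Ne, ZMod.natCast_eq_zero_iff]
  obtain ⟨b, hb⟩ : ∃ b : ℕ, (b : ZMod p) = (n : ZMod p) * (k : ZMod p)⁻¹ :=
    ⟨((n : ZMod p) * (k : ZMod p)⁻¹).val, ZMod.natCast_zmod_val _⟩
  have hbk : ((n - b * k : ℤ) : ZMod p) = 0 := by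
    push_cast
    rw [hb, inv_mul_cancel_right₀ hk0, sub_self]
  obtain ⟨t, ht⟩ := (ZMod.intCast_zmod_eq_zero_iff_dvd _ p).1 hbk
  have hn' : n = b * k + p * t := by linarith
  refine ⟨b, ?_⟩
  rw [ofMul_pow, cyc_nsmul, ← hβ]
  refine mem_B2_of_res_of_coprime_u h.gal hP hcop (sub_mem hc (nsmul_mem hβZ b)) ?_ ?_
  · rw [nsmul_sub, smul_comm]
    exact sub_mem hp (nsmul_mem hpβ b)
  · have e : res2 P (c - b • β) =
        (res2 P c - n • β') - b • (res2 P β - k • β') + t • (p • β') := by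
      have e1 : res2 P (c - b • β) = res2 P c - b • res2 P β := rfl
      rw [e1, hn']
      module
    rw [e]
    exact add_mem (sub_mem hn (nsmul_mem hk b)) (zsmul_mem hpβ' t)


/-- **(l4)** restriction to a normal subgroup of index `p` kills `Br(k)[p]` -/
theorem IsLocSys.res_mem_B2_of_index_p (h : IsLocSys 𝒰 v) {ψ : G →* Multiplicative (ZMod p)}
    (hψ : IsSmoothChar 𝒰 ψ) (hσ : ∃ σ, ψ σ = Multiplicative.ofAdd 1)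
    {c : G × G → Additive Ωˣ} (hc : c ∈ Z2 𝒰 (uRep G Ω)) (hp : p • c ∈ B2 𝒰 (uRep G Ω)) :
    res2 ψ.ker c ∈ B2 (subLev 𝒰 ψ.ker) (uRep ↥ψ.ker Ω) := by
  have : NeZero p := ⟨(Fact.out : p.Prime).ne_zero⟩
  obtain ⟨Q, hQ⟩ := h.exists_resCard
  obtain ⟨χ, hχ⟩ := h.exists_urChar hQ p
  obtain ⟨π₀, hπ₀⟩ := h.disc
  obtain ⟨π, rfl⟩ : ∃ π : Ωˣ, (π : Ω) = π₀ := ⟨Units.mk0 π₀ hπ₀.2.1, rfl⟩
  obtain ⟨b, hb⟩ := h.brauer_p hQ hχ hπ₀ hc hp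
  have h1 := res_cyc_ur_mem_B2 (by rw [zero_add, pow_one]) h hQ hψ hσ hχ
    ((fixU G Ω).pow_mem ((mem_fixU_iff π).mpr hπ₀.1) b)
  have h2 := add_mem (res2_mem_B2_u ψ.ker hb) h1
  have e : res2 ψ.ker (c - cyc χ (Additive.ofMul (π ^ b))) +
      res2 ψ.ker (cyc χ (Additive.ofMul (π ^ b))) = res2 ψ.ker c := by
    have e1 : res2 ψ.ker (c - cyc χ (Additive.ofMul (π ^ b))) =
      res2 ψ.ker c - res2 ψ.ker (cyc χ (Additive.ofMul (π ^ b))) := rfl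
    rw [e1, sub_add_cancel]
  rwa [e] at h2

/-- hence every class killed by `p` is `(ψ, y)`, for ANY character `ψ` of order `p` -/
theorem IsLocSys.exists_cyc_of_p_torsion (h : IsLocSys 𝒰 v) {ψ : G →* Multiplicative (ZMod p)}
    (hψ : IsSmoothChar 𝒰 ψ) (hσ : ∃ σ, ψ σ = Multiplicative.ofAdd 1)
    {c : G × G → Additive Ωˣ} (hc : c ∈ Z2 𝒰 (uRep G Ω)) (hp : p • c ∈ B2 𝒰 (uRep G Ω)) :
    ∃ y ∈ fixU G Ω, c - cyc ψ (Additive.ofMul y) ∈ B2 𝒰 (uRep G Ω) := by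
  have : NeZero p := ⟨(Fact.out : p.Prime).ne_zero⟩
  have hres := h.res_mem_B2_of_index_p hψ hσ hc hp
  obtain ⟨σ, hσ⟩ := hσ
  obtain ⟨y, hy, hcy⟩ := exists_cyc_of_res_mem_B2 (ρ := uRep G Ω) h.gal.isSmooth_uRep hψ hσ
    (h.gal.hilbert90_sub ψ.ker) hc hres
  exact ⟨y.toMul, mem_fixU_of_fixed hy, hcy⟩


/-- the generator `β` of `Br(k)[p]` -/
theorem BrPAux.exists_beta (p : ℕ) [Fact p.Prime] (h : IsLocSys 𝒰 v) :
    ∃ β ∈ Z2 𝒰 (uRep G Ω), p • β ∈ B2 𝒰 (uRep G Ω) ∧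
    β ∉ B2 𝒰 (uRep G Ω) ∧ ∀ c ∈ Z2 𝒰 (uRep G Ω), p • c ∈ B2 𝒰 (uRep G Ω) →
      ∃ b : ℕ, c - b • β ∈ B2 𝒰 (uRep G Ω) := by
  have hpp : p.Prime := Fact.out
  have : NeZero p := ⟨hpp.ne_zero⟩
  obtain ⟨Q, hQ⟩ := h.exists_resCard
  obtain ⟨χ, hχ⟩ := h.exists_urChar hQ p
  obtain ⟨π₀, hπ₀⟩ := h.disc
  obtain ⟨π, rfl⟩ : ∃ π : Ωˣ, (π : Ω) = π₀ := ⟨Units.mk0 π₀ hπ₀.2.1, rfl⟩
  have hπfix : π ∈ fixU G Ω := (mem_fixU_iff π).mpr hπ₀.1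
  refine ⟨cyc χ (Additive.ofMul π), cyc_mem_Z2 hχ.smooth (fixed_of_mem_fixU hπfix), ?_, ?_, ?_⟩
  · rw [← cyc_nsmul]
    exact nsmul_cyc_mem_B2 hχ.smooth (fixed_of_mem_fixU hπfix)
  · intro hB
    have h1 := (IsUrChar.cyc_unif_pow_mem_B2_iff h hQ hχ hπ₀ 1).1 (by rwa [pow_one])
    exact hpp.one_lt.ne' (Nat.dvd_one.1 h1)
  · intro c hc hp
    obtain ⟨b, hb⟩ := h.brauer_p hQ hχ hπ₀ hc hp
    refine ⟨b, ?_⟩
    rwa [ofMul_pow, cyc_nsmul] at hb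

theorem IsLocSys.exists_not_mem_B2_mu (h : IsLocSys 𝒰 v) {χc : G →* (ZMod p)ˣ} {ζ : Ωˣ}
    (hζ : IsPrimitiveRoot ζ p) (hχc : ∀ g, uAct G Ω g ζ = ζ ^ (χc g : ZMod p).val) :
    ∃ c₀ ∈ Z2 𝒰 (chiRep χc), c₀ ∉ B2 𝒰 (chiRep χc) := by
  obtain ⟨β, hβZ, hpβ, hβn, -⟩ := exists_beta p h
  obtain ⟨c', hc', hβc'⟩ := kummer_H2_surj h.gal exists_root hζ hχc hβZ hpβ
  refine ⟨c', hc', fun hB => hβn ?_⟩
  have h1 := add_mem hβc' (muEmb_comp_mem_B2 hζ hχc hB)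
  rwa [sub_add_cancel] at h1

/-- elementwise form of `dim = 1` -/
theorem IsLocSys.exists_smul_sub_mem_B2 (h : IsLocSys 𝒰 v) {χc : G →* (ZMod p)ˣ} {ζ : Ωˣ}
    (hζ : IsPrimitiveRoot ζ p) (hχc : ∀ g, uAct G Ω g ζ = ζ ^ (χc g : ZMod p).val)
    {c₀ c : G × G → ZMod p} (hc₀ : c₀ ∈ Z2 𝒰 (chiRep χc)) (hn : c₀ ∉ B2 𝒰 (chiRep χc))
    (hc : c ∈ Z2 𝒰 (chiRep χc)) : ∃ t : ZMod p, c - t • c₀ ∈ B2 𝒰 (chiRep χc) := by
  obtain ⟨β, hβZ, hpβ, hβn, hgen⟩ := exists_beta p h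
  have hz : ∀ c' : G × G → ZMod p, p • (muEmb ζ ∘ c') ∈ B2 𝒰 (uRep G Ω) := fun c' => by
    rw [nsmul_muEmb_comp hζ]
    exact zero_mem _
  obtain ⟨b₀, hb₀⟩ := hgen _ (muEmb_comp_mem_Z2 hζ hχc hc₀) (hz c₀)
  obtain ⟨b, hb⟩ := hgen _ (muEmb_comp_mem_Z2 hζ hχc hc) (hz c)
  have hpb₀ : ¬ p ∣ b₀ := by
    rintro ⟨s, rfl⟩
    apply hn
    refine kummer_H2_inj h.gal exists_root hζ hχc hc₀ ?_
    have h1 := add_mem hb₀ (nsmul_mem hpβ s)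
    rwa [smul_smul, mul_comm s p, sub_add_cancel] at h1
  have hb₀0 : (b₀ : ZMod p) ≠ 0 := by rwa [Ne, ZMod.natCast_eq_zero_iff]
  refine ⟨(b : ZMod p) * (b₀ : ZMod p)⁻¹, ?_⟩
  set t : ZMod p := (b : ZMod p) * (b₀ : ZMod p)⁻¹ with ht
  refine kummer_H2_inj h.gal exists_root hζ hχc
    (sub_mem hc ((Z2 𝒰 (chiRep χc)).smul_mem t hc₀)) ?_
  rw [muEmb_comp_sub_smul hζ]
  have hbk : ((b - t.val * b₀ : ℤ) : ZMod p) = 0 := by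
    push_cast
    rw [ZMod.natCast_zmod_val, ht, inv_mul_cancel_right₀ hb₀0, sub_self]
  obtain ⟨s, hs⟩ := (ZMod.intCast_zmod_eq_zero_iff_dvd _ p).1 hbk
  have hb' : (b : ℤ) = t.val * b₀ + p * s := by linarith
  have e : muEmb ζ ∘ c - t.val • (muEmb ζ ∘ c₀) =
      (muEmb ζ ∘ c - b • β) - t.val • (muEmb ζ ∘ c₀ - b₀ • β) + s • (p • β) := by
    rw [← natCast_zsmul β b, hb']
    module
  rw [e]
  exact add_mem (sub_mem hb (nsmul_mem hb₀ _)) (zsmul_mem hpβ s)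

/-- **(l3)** `dim H²(G, μ_p) = 1` -/
theorem IsLocSys.finrank_H2_mu (h : IsLocSys 𝒰 v) {χc : G →* (ZMod p)ˣ} {ζ : Ωˣ}
    (hζ : IsPrimitiveRoot ζ p) (hχc : ∀ g, uAct G Ω g ζ = ζ ^ (χc g : ZMod p).val) :
    finrank (ZMod p) (H2 𝒰 (chiRep χc)) = 1 := by
  obtain ⟨c₀, hc₀, hn⟩ := h.exists_not_mem_B2_mu hζ hχc
  refine finrank_eq_one (Submodule.Quotient.mk ⟨c₀, hc₀⟩) ?_ ?_
  · intro h0
    have h1 := (Submodule.Quotient.mk_eq_zero _).1 h0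
    exact hn h1
  · intro w
    obtain ⟨⟨c, hc⟩, rfl⟩ := Submodule.Quotient.mk_surjective _ w
    obtain ⟨t, ht⟩ := h.exists_smul_sub_mem_B2 hζ hχc hc₀ hn hc
    refine ⟨t, ?_⟩
    rw [← Submodule.Quotient.mk_smul, eq_comm, Submodule.Quotient.eq]
    exact ht

end Fermat.Agent.CFT.LS
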