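import Fermat.Agent.CFT.LS.BrP
import Fermat.Agent.CFT.F.Shapiro.Restr
import Fermat.Agent.CFT.F.Efface

/-!
# WP LS-COR : the "corestriction" `H²(G, Map(G/W, μ_p)) → H²(G, μ_p)` (sum map) is nonzero, for every level `W`.
(= third clause of `PTHyp.recip`, = RC1 of helper67.)

`[G:W] = p^a m'`, `p ∤ m'`; `P ⊇ W` from `exists_sylow_open` (`[P:W] = p^a`).  `γ := (χ_{p^(a+1)}, π) ∈ Z²(G,Ωˣ)`.
(C) `p • res_W γ ~ 0`:  `res_P γ = (χ|P, π) ~ (χ^P_{p^(a+1)}, π^f)` (`comp_subtype`, `cyc_pow_char`); `tower_res`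
    for `(P, W.subgroupOf P, a, j = 1)`: its restriction is `~ (χ^W_p, y')`, killed by `p` (`nsmul_cyc_mem_B2`);
    `res2_mem_B2_of_subgroupOf`.
(A) Shapiro (helper1, `Shapiro.Setting.mem_B2_of_sh2` with `X = G ⧸ W`, `O = Unit`): a cocycle
    `F ∈ Z²(G, Map(G/W,V))` whose evaluation at the trivial coset, restricted to `W`, is a coboundary, is a
    coboundary.  Apply to `F = p • (mapRepConst ∘ γ)`.
(B) Kummer for `Map(G/W, -)`: `F ∈ Z²(G, Map(G/W,Ωˣ))`, `p F ~ 0` ⇒ `F ~ muEmb ∘ c`, `c ∈ Z²(G, Map(G/W, μ_p))`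
    (same proof as `kummer_H2_surj`: pointwise `p`-th roots).
(D) apply the sum map: `muEmb ∘ (Σ c) ~ Σ (const γ) = [G:W] • γ = (χ_{p^(a+1)}, π^[G:W]) ≁ 0`
    (`cyc_unif_pow_mem_B2_iff`, `p^(a+1) ∤ [G:W]`), so `Σ c ∉ B²(G,μ_p)` (`muEmb_comp_mem_B2`).
-/

set_option autoImplicit false
set_option linter.unusedSectionVars false
set_option linter.unusedVariables false

namespace Fermat.Agent.CFT.LS

open Fermat.Agent.CFT Fermat.Agent.CFT.Br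

section A
variable {k : Type} [CommRing k] {G : Type} [Group G] {𝒰 : Levels G} {V : Type} [AddCommGroup V]
  [Module k V] {ρ : Representation k G V}

/-- the `G`-set `G ⧸ W` with its base point -/
noncomputable def corSys (W : Subgroup G) : Shapiro.Sys G (G ⧸ W) Unit :=
  Shapiro.Sys.ofBij (Shapiro.actQ W) (fun _ => ((1 : G) : G ⧸ W)) (fun y => by
    refine ⟨(), ?_, fun _ _ => rfl⟩
    induction y using QuotientGroup.induction_on with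
    | H h => exact ⟨h, by rw [Shapiro.actQ_mk, mul_one]⟩)

lemma corSetting {W : Subgroup G} (hW : W ∈ 𝒰.carrier) (ρ : Representation k G V) :
    Shapiro.Setting (corSys W) 𝒰 ρ (mapRep W ρ) (fun _ => W) (fun _ => Br.resRep W ρ) where
  diag h F y := rfl
  triv := ⟨W, hW, fun u hu y => Shapiro.smul_eq_of_mem (𝒰.normal W hW) hu y⟩
  stab _ h := (Shapiro.smul_mk_eq_iff (𝒰.normal W hW) h 1).symm
  res _ _ _ := rfl

/-- (A) Shapiro injectivity in degree 2 -/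
theorem mem_B2_mapRep_of_res {W : Subgroup G} (hW : W ∈ 𝒰.carrier)
    {F : G × G → (G ⧸ W → V)} (hF : F ∈ Z2 𝒰 (mapRep W ρ))
    (h : (fun s : ↥W × ↥W => F ((s.1 : G), (s.2 : G)) (QuotientGroup.mk 1)) ∈
      B2 (subLev 𝒰 W) (Br.resRep W ρ)) : F ∈ B2 𝒰 (mapRep W ρ) :=
  (corSetting hW ρ).mem_B2_of_sh2 hF (fun _ => h)

theorem mapRepConst_comp_mem_Z2 (W : Subgroup G) {c : G × G → V} (hc : c ∈ Z2 𝒰 ρ) :
    (fun g => mapRepConst (k := k) W (c g)) ∈ Z2 𝒰 (mapRep W ρ) :=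
  comp_mem_Z2 (mapRepConst (k := k) W) (mapRepConst_equiv W) hc

theorem mapRepSum_equiv (W : Subgroup G) [Fintype (G ⧸ W)] (g : G) (F : G ⧸ W → V) :
    mapRepSum (k := k) W (mapRep W ρ g F) = ρ g (mapRepSum (k := k) W F) := by
  simp only [mapRepSum, LinearMap.coe_mk, AddHom.coe_mk, mapRep_apply, map_sum]
  exact (Equiv.sum_comp (MulAction.toPerm g⁻¹ : Equiv.Perm (G ⧸ W)) (fun x => ρ g (F x)))

theorem mapRepSum_comp_mem_B2 (W : Subgroup G) [Fintype (G ⧸ W)] {F : G × G → (G ⧸ W → V)}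
    (hF : F ∈ B2 𝒰 (mapRep W ρ)) : (fun g => mapRepSum (k := k) W (F g)) ∈ B2 𝒰 ρ :=
  comp_mem_B2 (mapRepSum (k := k) W) (mapRepSum_equiv W) hF

theorem mapRepSum_comp_mem_Z2 (W : Subgroup G) [Fintype (G ⧸ W)] {F : G × G → (G ⧸ W → V)}
    (hF : F ∈ Z2 𝒰 (mapRep W ρ)) : (fun g => mapRepSum (k := k) W (F g)) ∈ Z2 𝒰 ρ :=
  comp_mem_Z2 (mapRepSum (k := k) W) (mapRepSum_equiv W) hF

end A

variable {G : Type} [Group G] {𝒰 : Levels G} {Ω : Type} [Field Ω] [MulSemiringAction G Ω]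
  {Γ₀ : Type} [LinearOrderedCommGroupWithZero Γ₀] {v : Valuation Ω Γ₀}
  [IsAlgClosed Ω] [CharZero Ω] {p : ℕ} [Fact p.Prime]

omit [MulSemiringAction G Ω] [CharZero Ω] [Fact p.Prime] in
lemma exists_unit_root (hp : 0 < p) (x : Ωˣ) : ∃ y : Ωˣ, y ^ p = x := by
  obtain ⟨y, hy⟩ := IsAlgClosed.exists_pow_nat_eq (x : Ω) hp
  have hy0 : y ≠ 0 := by
    rintro rfl
    rw [zero_pow hp.ne'] at hy
    exact x.ne_zero hy.symm
  exact ⟨Units.mk0 y hy0, Units.ext (by rw [Units.val_pow_eq_pow_val, Units.val_mk0, hy])⟩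

/-- (B) Kummer surjectivity with coefficients in `Map(G/W, -)` -/
theorem kummer_mapRep_surj (h : IsGalAct Ω 𝒰) {χc : G →* (ZMod p)ˣ} {ζ : Ωˣ}
    (hζ : IsPrimitiveRoot ζ p) (hχc : ∀ g, uAct G Ω g ζ = ζ ^ (χc g : ZMod p).val)
    {W : Subgroup G} (hW : W ∈ 𝒰.carrier) {F : G × G → (G ⧸ W → Additive Ωˣ)}
    (hF : F ∈ Z2 𝒰 (mapRep W (uRep G Ω))) (hp : p • F ∈ B2 𝒰 (mapRep W (uRep G Ω))) :
    ∃ c ∈ Z2 𝒰 (mapRep W (chiRep χc)),
      F - (fun g x => muEmb ζ (c g x)) ∈ B2 𝒰 (mapRep W (uRep G Ω)) := by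
  have hpp : p.Prime := Fact.out
  obtain ⟨a, ha, hac⟩ := hp
  have hsm : IsSmooth 𝒰 (mapRep W (uRep G Ω)) := isSmooth_mapRep h.isSmooth_uRep hW
  have hsurj : Function.Surjective (fun x : G ⧸ W → Additive Ωˣ => p • x) := by
    intro x
    choose y hy using fun t => exists_unit_root hpp.pos (x t).toMul
    refine ⟨fun t => Additive.ofMul (y t), funext fun t => ?_⟩
    change p • Additive.ofMul (y t) = x t
    rw [← ofMul_pow, hy, ofMul_toMul]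
  set b : G → (G ⧸ W → Additive Ωˣ) := Function.surjInv hsurj ∘ a with hb
  have hbC : b ∈ C1 ℤ (G ⧸ W → Additive Ωˣ) 𝒰 := ha.comp _
  have hpb : p • b = a := funext fun g => Function.surjInv_eq hsurj (a g)
  set c'' : G × G → (G ⧸ W → Additive Ωˣ) := F - d12 (mapRep W (uRep G Ω)) b with hc''
  have h2 : ∀ g x, p • c'' g x = 0 := by
    intro g x
    have h3 : p • c'' = 0 := by
      rw [hc'', nsmul_sub, ← map_nsmul, hpb, hac, sub_self]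
    exact congrFun (congrFun h3 g) x
  choose c' hc' using fun g x => exists_muEmb_eq hζ (h2 g x)
  have hc'e : (fun g x => muEmb ζ (c' g x)) = c'' := funext fun g => funext fun x => hc' g x
  have hc''Z : c'' ∈ Z2 𝒰 (mapRep W (uRep G Ω)) :=
    Submodule.sub_mem _ hF (B2_le_Z2 hsm ⟨b, hbC, rfl⟩)
  refine ⟨c', ⟨LinearMap.mem_ker.2 ?_, ?_⟩, ?_⟩
  · funext g x
    apply muEmb_injective hζ
    have h4 := congrFun (congrFun (LinearMap.mem_ker.1 hc''Z.1) g) x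
    simp only [d23_apply, Pi.add_apply, Pi.sub_apply, mapRep_apply, Pi.zero_apply] at h4 ⊢
    rw [muEmb_sub hζ, muEmb_add hζ, muEmb_sub hζ, muEmb_equivariant hζ hχc, muEmb_zero hζ,
      hc', hc', hc', hc']
    exact h4
  · obtain ⟨U, hU, hh⟩ := hc''Z.2
    refine ⟨U, hU, fun g₁ g₂ s₁ s₂ hs₁ hs₂ => funext fun x => muEmb_injective hζ ?_⟩
    rw [hc', hc', hh g₁ g₂ s₁ s₂ hs₁ hs₂]
  · rw [hc'e, hc'', sub_sub_cancel]
    exact ⟨b, hbC, rfl⟩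

lemma pow_eq_of_mul_eq {p r a m n : ℕ} (hp : p.Prime) (hm : ¬ p ∣ m) (hn : ¬ p ∣ n)
    (h : p ^ r * n = p ^ a * m) : r = a := by
  have h1 : ∀ {r a m n : ℕ}, ¬ p ∣ m → p ^ r * n = p ^ a * m → r ≤ a := by
    intro r a m n hm h
    have h2 : p ^ r ∣ p ^ a * m := Dvd.intro _ h
    have h3 : Nat.Coprime (p ^ r) m := Nat.Coprime.pow_left _ ((Nat.Prime.coprime_iff_not_dvd hp).2 hm)
    exact (Nat.pow_dvd_pow_iff_le_right hp.one_lt).1 (h3.dvd_of_dvd_mul_right h2)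
  exact le_antisymm (h1 hm h) (h1 hn h.symm)

/-- (C) -/
theorem IsLocSys.p_smul_res_level_mem_B2 (h : IsLocSys 𝒰 v) {Q a m' : ℕ} (hQ : HasResCard G v Q)
    {W : Subgroup G} (hW : W ∈ 𝒰.carrier) (hidx : W.index = p ^ a * m') (hm' : ¬ p ∣ m')
    {χ : G →* Multiplicative (ZMod (p ^ (a + 1)))} (hχ : IsUrChar Ω 𝒰 Q (p ^ (a + 1)) χ)
    {y : Ωˣ} (hy : y ∈ fixU G Ω) :
    p • res2 W (cyc χ (Additive.ofMul y)) ∈ B2 (subLev 𝒰 W) (uRep ↥W Ω) := by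
  have hpp : p.Prime := Fact.out
  have hWn : W.Normal := 𝒰.normal W hW
  obtain ⟨P, r, hWP, hcop, hPr⟩ := exists_sylow_open (p := p) hW
  obtain rfl : r = a := by
    refine pow_eq_of_mul_eq hpp hm' ((Nat.Prime.coprime_iff_not_dvd hpp).1 hcop) ?_
    rw [← hidx, ← hPr]
    exact Subgroup.relIndex_mul_index hWP
  have hPo : IsOpenSub 𝒰 P := ⟨W, hW, hWP⟩
  have hP : IsLocSys (subLev 𝒰 P) v := h.sub hPo
  obtain ⟨Q', hQ'⟩ := hP.exists_resCard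
  obtain ⟨f, hf, rfl⟩ := hQ.exists_resDeg hQ'
  have : NeZero (p ^ (r + 1)) := ⟨pow_ne_zero _ hpp.ne_zero⟩
  have : NeZero (p ^ 1) := ⟨pow_ne_zero _ hpp.ne_zero⟩
  obtain ⟨χP, hχP⟩ := hP.exists_urChar hQ' (p ^ (r + 1))
  have hcomp : χ.comp P.subtype = χP ^ f := hχ.comp_subtype hQ.one_lt hχP
  have hyP : y ∈ fixU ↥P Ω := StepResAux.fixU_sub hy P
  have h1 : res2 P (cyc χ (Additive.ofMul y)) - cyc χP (f • Additive.ofMul y) ∈
      B2 (subLev 𝒰 P) (uRep ↥P Ω) := by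
    rw [res2_cyc, hcomp]
    exact cyc_pow_char hχP.smooth (StepResAux.uRep_fix hyP) f
  have hW'o : IsOpenSub (subLev 𝒰 P) (W.subgroupOf P) :=
    IsOpenSub.subgroupOf ⟨W, hW, le_rfl⟩
  have hW' : IsLocSys (subLev (subLev 𝒰 P) (W.subgroupOf P)) v := hP.sub hW'o
  obtain ⟨Q'', hQ''⟩ := hW'.exists_resCard
  obtain ⟨χ', hχ'⟩ := hW'.exists_urChar hQ'' (p ^ 1)
  obtain ⟨y', hy', h2⟩ := tower_res r (j := 1) hP hQ' hχP (W.subgroupOf P) hW'o hPr hQ'' χ' hχ'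
    (y ^ f) ((fixU ↥P Ω).pow_mem hyP f)
  have h3 : p • cyc χ' (Additive.ofMul y') ∈
      B2 (subLev (subLev 𝒰 P) (W.subgroupOf P)) (uRep ↥(W.subgroupOf P) Ω) := by
    have := nsmul_cyc_mem_B2 (𝒰 := subLev (subLev 𝒰 P) (W.subgroupOf P)) hχ'.smooth
      (StepResAux.uRep_fix hy')
    rw [cyc_nsmul] at this
    have e : (p ^ 1) • cyc χ' (Additive.ofMul y') = p • cyc χ' (Additive.ofMul y') :=
      congrArg (fun n : ℕ => n • cyc χ' (Additive.ofMul y')) (pow_one p)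
    rwa [e] at this
  have h4 := res2_mem_B2 (W.subgroupOf P) h1
  refine res2_mem_B2_of_subgroupOf (ρ := uRep G Ω) (c := p • cyc χ (Additive.ofMul y)) hWP ?_
  have h5 := Submodule.add_mem _ (Submodule.smul_of_tower_mem _ p (Submodule.add_mem _ h4 h2)) h3
  have e : res2 (W.subgroupOf P) (res2 P (p • cyc χ (Additive.ofMul y))) =
      p • (res2 (W.subgroupOf P) (res2 P (cyc χ (Additive.ofMul y)) -
          cyc χP (f • Additive.ofMul y)) +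
        (res2 (W.subgroupOf P) (cyc χP (Additive.ofMul (y ^ f))) - cyc χ' (Additive.ofMul y'))) +
      p • cyc χ' (Additive.ofMul y') := by
    funext s
    simp only [Function.comp_apply, Pi.smul_apply, Pi.add_apply, Pi.sub_apply, ofMul_pow]
    rw [← nsmul_add]
    congr 1
    abel
  rw [e]
  exact h5

/-- **LS-COR** -/
theorem IsLocSys.exists_cores_not_mem_B2 (h : IsLocSys 𝒰 v) {χc : G →* (ZMod p)ˣ} {ζ : Ωˣ}
    (hζ : IsPrimitiveRoot ζ p) (hχc : ∀ g, uAct G Ω g ζ = ζ ^ (χc g : ZMod p).val)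
    {W : Subgroup G} (hW : W ∈ 𝒰.carrier) [Fintype (G ⧸ W)] :
    ∃ c ∈ Z2 𝒰 (mapRep W (chiRep χc)),
      (fun g => mapRepSum (k := ZMod p) W (c g)) ∉ B2 𝒰 (chiRep χc) := by
  have hpp : p.Prime := Fact.out
  obtain ⟨Q, hQ⟩ := h.exists_resCard
  have hfi := 𝒰.finiteIndex W hW
  obtain ⟨a, m', hm', hidx⟩ := Nat.exists_eq_pow_mul_and_not_dvd hfi.index_ne_zero p hpp.ne_one
  have : NeZero (p ^ (a + 1)) := ⟨pow_ne_zero _ hpp.ne_zero⟩
  obtain ⟨χ, hχ⟩ := h.exists_urChar hQ (p ^ (a + 1))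
  obtain ⟨π₀, hπ₀⟩ := h.disc
  set π : Ωˣ := Units.mk0 π₀ hπ₀.2.1 with hπdef
  have hπ : IsUnif G v (π : Ω) := hπ₀
  have hπfix : π ∈ fixU G Ω := (mem_fixU_iff π).2 hπ₀.1
  set γ : G × G → Additive Ωˣ := cyc χ (Additive.ofMul π) with hγdef
  have hγ : γ ∈ Z2 𝒰 (uRep G Ω) := cyc_mem_Z2 hχ.smooth (StepResAux.uRep_fix hπfix)
  set F : G × G → (G ⧸ W → Additive Ωˣ) := fun g => mapRepConst (k := ℤ) W (γ g) with hFdef
  have hF : F ∈ Z2 𝒰 (mapRep W (uRep G Ω)) := mapRepConst_comp_mem_Z2 W hγ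
  have hpF : p • F ∈ B2 𝒰 (mapRep W (uRep G Ω)) := by
    refine mem_B2_mapRep_of_res hW (Submodule.smul_of_tower_mem _ p hF) ?_
    exact h.p_smul_res_level_mem_B2 hQ hW hidx hm' hχ hπfix
  obtain ⟨c, hc, hcF⟩ := kummer_mapRep_surj h.gal hζ hχc hW hF hpF
  refine ⟨c, hc, fun hB => ?_⟩
  have h1 := mapRepSum_comp_mem_B2 W hcF
  have h2 : (fun g => mapRepSum (k := ℤ) W ((F - fun g x => muEmb ζ (c g x)) g)) =
      W.index • γ - muEmb ζ ∘ (fun g => mapRepSum (k := ZMod p) W (c g)) := by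
    funext g
    simp only [mapRepSum, LinearMap.coe_mk, AddHom.coe_mk, Pi.sub_apply, Pi.smul_apply,
      Function.comp_apply, hFdef, mapRepConst]
    rw [Finset.sum_sub_distrib, Finset.sum_const, Finset.card_univ, ← muHom_apply hζ, map_sum,
      Subgroup.index_eq_card, Nat.card_eq_fintype_card]
    rfl
  have h3 := muEmb_comp_mem_B2 hζ hχc hB
  have h4 : W.index • γ ∈ B2 𝒰 (uRep G Ω) := by
    have := Submodule.add_mem _ h1 h3
    rwa [h2, sub_add_cancel] at this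
  rw [hγdef, ← cyc_nsmul, ← ofMul_pow] at h4
  have h5 := (hχ.cyc_unif_pow_mem_B2_iff h hQ hπ W.index).1 h4
  rw [hidx, pow_succ] at h5
  exact hm' (Nat.dvd_of_mul_dvd_mul_left (pow_pos hpp.pos a) h5)

/-- the form needed by `Recip.recip_of` -/
theorem IsLocSys.exists_cores_sub_mem_B2 (h : IsLocSys 𝒰 v) {χc : G →* (ZMod p)ˣ} {ζ : Ωˣ}
    (hζ : IsPrimitiveRoot ζ p) (hχc : ∀ g, uAct G Ω g ζ = ζ ^ (χc g : ZMod p).val)
    {x₀ : G × G → ZMod p} (hx₀ : x₀ ∈ Z2 𝒰 (chiRep χc))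
    {W : Subgroup G} (hW : W ∈ 𝒰.carrier) [Fintype (G ⧸ W)] :
    ∃ c ∈ Z2 𝒰 (mapRep W (chiRep χc)),
      (fun g => mapRepSum (k := ZMod p) W (c g)) - x₀ ∈ B2 𝒰 (chiRep χc) := by
  obtain ⟨c₁, hc₁, hn⟩ := h.exists_cores_not_mem_B2 hζ hχc hW
  obtain ⟨t, ht⟩ := h.exists_smul_sub_mem_B2 hζ hχc (mapRepSum_comp_mem_Z2 W hc₁) hn hx₀
  refine ⟨t • c₁, Submodule.smul_mem _ t hc₁, ?_⟩
  have h1 := Submodule.neg_mem _ ht
  have e : (fun g => mapRepSum (k := ZMod p) W ((t • c₁) g)) - x₀ =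
      -(x₀ - t • fun g => mapRepSum (k := ZMod p) W (c₁ g)) := by
    funext g
    simp only [Pi.sub_apply, Pi.smul_apply, Pi.neg_apply, map_smul, neg_sub]
  rw [e]
  exact h1

end Fermat.Agent.CFT.LS
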