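import Fermat.Agent.CFT.Br.Defs

/-!
# CFT / layer LS : abstract "local systems".  Definitions.

A local system is `(G, 𝒰, Ω, v)`: `G` acts on the algebraically closed field `Ω` of characteristic 0
as a Galois group with open subgroups `𝒰` (`IsGalAct`), `v` is a `G`-invariant valuation on `Ω`, and
the fixed field `k = Ω^G` is discretely valued with finite residue field.
Model: `G = D_A ⊓ Fix L ≤ G_ℚ`, `Ω = ℚ̄`, `v = A.valuation`; then `k` is the henselisation of `L`.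
"Hensel's lemma" is replaced by: *a root which is closer to `x ∈ k` than all its conjugates is fixed
by `G`* (because `G` acts by isometries).
-/

set_option autoImplicit false

namespace Fermat.Agent.CFT.LS

open Fermat.Agent.CFT Fermat.Agent.CFT.Br

variable (G : Type) [Group G] {Ω : Type} [Field Ω] [MulSemiringAction G Ω]
  {Γ₀ : Type} [LinearOrderedCommGroupWithZero Γ₀]

/-- `x ∈ Ω^G` -/
def Fix (x : Ω) : Prop := ∀ g : G, g • x = x

/-- `π` is a uniformiser of `k = Ω^G` -/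
def IsUnif (v : Valuation Ω Γ₀) (π : Ω) : Prop :=
  Fix G π ∧ π ≠ 0 ∧ v π < 1 ∧ ∀ x, Fix G x → x ≠ 0 → ∃ n : ℤ, v x = v π ^ n

/-- the residue field of `k = Ω^G` has `Q` elements (characterisation without residue fields):
`x^Q ≡ x` on `O_k`, and `μ_{Q-1} ⊆ k`. -/
structure HasResCard (v : Valuation Ω Γ₀) (Q : ℕ) : Prop where
  isPrimePow : IsPrimePow Q
  val_lt : v (Q : Ω) < 1
  pow : ∀ x, Fix G x → v x ≤ 1 → v (x ^ Q - x) < 1
  root : ∀ ω : Ω, ω ^ (Q - 1) = 1 → Fix G ω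

variable {G}

/-- local system -/
structure IsLocSys (𝒰 : Levels G) (v : Valuation Ω Γ₀) : Prop where
  gal : IsGalAct Ω 𝒰
  inv : ∀ (g : G) (x : Ω), v (g • x) = v x
  disc : ∃ π : Ω, IsUnif G v π
  fin : ∃ T : Finset Ω, ∀ x, Fix G x → v x ≤ 1 → ∃ t ∈ T, v (x - t) < 1

variable (Ω) in
/-- `χ` is the unramified character of degree `n`: `g ω = ω ^ (Q ^ χ(g))` on `μ_{Q^n - 1}` -/
structure IsUrChar (𝒰 : Levels G) (Q n : ℕ) (χ : G →* Multiplicative (ZMod n)) : Prop where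
  smooth : IsSmoothChar 𝒰 χ
  spec : ∀ (g : G) (ω : Ω), ω ^ (Q ^ n - 1) = 1 → g • ω = ω ^ (Q ^ (χ g).toAdd.val)
  surj : ∃ σ : G, χ σ = Multiplicative.ofAdd 1

/-- the unit of `Ω` attached to a nonzero element, as an element of `Additive Ωˣ` -/
noncomputable def aU (x : Ω) (hx : x ≠ 0) : Additive Ωˣ := Additive.ofMul (Units.mk0 x hx)

lemma uRep_sub (H : Subgroup G) : resRep H (uRep G Ω) = uRep ↥H Ω := rfl

lemma fix_sub_iff (H : Subgroup G) (x : Ω) : Fix ↥H x ↔ ∀ s ∈ H, s • x = x :=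
  ⟨fun h s hs => h ⟨s, hs⟩, fun h s => h s.1 s.2⟩

lemma mem_fixU_iff (u : Ωˣ) : u ∈ fixU G Ω ↔ Fix G (u : Ω) :=
  ⟨fun h g => congrArg Units.val (h g), fun h g => Units.ext (h g)⟩

end Fermat.Agent.CFT.LS
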