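import Fermat.Agent.CFT.LS.Basic

/-!
# WP LS-HENSEL : `p`-th roots of elements close to `1` ("the closest root is fixed").

`x ∈ k`, `v (x - 1) < v p · v (ζ - 1)`  (`ζ` a primitive `p`-th root of unity; recall
`v (ζ - 1)^(p-1) = v p`, from `∏_{0<i<p} (1 - ζ^i) = p` and `v (1 - ζ^i) = v (1 - ζ)`).
Let `y_0` be any root of `Y^p = x`; the roots are `y_0 ζ^i` and `∏_i (1 - y_0 ζ^i) = 1 - x`.
If all `v (1 - y_i) ≥ v (1 - ζ)` then `v (1 - x) ≥ v (1-ζ)^p = v p · v (1-ζ)`: contradiction.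
So some root `y` has `v (1 - y) < v (1 - ζ)`; then `v (1 - y ζ^i) = v (1 - ζ)` for `i ≠ 0`
(`1 - y ζ^i = (1 - y) + y (1 - ζ^i)`), so `v (1 - x) = v (1 - y) · v p`, `y` is the unique root with
`v (1 - y) < v (1 - ζ)`, and `g y` is again such a root: `g y = y`.
-/

set_option autoImplicit false

namespace Fermat.Agent.CFT.LS

open Fermat.Agent.CFT Fermat.Agent.CFT.Br

variable {G : Type} [Group G] {Ω : Type} [Field Ω] [MulSemiringAction G Ω]
  {Γ₀ : Type} [LinearOrderedCommGroupWithZero Γ₀] {v : Valuation Ω Γ₀}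

lemma val_geom_sum_le_one_of_root {μ : Ω} {m : ℕ} (hm : m ≠ 0) (hμ : μ ^ m = 1) (i : ℕ) :
    v (∑ j ∈ Finset.range i, μ ^ j) ≤ 1 := by
  refine Valuation.map_sum_le _ (fun j _ => ?_)
  rw [map_pow, val_eq_one_of_pow_eq_one hm hμ, one_pow]

/-- All nontrivial `p`-th roots of unity are at the same distance of `1`. -/
theorem val_root_sub_one_eq {p : ℕ} (hp : p.Prime) {ζ ν : Ω} (hζ : IsPrimitiveRoot ζ p)
    (hν : ν ^ p = 1) (hν1 : ν ≠ 1) : v (ν - 1) = v (ζ - 1) := by
  have : NeZero p := ⟨hp.ne_zero⟩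
  have key : ∀ {a b : Ω}, a ^ p = 1 → (∃ i : ℕ, a ^ i = b) → v (b - 1) ≤ v (a - 1) := by
    rintro a b ha ⟨i, rfl⟩
    rw [← mul_geom_sum a i, map_mul]
    calc _ ≤ v (a - 1) * 1 := mul_le_mul_right (val_geom_sum_le_one_of_root hp.ne_zero ha i) _
      _ = _ := mul_one _
  have hν' : IsPrimitiveRoot ν p := by
    have h1 : orderOf ν ∣ p := orderOf_dvd_of_pow_eq_one hν
    rcases (Nat.dvd_prime hp).mp h1 with h | h
    · exact absurd (orderOf_eq_one_iff.mp h) hν1
    · rw [← h]; exact IsPrimitiveRoot.orderOf ν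
  refine le_antisymm (key hζ.pow_eq_one ?_) (key hν ?_)
  · obtain ⟨i, -, hi⟩ := hζ.eq_pow_of_pow_eq_one hν
    exact ⟨i, hi⟩
  · obtain ⟨i, -, hi⟩ := hν'.eq_pow_of_pow_eq_one hζ.pow_eq_one
    exact ⟨i, hi⟩

theorem val_zeta_sub_one_pow {p : ℕ} (hp : p.Prime) {ζ : Ω} (hζ : IsPrimitiveRoot ζ p) :
    v (ζ - 1) ^ (p - 1) = v (p : Ω) := by
  obtain ⟨n, rfl⟩ : ∃ n, p = n + 1 := ⟨p - 1, by have := hp.pos; omega⟩
  have hprod := hζ.prod_one_sub_pow_eq_order
  have h1 : ((n + 1 : ℕ) : Ω) = (n : Ω) + 1 := by push_cast; ring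
  rw [h1, ← hprod, map_prod, Nat.add_sub_cancel]
  symm
  calc _ = ∏ _k ∈ Finset.range n, v (ζ - 1) := by
        refine Finset.prod_congr rfl (fun k hk => ?_)
        rw [← neg_sub, Valuation.map_neg]
        refine val_root_sub_one_eq hp hζ (by rw [← pow_mul, mul_comm, pow_mul, hζ.pow_eq_one,
          one_pow]) ?_
        intro h
        have h2 := hζ.dvd_of_pow_eq_one _ h
        have h3 := Nat.le_of_dvd (Nat.succ_pos k) h2
        rw [Finset.mem_range] at hk
        omega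
    _ = _ := by rw [Finset.prod_const, Finset.card_range]

theorem hensel_root [IsAlgClosed Ω] (hinv : ∀ (g : G) (x : Ω), v (g • x) = v x) {p : ℕ}
    (hp : p.Prime) {ζ : Ω} (hζ : IsPrimitiveRoot ζ p) {x : Ω} (hx : Fix G x)
    (hv : v (x - 1) < v (p : Ω) * v (ζ - 1)) :
    ∃ y : Ω, Fix G y ∧ y ^ p = x ∧ v (y - 1) * v (p : Ω) = v (x - 1) := by
  classical
  have hpp : p = (p - 1) + 1 := by have := hp.pos; omega
  have hv' : v (x - 1) < v (ζ - 1) ^ p := by
    rw [hpp, pow_succ, val_zeta_sub_one_pow hp hζ]; exact hv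
  have hζ1 : v (ζ - 1) ≤ 1 := by
    refine (v.map_sub _ _).trans (max_le ?_ (by rw [map_one]))
    rw [val_eq_one_of_pow_eq_one hp.ne_zero hζ.pow_eq_one]
  obtain ⟨y₀, hy₀⟩ := IsAlgClosed.exists_pow_nat_eq x hp.pos
  have hprod := hζ.pow_sub_pow_eq_prod_sub_mul (1 : Ω) y₀ hp.pos
  rw [one_pow, hy₀] at hprod
  -- some root is close to `1`
  obtain ⟨μ, hμ, hμlt⟩ : ∃ μ ∈ Polynomial.nthRootsFinset p (1 : Ω),
      v (1 - μ * y₀) < v (ζ - 1) := by
    by_contra hcon
    push Not at hcon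
    have h1 : v (ζ - 1) ^ p ≤ v (1 - x) := by
      rw [hprod, map_prod]
      calc v (ζ - 1) ^ p
          = ∏ _i ∈ Polynomial.nthRootsFinset p (1 : Ω), v (ζ - 1) := by
            rw [Finset.prod_const, hζ.card_nthRootsFinset]
        _ ≤ _ := Finset.prod_le_prod' hcon
    rw [← neg_sub x 1, Valuation.map_neg] at h1
    exact absurd hv' (not_lt.mpr h1)
  have hμp : μ ^ p = 1 := (Polynomial.mem_nthRootsFinset hp.pos 1).mp hμ
  set y := μ * y₀ with hy
  have hyp : y ^ p = x := by rw [hy, mul_pow, hμp, one_mul, hy₀]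
  have hy1 : v (y - 1) < v (ζ - 1) := by
    rw [← neg_sub, Valuation.map_neg]; exact hμlt
  have hyv : v y = 1 := by
    have h2 : y = 1 + (y - 1) := by ring
    rw [h2, v.map_add_eq_of_lt_left (by rw [map_one]; exact hy1.trans_le hζ1), map_one]
  have hy0 : y ≠ 0 := by
    rintro h
    rw [h, map_zero] at hyv
    exact zero_ne_one hyv
  refine ⟨y, fun σ => ?_, hyp, ?_⟩
  · by_contra hne
    set ν := σ • y / y with hν
    have hνp : ν ^ p = 1 := by
      rw [hν, div_pow, ← smul_pow', hyp, hx σ, div_self]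
      rw [← hyp]; exact pow_ne_zero _ hy0
    have hν1 : ν ≠ 1 := by
      intro h
      rw [hν, div_eq_one_iff_eq hy0] at h
      exact hne h
    have h3 := val_root_sub_one_eq (v := v) hp hζ hνp hν1
    have h4 : σ • y - y = (ν - 1) * y := by
      rw [hν]; field_simp
    have h5 : v (σ • y - y) = v (ζ - 1) := by
      rw [h4, map_mul, h3, hyv, mul_one]
    have h6 : v (σ • y - 1) < v (ζ - 1) := by
      have : σ • y - 1 = σ • (y - 1) := by rw [smul_sub, smul_one]
      rw [this, hinv]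
      exact hy1
    have h7 : v (σ • y - y) < v (ζ - 1) := by
      have : σ • y - y = (σ • y - 1) - (y - 1) := by ring
      rw [this]
      exact lt_of_le_of_lt (v.map_sub _ _) (max_lt h6 hy1)
    rw [h5] at h7
    exact lt_irrefl _ h7
  · have hprod2 := hζ.pow_sub_pow_eq_prod_sub_mul y (1 : Ω) hp.pos
    rw [one_pow, hyp] at hprod2
    have h1mem : (1 : Ω) ∈ Polynomial.nthRootsFinset p (1 : Ω) :=
      (Polynomial.mem_nthRootsFinset hp.pos 1).mpr (one_pow p)
    rw [hprod2, map_prod, ← Finset.mul_prod_erase _ _ h1mem, mul_one]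
    congr 1
    rw [← val_zeta_sub_one_pow hp hζ]
    calc v (ζ - 1) ^ (p - 1)
        = ∏ _i ∈ (Polynomial.nthRootsFinset p (1 : Ω)).erase 1, v (ζ - 1) := by
          rw [Finset.prod_const, Finset.card_erase_of_mem h1mem, hζ.card_nthRootsFinset]
      _ = _ := by
          refine Finset.prod_congr rfl (fun ν hν => ?_)
          rw [Finset.mem_erase] at hν
          have hνp : ν ^ p = 1 := (Polynomial.mem_nthRootsFinset hp.pos 1).mp hν.2
          have h3 := val_root_sub_one_eq (v := v) hp hζ hνp hν.1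
          have h4 : y - ν * 1 = (y - 1) - (ν - 1) := by ring
          have h5 : v (y - 1 - (ν - 1)) = v (ν - 1) :=
            v.map_sub_eq_of_lt_right (by rw [h3]; exact hy1)
          rw [h4, h5, h3]

end Fermat.Agent.CFT.LS
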