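import Fermat.Agent.CFT.LS.StepRes
import Fermat.Agent.CFT.Br.Split

/-!
# WP LS-MAIN : every class split by a normal open subgroup of index `p^r` is unramified: `c ~ (χ_{p^r}, y)`.

Induction on `r` over ALL local systems.  `r = 0`: `U = G`, `c ~ 0 = (χ_1, 1)`.
`r + 1`: the `p`-group `G/U` has a normal subgroup of index `p`: `ψ : G → ZMod p` onto, `U ≤ G₁ = ker ψ`,
`[G₁ : U] = p^r`.  Induction for `(G₁, U.subgroupOf G₁, res c)` (`res2_subgroupOf_mem_B2`):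
`res c ~ (χ¹_{p^r}, y₁)`.  `stepRes` (second part): `y ∈ k` with `res (χ_{p^(r+1)}, y) ~ (χ¹_{p^r}, y₁)`.
So `c - (χ_{p^(r+1)}, y)` dies on `G₁`: `~ (ψ, y₂)` (BR-SPLIT).
CLAIM `(ψ, y₂) ~ (χ_p, π^b)` for some `b`: `β = (χ_p, π)` dies on `G₁` (`stepRes` with `j = 0`: `χ¹_1` is
trivial), so `β ~ (ψ, y₀)` (BR-SPLIT); `β ≁ 0` (`cyc_unif_pow_mem_B2_iff`), so `(ψ,y₀) ≁ 0` and
`(ψ, y₂) ~ b (ψ, y₀) ~ b β` (`cyc_sub_nsmul_mem_B2`).
Finally `(χ_p, π^b) ~ (χ_{p^(r+1)}, π^(b p^r))` (`cyc_proj`).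

`tower_res`: same induction, first part of `stepRes`.
-/

set_option autoImplicit false
set_option linter.unusedSectionVars false

namespace Fermat.Agent.CFT.LS

open Fermat.Agent.CFT Fermat.Agent.CFT.Br

variable {Ω : Type} [Field Ω] {Γ₀ : Type} [LinearOrderedCommGroupWithZero Γ₀] {v : Valuation Ω Γ₀}
  [IsAlgClosed Ω] [CharZero Ω] {p : ℕ} [Fact p.Prime]

/-- (group theory) a normal open subgroup of index `p^(r+1)` lies in the kernel of a smooth character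
onto `ZMod p` -/
theorem exists_char_of_index_pow {G : Type} [Group G] {𝒰 : Levels G} {U : Subgroup G} [U.Normal]
    (hU : IsOpenSub 𝒰 U) {r : ℕ} (hidx : U.index = p ^ (r + 1)) :
    ∃ ψ : G →* Multiplicative (ZMod p), IsSmoothChar 𝒰 ψ ∧ (∃ σ, ψ σ = Multiplicative.ofAdd 1) ∧
      U ≤ ψ.ker ∧ (U.subgroupOf ψ.ker).index = p ^ r := by
  have hp : p.Prime := Fact.out
  have hcard : Nat.card (G ⧸ U) = p ^ (r + 1) := hidx
  have : Finite (G ⧸ U) := Nat.finite_of_card_ne_zero (by rw [hcard]; exact pow_ne_zero _ hp.ne_zero)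
  obtain ⟨K, hK⟩ := Sylow.exists_subgroup_card_pow_prime (G := G ⧸ U) p (n := r)
    (by rw [hcard]; exact pow_dvd_pow p (Nat.le_succ r))
  have hKidx : K.index = p := by
    have h1 := K.card_mul_index
    rw [hK, hcard, pow_succ] at h1
    exact Nat.eq_of_mul_eq_mul_left (pow_pos hp.pos r) h1
  have hKn : K.Normal := by
    apply Subgroup.normal_of_index_eq_minFac_card
    rw [hKidx, hcard, hp.pow_minFac (Nat.succ_ne_zero r)]
  have hc1 : Nat.card ((G ⧸ U) ⧸ K) = p := hKidx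
  have hc2 : Nat.card (Multiplicative (ZMod p)) = p := by
    rw [Nat.card_eq_fintype_card]; simp [ZMod.card]
  let e : (G ⧸ U) ⧸ K ≃* Multiplicative (ZMod p) := mulEquivOfPrimeCardEq hc1 hc2
  let ψ : G →* Multiplicative (ZMod p) :=
    e.toMonoidHom.comp ((QuotientGroup.mk' K).comp (QuotientGroup.mk' U))
  have hsurj : Function.Surjective ψ :=
    e.surjective.comp ((QuotientGroup.mk'_surjective K).comp (QuotientGroup.mk'_surjective U))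
  have hUker : U ≤ ψ.ker := by
    intro s hs
    rw [MonoidHom.mem_ker]
    have : QuotientGroup.mk' U s = 1 := (QuotientGroup.eq_one_iff s).2 hs
    simp only [ψ, MonoidHom.comp_apply, this, map_one]
  refine ⟨ψ, ?_, hsurj _, hUker, ?_⟩
  · obtain ⟨U', hU', hle⟩ := hU
    exact ⟨U', hU', fun s hs => MonoidHom.mem_ker.1 (hUker (hle hs))⟩
  · have h1 : ψ.ker.index = p := by
      rw [Subgroup.index_ker, MonoidHom.range_eq_top.2 hsurj, Nat.card_congr Subgroup.topEquiv.toEquiv,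
        hc2]
    have h2 := Subgroup.relIndex_mul_index hUker
    rw [h1, hidx, pow_succ] at h2
    exact Nat.eq_of_mul_eq_mul_right hp.pos h2

namespace MainAux

lemma isOpenSub_ker {G : Type} [Group G] {𝒰 : Levels G} {N : ℕ}
    {ψ : G →* Multiplicative (ZMod N)} (hψ : IsSmoothChar 𝒰 ψ) : IsOpenSub 𝒰 ψ.ker := by
  obtain ⟨U, hU, h⟩ := hψ
  exact ⟨U, hU, fun s hs => MonoidHom.mem_ker.2 (h s hs)⟩

lemma cyc_eq_zero_of_eq_one {G : Type} [Group G] {V : Type} [AddCommGroup V] {N : ℕ} (hN : N = 1)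
    (χ : G →* Multiplicative (ZMod N)) (y : V) : cyc χ y = 0 := by
  subst hN
  ext g
  have h : ∀ a : ZMod 1, a.val = 0 := fun a => by
    have := ZMod.val_lt a
    omega
  simp [cyc_apply, carry, h]

lemma fixed_of_mem_fixU {G : Type} [Group G] [MulSemiringAction G Ω] {y : Ωˣ}
    (hy : y ∈ fixU G Ω) : ∀ g, uRep G Ω g (Additive.ofMul y) = Additive.ofMul y := fun g => by
  rw [uRep_apply]
  exact congrArg Additive.ofMul (hy g)

lemma mem_fixU_of_fixed {G : Type} [Group G] [MulSemiringAction G Ω] {y : Additive Ωˣ}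
    (hy : ∀ g, uRep G Ω g y = y) : y.toMul ∈ fixU G Ω := fun g =>
  congrArg Additive.toMul (hy g)

/-- an unramified class of degree `p` dies on every normal subgroup of index `p` -/
lemma res_cyc_mem_B2 {G : Type} [Group G] [MulSemiringAction G Ω] {𝒰 : Levels G}
    (h : IsLocSys 𝒰 v) {Q : ℕ} (hQ : HasResCard G v Q) {ψ : G →* Multiplicative (ZMod p)}
    (hψ : IsSmoothChar 𝒰 ψ) {σ : G} (hσ : ψ σ = Multiplicative.ofAdd 1) {N : ℕ}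
    (hN : N = p ^ (0 + 1)) {χ : G →* Multiplicative (ZMod N)} (hχ : IsUrChar Ω 𝒰 Q N χ)
    {y : Ωˣ} (hy : y ∈ fixU G Ω) :
    res2 ψ.ker (cyc χ (Additive.ofMul y)) ∈ B2 (subLev 𝒰 ψ.ker) (uRep ↥ψ.ker Ω) := by
  subst hN
  have h₁ : IsLocSys (subLev 𝒰 ψ.ker) v := h.sub (isOpenSub_ker hψ)
  obtain ⟨Q₁, hQ₁⟩ := h₁.exists_resCard
  obtain ⟨χ₁, hχ₁⟩ := h₁.exists_urChar hQ₁ (p ^ 0)
  obtain ⟨y', -, hy'⟩ := (h.stepRes hQ hQ₁ hψ hσ hχ hχ₁).1 y hy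
  rwa [cyc_eq_zero_of_eq_one (pow_zero p) χ₁, sub_zero] at hy'

/-- a class which dies on `⊤` is trivial -/
lemma mem_B2_of_res_top {k : Type} [CommRing k] {G : Type} [Group G] {V : Type} [AddCommGroup V]
    [Module k V] {𝒰 : Levels G} {ρ : Representation k G V} {U : Subgroup G} (hU : U = ⊤)
    {c : G × G → V} (h : res2 U c ∈ B2 (subLev 𝒰 U) (Br.resRep U ρ)) : c ∈ B2 𝒰 ρ := by
  subst hU
  let r : G →* ↥(⊤ : Subgroup G) :=
    { toFun := fun g => ⟨g, Subgroup.mem_top g⟩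
      map_one' := rfl
      map_mul' := fun _ _ => rfl }
  have hr : ∀ W ∈ (subLev 𝒰 (⊤ : Subgroup G)).carrier, ∃ W' ∈ 𝒰.carrier, W' ≤ W.comap r := by
    rintro _ ⟨W, hW, rfl⟩
    exact ⟨W, hW, fun s hs => hs⟩
  obtain ⟨x, hx, hd⟩ := h
  refine ⟨x ∘ r, comp_hom_mem_C1 r hr hx, ?_⟩
  funext g
  have := congrFun hd (r g.1, r g.2)
  simp only [d12_apply, Function.comp_apply, map_mul] at this ⊢
  exact this

/-- `↥(K.subgroupOf H) → ↥K` -/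
def toK {G : Type} [Group G] (H K : Subgroup G) : ↥(K.subgroupOf H) →* ↥K where
  toFun z := ⟨((z : H) : G), z.2⟩
  map_one' := rfl
  map_mul' _ _ := rfl

/-- `↥K → ↥(K.subgroupOf H)` for `K ≤ H` -/
def ofK {G : Type} [Group G] {H K : Subgroup G} (hKH : K ≤ H) : ↥K →* ↥(K.subgroupOf H) where
  toFun z := ⟨⟨(z : G), hKH z.2⟩, z.2⟩
  map_one' := rfl
  map_mul' _ _ := rfl

lemma mem_B2_of_comp_toK {k : Type} [CommRing k] {G : Type} [Group G] {V : Type} [AddCommGroup V]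
    [Module k V] {𝒰 : Levels G} {ρ : Representation k G V} {H K : Subgroup G} (hKH : K ≤ H)
    {c : ↥K × ↥K → V}
    (h : c ∘ Prod.map (toK H K) (toK H K) ∈
      B2 (subLev (subLev 𝒰 H) (K.subgroupOf H)) (Br.resRep (K.subgroupOf H) (Br.resRep H ρ))) :
    c ∈ B2 (subLev 𝒰 K) (Br.resRep K ρ) := by
  obtain ⟨u, ⟨_, ⟨_, ⟨U, hU, rfl⟩, rfl⟩, huU⟩, hd⟩ := h
  refine ⟨u ∘ ofK hKH, ⟨_, ⟨U, hU, rfl⟩, fun g s hs => huU (ofK hKH g) (ofK hKH s) hs⟩, ?_⟩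
  funext ⟨a, b⟩
  exact congrFun hd (ofK hKH a, ofK hKH b)

lemma hasResCard_top {G : Type} [Group G] [MulSemiringAction G Ω] {Q : ℕ} (hQ : HasResCard G v Q)
    {U : Subgroup G} (hU : U = ⊤) : HasResCard ↥U v Q :=
  ⟨hQ.isPrimePow, hQ.val_lt, fun x hx => hQ.pow x fun g => hx ⟨g, hU ▸ Subgroup.mem_top g⟩,
    fun ω hω s => hQ.root ω hω s.1⟩

lemma hasResCard_subgroupOf {G : Type} [Group G] [MulSemiringAction G Ω] {Q : ℕ}
    {H K : Subgroup G} (hKH : K ≤ H) (hQ : HasResCard ↥K v Q) :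
    HasResCard ↥(K.subgroupOf H) v Q :=
  ⟨hQ.isPrimePow, hQ.val_lt, fun x hx => hQ.pow x fun g => hx (ofK hKH g),
    fun ω hω s => hQ.root ω hω (toK H K s)⟩

lemma isUrChar_subgroupOf {G : Type} [Group G] [MulSemiringAction G Ω] {𝒰 : Levels G} {Q n : ℕ}
    {H K : Subgroup G} (hKH : K ≤ H) {χ : ↥K →* Multiplicative (ZMod n)}
    (hχ : IsUrChar Ω (subLev 𝒰 K) Q n χ) :
    IsUrChar Ω (subLev (subLev 𝒰 H) (K.subgroupOf H)) Q n (χ.comp (toK H K)) := by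
  refine ⟨?_, fun g ω hω => hχ.spec (toK H K g) ω hω, ?_⟩
  · obtain ⟨_, ⟨U, hU, rfl⟩, h⟩ := hχ.smooth
    exact ⟨_, ⟨_, ⟨U, hU, rfl⟩, rfl⟩, fun s hs => h (toK H K s) hs⟩
  · obtain ⟨σ, hσ⟩ := hχ.surj
    exact ⟨ofK hKH σ, hσ⟩

end MainAux

open MainAux

/-- the class `(ψ, y)` of a character of order `p` is unramified -/
theorem IsLocSys.cyc_char_unramified {G : Type} [Group G] [MulSemiringAction G Ω] {𝒰 : Levels G}
    (h : IsLocSys 𝒰 v) {Q : ℕ} (hQ : HasResCard G v Q) {ψ χ : G →* Multiplicative (ZMod p)}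
    (hψ : IsSmoothChar 𝒰 ψ) (hσ : ∃ σ, ψ σ = Multiplicative.ofAdd 1) (hχ : IsUrChar Ω 𝒰 Q p χ)
    {π : Ωˣ} (hπ : IsUnif G v (π : Ω)) {y : Ωˣ} (hy : y ∈ fixU G Ω) :
    ∃ b : ℕ, cyc ψ (Additive.ofMul y) - cyc χ (Additive.ofMul (π ^ b)) ∈ B2 𝒰 (uRep G Ω) := by
  obtain ⟨σ, hσ⟩ := hσ
  have hp : p.Prime := Fact.out
  have hπfix : π ∈ fixU G Ω := (mem_fixU_iff π).2 hπ.1
  have hβZ : cyc χ (Additive.ofMul π) ∈ Z2 𝒰 (uRep G Ω) :=
    cyc_mem_Z2 hχ.smooth (fixed_of_mem_fixU hπfix)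
  have hβres := res_cyc_mem_B2 h hQ hψ hσ (pow_one p).symm hχ hπfix
  obtain ⟨y₀, hy₀, hβ⟩ := exists_cyc_of_res_mem_B2 h.gal.isSmooth_uRep hψ hσ
    (h.gal.hilbert90_sub ψ.ker) hβZ hβres
  have hβn : cyc χ (Additive.ofMul π) ∉ B2 𝒰 (uRep G Ω) := by
    intro hB
    have := (hχ.cyc_unif_pow_mem_B2_iff h hQ hπ 1).1 (by rwa [pow_one])
    exact hp.one_lt.ne' (Nat.dvd_one.1 this)
  have hn : cyc ψ (Additive.ofMul y₀.toMul) ∉ B2 𝒰 (uRep G Ω) := by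
    intro hB
    apply hβn
    have := (B2 𝒰 (uRep G Ω)).add_mem hβ hB
    simpa using this
  obtain ⟨b, hb⟩ := h.cyc_sub_nsmul_mem_B2 hψ hσ (mem_fixU_of_fixed hy₀) hy hn
  refine ⟨b, ?_⟩
  have h1 := (B2 𝒰 (uRep G Ω)).smul_mem (b : ℤ) hβ
  have h2 := (B2 𝒰 (uRep G Ω)).sub_mem hb h1
  have e : cyc ψ (Additive.ofMul y) - cyc χ (Additive.ofMul (π ^ b)) =
      cyc ψ (Additive.ofMul y) - b • cyc ψ (Additive.ofMul y₀.toMul) -
        (b : ℤ) • (cyc χ (Additive.ofMul π) - cyc ψ y₀) := by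
    rw [ofMul_pow, cyc_nsmul, natCast_zsmul, nsmul_sub, ofMul_toMul]
    abel
  rw [e]
  exact h2

theorem main (r : ℕ) :
    ∀ {G : Type} [Group G] [MulSemiringAction G Ω] {𝒰 : Levels G} {Q : ℕ}
      {χ : G →* Multiplicative (ZMod (p ^ r))}, IsLocSys 𝒰 v → HasResCard G v Q →
      IsUrChar Ω 𝒰 Q (p ^ r) χ → ∀ (U : Subgroup G) [U.Normal], IsOpenSub 𝒰 U → U.index = p ^ r →
      ∀ c ∈ Z2 𝒰 (uRep G Ω), res2 U c ∈ B2 (subLev 𝒰 U) (uRep ↥U Ω) →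
      ∃ y ∈ fixU G Ω, c - cyc χ (Additive.ofMul y) ∈ B2 𝒰 (uRep G Ω) := by
  induction r with
  | zero =>
    intro G _ _ 𝒰 Q χ h hQ hχ U _ hU hidx c hc hres
    refine ⟨1, one_mem _, ?_⟩
    rw [ofMul_one, cyc_zero, sub_zero]
    exact mem_B2_of_res_top (Subgroup.index_eq_one.1 (by rw [hidx, pow_zero])) hres
  | succ r ih =>
    intro G _ _ 𝒰 Q χ h hQ hχ U _ hU hidx c hc hres
    obtain ⟨ψ, hψ, ⟨σ, hσ⟩, hUψ, hidx₁⟩ := exists_char_of_index_pow (p := p) hU hidx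
    have h₁ : IsLocSys (subLev 𝒰 ψ.ker) v := h.sub (isOpenSub_ker hψ)
    obtain ⟨Q₁, hQ₁⟩ := h₁.exists_resCard
    obtain ⟨χ₁, hχ₁⟩ := h₁.exists_urChar hQ₁ (p ^ r)
    have hZ₁ : res2 ψ.ker c ∈ Z2 (subLev 𝒰 ψ.ker) (Br.resRep ψ.ker (uRep G Ω)) :=
      res2_mem_Z2 ψ.ker hc
    have hB₁ : res2 (U.subgroupOf ψ.ker) (res2 ψ.ker c) ∈
        B2 (subLev (subLev 𝒰 ψ.ker) (U.subgroupOf ψ.ker))
          (Br.resRep (U.subgroupOf ψ.ker) (Br.resRep ψ.ker (uRep G Ω))) :=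
      res2_subgroupOf_mem_B2 (ρ := uRep G Ω) ψ.ker U hres
    obtain ⟨y₁, hy₁, hc₁⟩ := ih h₁ hQ₁ hχ₁ (U.subgroupOf ψ.ker) hU.subgroupOf hidx₁
      (res2 ψ.ker c) hZ₁ hB₁
    obtain ⟨y, hy, hyy⟩ := (h.stepRes hQ hQ₁ hψ hσ hχ hχ₁).2 y₁ hy₁
    have hZ : c - cyc χ (Additive.ofMul y) ∈ Z2 𝒰 (uRep G Ω) :=
      (Z2 𝒰 (uRep G Ω)).sub_mem hc (cyc_mem_Z2 hχ.smooth (fixed_of_mem_fixU hy))
    have hres' : res2 ψ.ker (c - cyc χ (Additive.ofMul y)) ∈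
        B2 (subLev 𝒰 ψ.ker) (Br.resRep ψ.ker (uRep G Ω)) := by
      have := (B2 (subLev 𝒰 ψ.ker) (uRep ↥ψ.ker Ω)).sub_mem hc₁ hyy
      have e : res2 ψ.ker (c - cyc χ (Additive.ofMul y)) =
          res2 ψ.ker c - cyc χ₁ (Additive.ofMul y₁) -
          (res2 ψ.ker (cyc χ (Additive.ofMul y)) - cyc χ₁ (Additive.ofMul y₁)) := by
        funext g
        simp
      rw [e]
      exact this
    obtain ⟨y₂, hy₂, hc₂⟩ := exists_cyc_of_res_mem_B2 h.gal.isSmooth_uRep hψ hσ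
      (h.gal.hilbert90_sub ψ.ker) hZ hres'
    obtain ⟨χp, hχp⟩ := h.exists_urChar hQ p
    obtain ⟨π₀, hπ₀⟩ := h.disc
    obtain ⟨b, hb⟩ := h.cyc_char_unramified hQ hψ ⟨σ, hσ⟩ hχp (π := Units.mk0 π₀ hπ₀.2.1) hπ₀
      (mem_fixU_of_fixed hy₂)
    set π : Ωˣ := Units.mk0 π₀ hπ₀.2.1 with hπ
    have hπfix : π ∈ fixU G Ω := (mem_fixU_iff π).2 hπ₀.1
    have hproj := cyc_proj (𝒰 := 𝒰) (ρ := uRep G Ω) (pow_succ p r) hχ.smooth χp
      (hχ.proj hQ.one_lt (pow_succ p r) hχp) (fixed_of_mem_fixU (pow_mem hπfix b))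
    refine ⟨y * (π ^ b) ^ (p ^ r), mul_mem hy (pow_mem (pow_mem hπfix b) _), ?_⟩
    have e : c - cyc χ (Additive.ofMul (y * (π ^ b) ^ (p ^ r))) =
        (c - cyc χ (Additive.ofMul y) - cyc ψ y₂) +
        (cyc ψ (Additive.ofMul y₂.toMul) - cyc χp (Additive.ofMul (π ^ b))) -
        (cyc χ ((p ^ r) • Additive.ofMul (π ^ b)) - cyc χp (Additive.ofMul (π ^ b))) := by
      rw [ofMul_mul, cyc_add, ofMul_pow (p ^ r), ofMul_toMul]
      abel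
    rw [e]
    exact (B2 𝒰 (uRep G Ω)).sub_mem ((B2 𝒰 (uRep G Ω)).add_mem hc₂ hb) hproj


theorem tower_res_aux (a : ℕ) :
    ∀ {G : Type} [Group G] [MulSemiringAction G Ω] {𝒰 : Levels G} {Q Q' j m : ℕ}, m = a + j →
      ∀ {χ : G →* Multiplicative (ZMod (p ^ m))}, IsLocSys 𝒰 v → HasResCard G v Q →
      IsUrChar Ω 𝒰 Q (p ^ m) χ → ∀ (U : Subgroup G) [U.Normal], IsOpenSub 𝒰 U →
      U.index = p ^ a → HasResCard ↥U v Q' →
      ∀ χ' : ↥U →* Multiplicative (ZMod (p ^ j)), IsUrChar Ω (subLev 𝒰 U) Q' (p ^ j) χ' →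
      ∀ y ∈ fixU G Ω, ∃ y' ∈ fixU ↥U Ω,
        res2 U (cyc χ (Additive.ofMul y)) - cyc χ' (Additive.ofMul y') ∈
          B2 (subLev 𝒰 U) (uRep ↥U Ω) := by
  induction a with
  | zero =>
    intro G _ _ 𝒰 Q Q' j m hm χ h hQ hχ U _ hU hidx hQ' χ' hχ' y hy
    obtain rfl : m = j := by omega
    have htop : U = ⊤ := Subgroup.index_eq_one.1 (by rw [hidx, pow_zero])
    obtain rfl : Q' = Q := hQ'.unique (hasResCard_top hQ htop)
    have e : χ.comp U.subtype = χ' := by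
      have := hχ.comp_subtype (f := 1) (H := U) (χ' := χ') hQ.one_lt (by rwa [pow_one])
      rwa [pow_one] at this
    refine ⟨y, fun s => hy s.1, ?_⟩
    rw [res2_cyc, e, sub_self]
    exact zero_mem _
  | succ a ih =>
    intro G _ _ 𝒰 Q Q' j m hm χ h hQ hχ U _ hU hidx hQ' χ' hχ' y hy
    obtain rfl : m = (a + j) + 1 := by omega
    obtain ⟨ψ, hψ, ⟨σ, hσ⟩, hUψ, hidx₁⟩ := exists_char_of_index_pow (p := p) hU hidx
    have h₁ : IsLocSys (subLev 𝒰 ψ.ker) v := h.sub (isOpenSub_ker hψ)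
    obtain ⟨Q₁, hQ₁⟩ := h₁.exists_resCard
    obtain ⟨χ₁, hχ₁⟩ := h₁.exists_urChar hQ₁ (p ^ (a + j))
    obtain ⟨y₁, hy₁, hyy⟩ := (h.stepRes hQ hQ₁ hψ hσ hχ hχ₁).1 y hy
    obtain ⟨y₂, hy₂, hyy₂⟩ := ih rfl h₁ hQ₁ hχ₁ (U.subgroupOf ψ.ker) hU.subgroupOf hidx₁
      (hasResCard_subgroupOf hUψ hQ') _ (isUrChar_subgroupOf hUψ hχ') y₁ hy₁
    refine ⟨y₂, fun s => hy₂ (ofK hUψ s), ?_⟩
    have hyy' : res2 (U.subgroupOf ψ.ker)
        (res2 ψ.ker (cyc χ (Additive.ofMul y)) - cyc χ₁ (Additive.ofMul y₁)) ∈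
        B2 (subLev (subLev 𝒰 ψ.ker) (U.subgroupOf ψ.ker))
          (Br.resRep (U.subgroupOf ψ.ker) (uRep ↥ψ.ker Ω)) :=
      res2_mem_B2 (U.subgroupOf ψ.ker) hyy
    have hsum := (B2 (subLev (subLev 𝒰 ψ.ker) (U.subgroupOf ψ.ker))
      (uRep ↥(U.subgroupOf ψ.ker) Ω)).add_mem hyy' hyy₂
    refine mem_B2_of_comp_toK (ρ := uRep G Ω) hUψ ?_
    have e : (res2 U (cyc χ (Additive.ofMul y)) - cyc χ' (Additive.ofMul y₂)) ∘
        Prod.map (toK ψ.ker U) (toK ψ.ker U) =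
        res2 (U.subgroupOf ψ.ker)
          (res2 ψ.ker (cyc χ (Additive.ofMul y)) - cyc χ₁ (Additive.ofMul y₁)) +
        (res2 (U.subgroupOf ψ.ker) (cyc χ₁ (Additive.ofMul y₁)) -
          cyc (χ'.comp (toK ψ.ker U)) (Additive.ofMul y₂)) := by
      funext g
      simp only [Function.comp_apply, Pi.sub_apply, Pi.add_apply]
      rw [sub_add_sub_cancel]
      rfl
    rw [e]
    exact hsum

/-- restriction to a normal open subgroup of index `p^a` maps `(χ_{p^(a+j)}, y)` to some `(χ^U_{p^j}, y')` -/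
theorem tower_res (a : ℕ) :
    ∀ {G : Type} [Group G] [MulSemiringAction G Ω] {𝒰 : Levels G} {Q Q' j : ℕ}
      {χ : G →* Multiplicative (ZMod (p ^ (a + j)))}, IsLocSys 𝒰 v → HasResCard G v Q →
      IsUrChar Ω 𝒰 Q (p ^ (a + j)) χ → ∀ (U : Subgroup G) [U.Normal], IsOpenSub 𝒰 U →
      U.index = p ^ a → HasResCard ↥U v Q' →
      ∀ χ' : ↥U →* Multiplicative (ZMod (p ^ j)), IsUrChar Ω (subLev 𝒰 U) Q' (p ^ j) χ' →
      ∀ y ∈ fixU G Ω, ∃ y' ∈ fixU ↥U Ω,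
        res2 U (cyc χ (Additive.ofMul y)) - cyc χ' (Additive.ofMul y') ∈
          B2 (subLev 𝒰 U) (uRep ↥U Ω) :=
  fun {_ _ _ _ _ _ _ _} => tower_res_aux a rfl

end Fermat.Agent.CFT.LS
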