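import Fermat.Agent.CFT.LS.Sub
import Fermat.Agent.CFT.LS.Hensel
import Fermat.Agent.CFT.NI.Main
import Fermat.Agent.CFT.Br.Norm

/-!
# WP LS-NI : the norm index theorem inside a local system (instantiation of chain NI).

`ψ : G → ZMod p` smooth, `ψ σ = 1`, `G₁ = ker ψ`.  `E := FixedPoints.subfield ↥G₁ Ω` (or any model of
`Ω^{G₁}` as a field `: Type`), `σ_E` induced by `σ` (`G₁` normal), `v_E = v.comap`.  `CycLocal v_E σ_E p π₁`:
* `iter`: `σ^p ∈ G₁`; `faithful`: `IsGalAct.mem_of_fix` (if `σ^i` fixes `E` then `σ^i ∈ G₁`);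
* `π₁`, `disc`, `fin`: `IsLocSys.sub` for `G₁` (replace each `t ∈ T` by an element of `O_E` near it);
* `hensel`: `hensel_root` for the group `G₁`; `r₀` with `v π₁ ^ r₀ < v (ζ - 1)`.
Then translate `CycLocal.exists_not_norm`, `CycLocal.exists_pow_mul_norm` and combine with BR-NORM, BR-H90.
-/

set_option autoImplicit false

namespace Fermat.Agent.CFT.LS

open Fermat.Agent.CFT Fermat.Agent.CFT.Br Finset

namespace NIAux

variable {G : Type} [Group G] {Ω : Type} [Field Ω] [MulSemiringAction G Ω]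

/-- the fixed field of a subgroup -/
def fixField (H : Subgroup G) (Ω : Type) [Field Ω] [MulSemiringAction G Ω] : Subfield Ω where
  carrier := {x | ∀ s ∈ H, s • x = x}
  mul_mem' ha hb s hs := by rw [smul_mul', ha s hs, hb s hs]
  one_mem' s _ := smul_one s
  add_mem' ha hb s hs := by rw [smul_add, ha s hs, hb s hs]
  zero_mem' s _ := smul_zero s
  neg_mem' ha s hs := by rw [smul_neg, ha s hs]
  inv_mem' x hx s hs := by rw [smul_inv'', hx s hs]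

lemma mem_fixField {H : Subgroup G} {x : Ω} : x ∈ fixField H Ω ↔ ∀ s ∈ H, s • x = x := Iff.rfl

lemma smul_mem_fixField {H : Subgroup G} [hn : H.Normal] (g : G) {x : Ω}
    (hx : x ∈ fixField H Ω) : g • x ∈ fixField H Ω := by
  intro s hs
  have h1 : s * g = g * (g⁻¹ * s * g) := by group
  have h2 : g⁻¹ * s * g ∈ H := by
    have := hn.conj_mem s hs g⁻¹
    rwa [inv_inv] at this
  rw [← mul_smul, h1, mul_smul, hx _ h2]

/-- the automorphism of the fixed field of a normal subgroup induced by `g` -/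
def sE (H : Subgroup G) [H.Normal] (Ω : Type) [Field Ω] [MulSemiringAction G Ω] (g : G) :
    ↥(fixField H Ω) ≃+* ↥(fixField H Ω) where
  toFun x := ⟨g • x.1, smul_mem_fixField g x.2⟩
  invFun x := ⟨g⁻¹ • x.1, smul_mem_fixField g⁻¹ x.2⟩
  left_inv x := Subtype.ext (inv_smul_smul g x.1)
  right_inv x := Subtype.ext (smul_inv_smul g x.1)
  map_mul' x y := Subtype.ext (smul_mul' g x.1 y.1)
  map_add' x y := Subtype.ext (smul_add g x.1 y.1)

@[simp] lemma coe_sE (H : Subgroup G) [H.Normal] (g : G) (x : ↥(fixField H Ω)) :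
    ((sE H Ω g x : ↥(fixField H Ω)) : Ω) = g • (x : Ω) := rfl

lemma coe_sE_iterate (H : Subgroup G) [H.Normal] (g : G) (i : ℕ) (x : ↥(fixField H Ω)) :
    (((sE H Ω g)^[i] x : ↥(fixField H Ω)) : Ω) = g ^ i • (x : Ω) := by
  induction i with
  | zero => simp
  | succ k ih => rw [Function.iterate_succ_apply', coe_sE, ih, pow_succ', mul_smul]

/-- units of the fixed field → units of `Ω` -/
def ofE (H : Subgroup G) : (↥(fixField H Ω))ˣ →* Ωˣ := Units.map (fixField H Ω).subtype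

@[simp] lemma coe_ofE (H : Subgroup G) (u : (↥(fixField H Ω))ˣ) :
    ((ofE H u : Ωˣ) : Ω) = ((u : ↥(fixField H Ω)) : Ω) := rfl

lemma ofE_injective (H : Subgroup G) : Function.Injective (ofE (Ω := Ω) H) := fun _ _ hab =>
  Units.ext (Subtype.ext (congrArg (fun u : Ωˣ => (u : Ω)) hab))

lemma exists_ofE_eq {H : Subgroup G} {z : Ωˣ} (hz : z ∈ fixU ↥H Ω) : ∃ u, ofE H u = z := by
  have hz' : (z : Ω) ∈ fixField H Ω := (fix_sub_iff H _).1 ((mem_fixU_iff z).1 hz)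
  refine ⟨Units.mk0 ⟨z, hz'⟩ (fun h0 => z.ne_zero (congrArg Subtype.val h0)), Units.ext rfl⟩

lemma ofE_mem_fixU (H : Subgroup G) (u : (↥(fixField H Ω))ˣ) : ofE H u ∈ fixU ↥H Ω :=
  (mem_fixU_iff _).2 ((fix_sub_iff H _).2 (u : ↥(fixField H Ω)).2)

lemma ofE_sU_iterate (H : Subgroup G) [H.Normal] (g : G) (i : ℕ) (u : (↥(fixField H Ω))ˣ) :
    ofE H ((NI.sU (sE H Ω g))^[i] u) = uAct G Ω (g ^ i) (ofE H u) := by
  apply Units.ext
  rw [coe_ofE, NI.coe_sU_iterate, coe_sE_iterate]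
  rfl

lemma ofE_norm (H : Subgroup G) [H.Normal] (g : G) (n : ℕ) (u : (↥(fixField H Ω))ˣ) :
    ofE H (∏ i ∈ range n, (NI.sU (sE H Ω g))^[i] u) =
      ∏ i ∈ range n, uAct G Ω (g ^ i) (ofE H u) := by
  rw [map_prod]
  exact Finset.prod_congr rfl fun i _ => ofE_sU_iterate H g i u

end NIAux

open NIAux

variable {G : Type} [Group G] {𝒰 : Levels G} {Ω : Type} [Field Ω] [MulSemiringAction G Ω]
  {Γ₀ : Type} [LinearOrderedCommGroupWithZero Γ₀] {v : Valuation Ω Γ₀}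
  [IsAlgClosed Ω] [CharZero Ω] {p : ℕ} [Fact p.Prime] {ψ : G →* Multiplicative (ZMod p)}

lemma isOpenSub_ker {N : ℕ} {χ : G →* Multiplicative (ZMod N)} (hχ : IsSmoothChar 𝒰 χ) :
    IsOpenSub 𝒰 χ.ker := by
  obtain ⟨U, hU, h⟩ := hχ
  exact ⟨U, hU, fun s hs => h s hs⟩

/-- the chain NI applies to `E = Ω^{ker ψ}` -/
theorem IsLocSys.exists_cycLocal (h : IsLocSys 𝒰 v) (hψ : IsSmoothChar 𝒰 ψ) {σ : G}
    (hσ : ψ σ = Multiplicative.ofAdd 1) :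
    ∃ π : ↥(fixField ψ.ker Ω),
      NI.CycLocal (v.comap (fixField ψ.ker Ω).subtype) (sE ψ.ker Ω σ) p π := by
  classical
  have hp : p.Prime := Fact.out
  have hopen : IsOpenSub 𝒰 ψ.ker := isOpenSub_ker hψ
  obtain ⟨π, hπfix, hπ0, hπ1, hπd⟩ := h.exists_unif_sub hopen
  have hπE : π ∈ fixField ψ.ker Ω := (fix_sub_iff _ _).1 hπfix
  have hvπ : 0 < v π := zero_lt_iff.2 ((Valuation.ne_zero_iff v).2 hπ0)
  have hp0 : (p : Ω) ≠ 0 := Nat.cast_ne_zero.2 hp.ne_zero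
  have hvp : v (p : Ω) ≠ 0 := (Valuation.ne_zero_iff v).2 hp0
  refine ⟨⟨π, hπE⟩, ?_⟩
  refine
    { N_pos := hp.pos
      N_ne := fun h0 => hp0 (by simpa using congrArg Subtype.val h0)
      iter := fun x => Subtype.ext (by
        rw [coe_sE_iterate]
        exact x.2 _ (pow_N_mem_ker σ))
      faithful := ?_
      inv := fun x => h.inv σ x
      pi_ne := fun h0 => hπ0 (congrArg Subtype.val h0)
      pi_lt := hπ1
      disc := fun x hx => hπd x ((fix_sub_iff _ _).2 x.2) (fun h0 => hx (Subtype.ext h0))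
      fin := ?_
      hensel := ?_ }
  · intro i hi0 hip
    by_contra hcon
    push Not at hcon
    have hmem : σ ^ i ∈ ψ.ker := h.gal.mem_of_fix hopen (σ ^ i) fun x hx => by
      have := congrArg Subtype.val (hcon ⟨x, hx⟩)
      rwa [coe_sE_iterate] at this
    rw [MonoidHom.mem_ker, chi_pow_of_eq_one hσ] at hmem
    have h0 : (i : ZMod p) = 0 := hmem
    rw [ZMod.natCast_eq_zero_iff] at h0
    exact absurd (Nat.le_of_dvd hi0 h0) (not_le.2 hip)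
  · obtain ⟨T, hT⟩ := h.fin_sub hopen
    let f : Ω → ↥(fixField ψ.ker Ω) := fun t =>
      if ht : ∃ x : ↥(fixField ψ.ker Ω), v ((x : Ω) - t) < 1 then ht.choose else 0
    refine ⟨T.image f, fun x hx => ?_⟩
    obtain ⟨t, htT, hxt⟩ := hT x ((fix_sub_iff _ _).2 x.2) hx
    have ht : ∃ x : ↥(fixField ψ.ker Ω), v ((x : Ω) - t) < 1 := ⟨x, hxt⟩
    refine ⟨f t, Finset.mem_image_of_mem _ htT, ?_⟩
    have hft : v (((f t : ↥(fixField ψ.ker Ω)) : Ω) - t) < 1 := by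
      simp only [f, dif_pos ht]
      exact ht.choose_spec
    change v ((x : Ω) - (f t : Ω)) < 1
    have e : (x : Ω) - (f t : Ω) = ((x : Ω) - t) - ((f t : Ω) - t) := by ring
    rw [e]
    exact lt_of_le_of_lt (v.map_sub _ _) (max_lt hxt hft)
  · obtain ⟨ζ, hζ⟩ := HasEnoughRootsOfUnity.exists_primitiveRoot Ω p
    have hζp := val_zeta_sub_one_pow (v := v) hp hζ
    obtain ⟨n, hn⟩ := hπd (p : Ω) (Fix.natCast p) hp0
    -- `v π ^ r₀ < v (ζ - 1)`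
    have hr₀ : ∀ r : ℕ, n.toNat + 1 ≤ r → v π ^ r < v (ζ - 1) := by
      intro r hr
      have hp1 : p - 1 ≠ 0 := by have := hp.two_le; omega
      refine lt_of_pow_lt_pow_left₀ (p - 1) zero_le ?_
      rw [hζp, hn, ← pow_mul, ← zpow_natCast]
      refine (zpow_lt_zpow_iff_right_of_lt_one₀ hvπ hπ1).2 ?_
      have h1 : n ≤ n.toNat := Int.self_le_toNat n
      have h2 : r ≤ r * (p - 1) := Nat.le_mul_of_pos_right r (Nat.pos_of_ne_zero hp1)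
      have h3 : (r : ℤ) ≤ ((r * (p - 1) : ℕ) : ℤ) := by exact_mod_cast h2
      omega
    refine ⟨n.toNat + 1, fun r hr x hx => ?_⟩
    have hx' : v ((x : Ω) - 1) ≤ v π ^ r * v (p : Ω) := by simpa using hx
    have hlt : v ((x : Ω) - 1) < v (p : Ω) * v (ζ - 1) := by
      refine lt_of_le_of_lt hx' ?_
      rw [mul_comm]
      exact mul_lt_mul_of_pos_left (hr₀ r hr) (zero_lt_iff.2 hvp)
    obtain ⟨y, hyfix, hyp, hyv⟩ := hensel_root (G := ↥ψ.ker) (fun g x => h.inv g.1 x) hp hζ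
      ((fix_sub_iff _ _).2 x.2) hlt
    refine ⟨⟨y, (fix_sub_iff _ _).1 hyfix⟩, ?_, Subtype.ext hyp⟩
    change v (y - 1) ≤ v π ^ r
    rw [← hyv] at hx'
    exact le_of_mul_le_mul_right hx' (zero_lt_iff.2 hvp)

omit [IsAlgClosed Ω] [CharZero Ω] in
/-- an element of `Ω^{ker ψ}` fixed by `σ` is fixed by `G` -/
lemma mem_fixU_of_sigma {N : ℕ} [NeZero N] {χ : G →* Multiplicative (ZMod N)} {σ : G}
    (hσ : χ σ = Multiplicative.ofAdd 1) {y : Ωˣ} (hy : y ∈ fixU ↥χ.ker Ω)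
    (hyσ : uAct G Ω σ y = y) : y ∈ fixU G Ω := by
  intro g
  have hpow : ∀ i : ℕ, uAct G Ω (σ ^ i) y = y := by
    intro i
    induction i with
    | zero => exact Units.ext (by simp)
    | succ k ih =>
      apply Units.ext
      have h1 := congrArg (fun u : Ωˣ => (u : Ω)) ih
      have h2 := congrArg (fun u : Ωˣ => (u : Ω)) hyσ
      simp only [coe_uAct] at h1 h2 ⊢
      rw [pow_succ, mul_smul, h2, h1]
  have h1 : g = σ ^ (χ g).toAdd.val * ((σ ^ (χ g).toAdd.val)⁻¹ * g) := by group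
  have h2 := hy ⟨_, pow_val_inv_mul_mem_ker hσ g⟩
  have h3 := congrArg (fun u : Ωˣ => (u : Ω)) h2
  have h4 := congrArg (fun u : Ωˣ => (u : Ω)) (hpow (χ g).toAdd.val)
  apply Units.ext
  simp only [coe_uAct] at h3 h4 ⊢
  rw [h1, mul_smul]
  have h5 : ((σ ^ (χ g).toAdd.val)⁻¹ * g) • (y : Ω) = y := h3
  rw [h5, h4]

theorem IsLocSys.exists_not_norm (h : IsLocSys 𝒰 v) (hψ : IsSmoothChar 𝒰 ψ) {σ : G}
    (hσ : ψ σ = Multiplicative.ofAdd 1) :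
    ∃ y₀ ∈ fixU G Ω, ∀ z ∈ fixU ↥ψ.ker Ω, y₀ ≠ ∏ i ∈ range p, uAct G Ω (σ ^ i) z := by
  have hp : p.Prime := Fact.out
  obtain ⟨π, hc⟩ := h.exists_cycLocal hψ hσ
  obtain ⟨y₀, hy₀, hn⟩ := hc.exists_not_norm hp.one_lt
  refine ⟨ofE ψ.ker y₀, mem_fixU_of_sigma hσ (ofE_mem_fixU _ _) ?_, fun z hz heq => ?_⟩
  · have := ofE_sU_iterate ψ.ker σ 1 y₀
    rw [Function.iterate_one, hy₀, pow_one] at this
    exact this.symm
  · obtain ⟨u, rfl⟩ := exists_ofE_eq hz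
    rw [← ofE_norm] at heq
    exact hn u (ofE_injective _ heq)

theorem IsLocSys.exists_pow_mul_norm (h : IsLocSys 𝒰 v) (hψ : IsSmoothChar 𝒰 ψ) {σ : G}
    (hσ : ψ σ = Multiplicative.ofAdd 1) {y₀ : Ωˣ} (hy₀ : y₀ ∈ fixU G Ω)
    (hn : ∀ z ∈ fixU ↥ψ.ker Ω, y₀ ≠ ∏ i ∈ range p, uAct G Ω (σ ^ i) z) {y : Ωˣ}
    (hy : y ∈ fixU G Ω) :
    ∃ b : ℕ, ∃ z ∈ fixU ↥ψ.ker Ω, y = y₀ ^ b * ∏ i ∈ range p, uAct G Ω (σ ^ i) z := by
  have hp : p.Prime := Fact.out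
  obtain ⟨π, hc⟩ := h.exists_cycLocal hψ hσ
  have hsub : ∀ {w : Ωˣ}, w ∈ fixU G Ω → w ∈ fixU ↥ψ.ker Ω := fun hw g => hw g.1
  obtain ⟨u₀, rfl⟩ := exists_ofE_eq (hsub hy₀)
  obtain ⟨u, rfl⟩ := exists_ofE_eq (hsub hy)
  have hfix : ∀ {w : (↥(fixField ψ.ker Ω))ˣ}, ofE ψ.ker w ∈ fixU G Ω →
      NI.sU (sE ψ.ker Ω σ) w = w := fun {w} hw => by
    apply ofE_injective ψ.ker
    have := ofE_sU_iterate ψ.ker σ 1 w
    rw [Function.iterate_one, pow_one] at this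
    rw [this]
    exact hw σ
  obtain ⟨b, z, hz⟩ := hc.exists_pow_mul_norm hp (hfix hy₀) (fun z heq => by
    refine hn (ofE ψ.ker z) (ofE_mem_fixU _ _) ?_
    rw [← ofE_norm, ← heq]) u (hfix hy)
  refine ⟨b, ofE ψ.ker z, ofE_mem_fixU _ _, ?_⟩
  rw [← ofE_norm, ← map_pow, ← map_mul, ← hz]

/-- BR-NORM for `Ωˣ`, multiplicative form -/
theorem IsLocSys.cyc_mem_B2_iff (h : IsLocSys 𝒰 v) {N : ℕ} [NeZero N]
    {χ : G →* Multiplicative (ZMod N)} (hχ : IsSmoothChar 𝒰 χ) {σ : G}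
    (hσ : χ σ = Multiplicative.ofAdd 1) {y : Ωˣ} (hy : y ∈ fixU G Ω) :
    cyc χ (Additive.ofMul y) ∈ B2 𝒰 (uRep G Ω) ↔
      ∃ z ∈ fixU ↥χ.ker Ω, y = ∏ i ∈ range N, uAct G Ω (σ ^ i) z := by
  refine (Br.cyc_mem_B2_iff h.gal.isSmooth_uRep hχ hσ (h.gal.hilbert90_sub χ.ker)
    (fun g => congrArg Additive.ofMul (hy g))).trans ?_
  constructor
  · rintro ⟨z, hz, hyz⟩
    refine ⟨Additive.toMul z, fun s => congrArg Additive.toMul (hz s.1 s.2), ?_⟩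
    have h1 : y = Additive.toMul (∑ i ∈ range N, uRep G Ω (σ ^ i) z) :=
      congrArg (Additive.toMul (α := Ωˣ)) hyz
    exact h1.trans (toMul_sum (range N) fun i => uRep G Ω (σ ^ i) z)
  · rintro ⟨z, hz, hyz⟩
    refine ⟨Additive.ofMul z, fun s hs => congrArg Additive.ofMul (hz ⟨s, hs⟩), ?_⟩
    exact (congrArg Additive.ofMul hyz).trans (ofMul_prod _ _)

/-- (l2) -/
theorem IsLocSys.exists_cyc_not_mem_B2 (h : IsLocSys 𝒰 v) (hψ : IsSmoothChar 𝒰 ψ) {σ : G}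
    (hσ : ψ σ = Multiplicative.ofAdd 1) :
    ∃ y₀ ∈ fixU G Ω, cyc ψ (Additive.ofMul y₀) ∉ B2 𝒰 (uRep G Ω) := by
  obtain ⟨y₀, hy₀, hn⟩ := h.exists_not_norm hψ hσ
  refine ⟨y₀, hy₀, fun hB => ?_⟩
  obtain ⟨z, hz, heq⟩ := (h.cyc_mem_B2_iff hψ hσ hy₀).1 hB
  exact hn z hz heq

/-- the classes `(ψ, y)` form a group of order `p` -/
theorem IsLocSys.cyc_sub_nsmul_mem_B2 (h : IsLocSys 𝒰 v) (hψ : IsSmoothChar 𝒰 ψ) {σ : G}
    (hσ : ψ σ = Multiplicative.ofAdd 1) {y₀ y : Ωˣ} (hy₀ : y₀ ∈ fixU G Ω) (hy : y ∈ fixU G Ω)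
    (hn : cyc ψ (Additive.ofMul y₀) ∉ B2 𝒰 (uRep G Ω)) :
    ∃ b : ℕ, cyc ψ (Additive.ofMul y) - b • cyc ψ (Additive.ofMul y₀) ∈ B2 𝒰 (uRep G Ω) := by
  obtain ⟨b, z, hz, heq⟩ := h.exists_pow_mul_norm hψ hσ hy₀
    (fun z hz heq => hn ((h.cyc_mem_B2_iff hψ hσ hy₀).2 ⟨z, hz, heq⟩)) hy
  refine ⟨b, ?_⟩
  have hNfix : (∏ i ∈ range p, uAct G Ω (σ ^ i) z) ∈ fixU G Ω := by
    have : (∏ i ∈ range p, uAct G Ω (σ ^ i) z) = (y₀ ^ b)⁻¹ * y := by
      rw [heq, inv_mul_cancel_left]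
    rw [this]
    exact (fixU G Ω).mul_mem ((fixU G Ω).inv_mem ((fixU G Ω).pow_mem hy₀ b)) hy
  have hB := (h.cyc_mem_B2_iff hψ hσ hNfix).2 ⟨z, hz, rfl⟩
  have e : cyc ψ (Additive.ofMul y) - b • cyc ψ (Additive.ofMul y₀) =
      cyc ψ (Additive.ofMul (∏ i ∈ range p, uAct G Ω (σ ^ i) z)) := by
    rw [heq, ofMul_mul, ofMul_pow, cyc_add, cyc_nsmul]
    abel
  rw [e]
  exact hB

end Fermat.Agent.CFT.LS
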