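import Fermat.Agent.CFT.LS.Basic

/-!
# WP LS-RES : the residue field of a local system has `Q = q^f` elements, and `μ_{Q-1} ⊆ k`.

`O_k = {x | Fix G x ∧ v x ≤ 1}` is a subring of `Ω`, `𝔪 = {v x < 1}` a maximal ideal, `κ = O_k/𝔪` is a
finite field by `fin`; `Q := #κ`.  `pow` = `FiniteField.pow_card`.  `val_lt`: `Q = 0` in `κ`.
`root`: let `ω^(Q-1) = 1`.  In `κ[X]`, `X^(Q-1) - 1 = ∏_{t ∈ κ^×} (X - t)`; lifting the `t` to `t_i ∈ O_k`,
`v (∏ (ω - t_i)) = v (∏ (ω - t_i) - (ω^(Q-1) - 1)) < 1`, so `v (ω - t_i) < 1` for some `i`; then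
`v (g ω - ω) = v (g (ω - t_i) - (ω - t_i)) < 1`, and `g ω = ω` by `val_sub_eq_one_of_roots`.
Also: for an open subgroup the cardinality is a power of `Q`.
-/

set_option autoImplicit false

namespace Fermat.Agent.CFT.LS

open Fermat.Agent.CFT Fermat.Agent.CFT.Br

variable {G : Type} [Group G] {𝒰 : Levels G} {Ω : Type} [Field Ω] [MulSemiringAction G Ω]
  {Γ₀ : Type} [LinearOrderedCommGroupWithZero Γ₀] {v : Valuation Ω Γ₀}

namespace Res

variable (G v) in
/-- the valuation ring `O_k` of `k = Ω^G` -/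
def Ok : Subring Ω where
  carrier := {x | Fix G x ∧ v x ≤ 1}
  mul_mem' ha hb := ⟨ha.1.mul hb.1, by rw [map_mul]; exact mul_le_one' ha.2 hb.2⟩
  one_mem' := ⟨Fix.one, by rw [map_one]⟩
  add_mem' ha hb := ⟨ha.1.add hb.1, (v.map_add _ _).trans (max_le ha.2 hb.2)⟩
  zero_mem' := ⟨Fix.zero, by rw [map_zero]; exact zero_le⟩
  neg_mem' ha := ⟨ha.1.neg, by rw [Valuation.map_neg]; exact ha.2⟩

variable (G v) in
/-- the maximal ideal of `O_k` -/
def mIdeal : Ideal (Ok G v) where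
  carrier := {x | v (x : Ω) < 1}
  add_mem' ha hb := lt_of_le_of_lt (v.map_add _ _) (max_lt ha hb)
  zero_mem' := by
    change v ((0 : Ok G v) : Ω) < 1
    rw [ZeroMemClass.coe_zero, map_zero]; exact zero_lt_one
  smul_mem' c x hx := by
    change v ((c * x : Ok G v) : Ω) < 1
    rw [Subring.coe_mul, map_mul]
    calc v (c : Ω) * v (x : Ω) ≤ 1 * v (x : Ω) := mul_le_mul_left c.2.2 _
      _ < 1 := by rw [one_mul]; exact hx

lemma mem_mIdeal {x : Ok G v} : x ∈ mIdeal G v ↔ v (x : Ω) < 1 := Iff.rfl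

instance isMaximal_mIdeal : (mIdeal G v).IsMaximal := by
  rw [Ideal.isMaximal_iff]
  refine ⟨fun h => ?_, fun J x _ hx hxJ => ?_⟩
  · have h1 : v ((1 : Ok G v) : Ω) < 1 := h
    rw [OneMemClass.coe_one, map_one] at h1
    exact lt_irrefl _ h1
  · have h1 : v (x : Ω) = 1 := le_antisymm x.2.2 (not_lt.mp hx)
    have hx0 : (x : Ω) ≠ 0 := by
      intro h
      rw [h, map_zero] at h1
      exact zero_ne_one h1
    let y : Ok G v := ⟨(x : Ω)⁻¹, x.2.1.inv, by rw [map_inv₀, h1, inv_one]⟩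
    have h2 : y * x = 1 := Subtype.ext (inv_mul_cancel₀ hx0)
    rw [← h2]
    exact J.mul_mem_left y hxJ

/-- polynomials with coefficients in `𝔪` take values in `𝔪_Ω` on `O_Ω` -/
lemma val_eval₂_lt_one {R κ : Type} [CommRing R] [Field κ] (π : R →+* κ) (φ : R →+* Ω)
    (hker : ∀ r, π r = 0 ↔ v (φ r) < 1) (P : Polynomial R)
    (hP : P.map π = 0) {ω : Ω} (hω : v ω ≤ 1) :
    v (P.eval₂ φ ω) < 1 := by
  rw [Polynomial.eval₂_eq_sum_range]
  refine v.map_sum_lt one_ne_zero (fun i _ => ?_)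
  have h1 : π (P.coeff i) = 0 := by
    rw [← Polynomial.coeff_map, hP, Polynomial.coeff_zero]
  rw [hker] at h1
  rw [map_mul, map_pow]
  calc v (φ (P.coeff i)) * v ω ^ i
      ≤ v (φ (P.coeff i)) * 1 := mul_le_mul_right (pow_le_one' hω i) _
    _ < 1 := by rw [mul_one]; exact h1

open Polynomial in
/-- abstract form: `π : R → κ` the residue map of `R = O_k`. -/
theorem hasResCard_of_residue {R κ : Type} [CommRing R] [Field κ] [Fintype κ] (π : R →+* κ)
    (hπ : Function.Surjective π) (φ : R →+* Ω) (hker : ∀ r, π r = 0 ↔ v (φ r) < 1)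
    (hφ : ∀ x, Fix G x → v x ≤ 1 → ∃ r, φ r = x) (hfix : ∀ r, Fix G (φ r))
    (hinv : ∀ (g : G) (x : Ω), v (g • x) = v x) : HasResCard G v (Fintype.card κ) := by
  classical
  set Q := Fintype.card κ with hQ
  have hQ1 : 1 < Q := Fintype.one_lt_card
  have hval : v (Q : Ω) < 1 := by
    have h2 : π (Q : R) = 0 := by
      rw [map_natCast]; exact FiniteField.cast_card_eq_zero κ
    rw [hker, map_natCast] at h2
    exact h2
  refine ⟨FiniteField.isPrimePow_card κ, hval, fun x hx hx1 => ?_, fun ω hω g => ?_⟩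
  · obtain ⟨r, rfl⟩ := hφ x hx hx1
    have h1 := FiniteField.pow_card (π r)
    rw [← map_pow, ← sub_eq_zero, ← map_sub, hker, map_sub, map_pow] at h1
    exact h1
  · have hQ0 : Q - 1 ≠ 0 := by omega
    have hvω : v ω = 1 := val_eq_one_of_pow_eq_one hQ0 hω
    have hωQ : ω ^ Q = ω := by
      have : Q = (Q - 1) + 1 := by omega
      rw [this, pow_succ, hω, one_mul]
    -- lifts
    choose s hs using hπ
    have hprod : (X ^ Q - X : κ[X]) = ∏ t : κ, (X - C t) := by
      have hmonic : (X ^ Q - X : κ[X]).Monic := by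
        apply Polynomial.monic_X_pow_sub
        rw [degree_X]; exact_mod_cast hQ1
      have h1 := prod_multiset_X_sub_C_of_monic_of_roots_card_eq hmonic (by
        rw [hQ, FiniteField.roots_X_pow_card_sub_X, FiniteField.X_pow_card_sub_X_natDegree_eq κ hQ1]
        simp [hQ])
      rw [hQ, FiniteField.roots_X_pow_card_sub_X] at h1
      rw [hQ, ← h1]; rfl
    set P : R[X] := ∏ t : κ, (X - C (s t)) - (X ^ Q - X) with hP
    have hPmap : P.map π = 0 := by
      rw [hP, Polynomial.map_sub, Polynomial.map_prod, Polynomial.map_sub, Polynomial.map_pow,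
        Polynomial.map_X, hprod, sub_eq_zero]
      refine Finset.prod_congr rfl (fun t _ => ?_)
      rw [Polynomial.map_sub, Polynomial.map_X, Polynomial.map_C, hs]
    have h1 := val_eval₂_lt_one π φ hker P hPmap hvω.le
    rw [hP, eval₂_sub, eval₂_finsetProd, eval₂_sub, eval₂_pow, eval₂_X, hωQ, sub_self, sub_zero,
      map_prod] at h1
    obtain ⟨t, ht⟩ : ∃ t : κ, v (ω - φ (s t)) < 1 := by
      by_contra hcon
      push Not at hcon
      have h2 : (1 : Γ₀) ≤ ∏ t : κ, v (eval₂ φ ω (X - C (s t))) := by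
        refine Finset.one_le_prod' (fun t _ => ?_)
        rw [eval₂_sub, eval₂_X, eval₂_C]
        exact hcon t
      exact absurd h1 (not_lt.mpr h2)
    by_contra hne
    have hQm : v (((Q - 1 : ℕ) : Ω)) = 1 := by
      rw [Nat.cast_sub hQ1.le, Nat.cast_one, ← neg_sub, Valuation.map_neg]
      rw [v.map_sub_eq_of_lt_left (by rw [map_one]; exact hval), map_one]
    have hgω : (g • ω) ^ (Q - 1) = 1 := by rw [← smul_pow', hω, smul_one]
    have h3 := val_sub_eq_one_of_roots hQm hgω hω hne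
    have h4 : g • ω - ω = g • (ω - φ (s t)) - (ω - φ (s t)) := by
      rw [smul_sub, hfix (s t) g]; ring
    have h5 : v (g • ω - ω) < 1 := by
      rw [h4]
      exact lt_of_le_of_lt (v.map_sub _ _) (max_lt (by rw [hinv]; exact ht) ht)
    rw [h3] at h5
    exact lt_irrefl _ h5

lemma finite_quot (hfin : ∃ T : Finset Ω, ∀ x, Fix G x → v x ≤ 1 → ∃ t ∈ T, v (x - t) < 1) :
    Finite (Ok G v ⧸ mIdeal G v) := by
  classical
  obtain ⟨T, hT⟩ := hfin
  choose f hfT hf using fun x : Ok G v => hT x x.2.1 x.2.2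
  refine Finite.of_injective
    (fun c : Ok G v ⧸ mIdeal G v => (⟨f (Quotient.out c), hfT _⟩ : ↥T)) (fun c c' h => ?_)
  have h1 : f (Quotient.out c) = f (Quotient.out c') := congrArg Subtype.val h
  have h2 : Quotient.out c - Quotient.out c' ∈ mIdeal G v := by
    rw [mem_mIdeal]
    have e : ((Quotient.out c - Quotient.out c' : Ok G v) : Ω)
        = ((Quotient.out c : Ok G v) - f (Quotient.out c))
          - ((Quotient.out c' : Ok G v) - f (Quotient.out c')) := by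
      rw [h1]; push_cast; ring
    rw [e]
    exact lt_of_le_of_lt (v.map_sub _ _) (max_lt (hf _) (hf _))
  have h3 := (Ideal.Quotient.eq).mpr h2
  have e1 : Ideal.Quotient.mk (mIdeal G v) (Quotient.out c) = c := Quotient.out_eq c
  have e2 : Ideal.Quotient.mk (mIdeal G v) (Quotient.out c') = c' := Quotient.out_eq c'
  rw [e1, e2] at h3
  exact h3

end Res

open Res in
theorem IsLocSys.exists_resCard (h : IsLocSys 𝒰 v) : ∃ Q : ℕ, HasResCard G v Q := by
  classical
  let _ : Field (Ok G v ⧸ mIdeal G v) := Ideal.Quotient.field (mIdeal G v)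
  have : Finite (Ok G v ⧸ mIdeal G v) := finite_quot h.fin
  let _ : Fintype (Ok G v ⧸ mIdeal G v) := Fintype.ofFinite _
  exact ⟨_, hasResCard_of_residue (Ideal.Quotient.mk (mIdeal G v)) Ideal.Quotient.mk_surjective
    (Ok G v).subtype (fun r => Ideal.Quotient.eq_zero_iff_mem)
    (fun x hx hx1 => ⟨⟨x, hx, hx1⟩, rfl⟩) (fun r => r.2.1) h.inv⟩

/-- the residue characteristic is well defined -/
lemma eq_of_prime_of_val_lt_one {q q' : ℕ} (hq : q.Prime) (hq' : q'.Prime) (h : v (q : Ω) < 1)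
    (h' : v (q' : Ω) < 1) : q = q' := by
  by_contra hne
  have hcop : Nat.Coprime q q' := (Nat.coprime_primes hq hq').mpr hne
  obtain ⟨a, b, hab⟩ := Nat.isCoprime_iff_coprime.mpr hcop
  have h1 : (a : Ω) * q + b * q' = 1 := by exact_mod_cast congrArg (Int.cast : ℤ → Ω) hab
  have hint : ∀ z : ℤ, v (z : Ω) ≤ 1 := by
    intro z
    obtain ⟨n, rfl | rfl⟩ := z.eq_nat_or_neg
    · rw [Int.cast_natCast]; exact val_natCast_le_one v n
    · rw [Int.cast_neg, Valuation.map_neg, Int.cast_natCast]; exact val_natCast_le_one v n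
  have h2 : v ((a : Ω) * q + b * q') < 1 := by
    refine lt_of_le_of_lt (v.map_add _ _) (max_lt ?_ ?_)
    · rw [map_mul]
      calc _ ≤ 1 * v (q : Ω) := mul_le_mul_left (hint a) _
        _ < 1 := by rw [one_mul]; exact h
    · rw [map_mul]
      calc _ ≤ 1 * v (q' : Ω) := mul_le_mul_left (hint b) _
        _ < 1 := by rw [one_mul]; exact h'
  rw [h1, map_one] at h2
  exact lt_irrefl _ h2

lemma val_lt_one_of_pow {q a : ℕ} (h : v ((q ^ a : ℕ) : Ω) < 1) : v (q : Ω) < 1 := by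
  by_contra hcon
  have h1 : v (q : Ω) = 1 := le_antisymm (val_natCast_le_one v q) (not_lt.mp hcon)
  rw [Nat.cast_pow, map_pow, h1, one_pow] at h
  exact lt_irrefl _ h

/-- residue degree -/
theorem HasResCard.exists_resDeg [IsAlgClosed Ω] [CharZero Ω] {H : Subgroup G} {Q Q' : ℕ}
    (hQ : HasResCard G v Q) (hQ' : HasResCard ↥H v Q') : ∃ f : ℕ, 0 < f ∧ Q' = Q ^ f := by
  obtain ⟨q, a, hq, ha, rfl⟩ := hQ.isPrimePow
  obtain ⟨q', b, hq', hb, rfl⟩ := hQ'.isPrimePow
  rw [← Nat.prime_iff] at hq hq'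
  obtain rfl : q = q' :=
    eq_of_prime_of_val_lt_one hq hq' (val_lt_one_of_pow hQ.val_lt) (val_lt_one_of_pow hQ'.val_lt)
  have hQ1 : 1 < q ^ a := hQ.one_lt
  have hQ1' : 1 < q ^ b := hQ'.one_lt
  have hn0 : q ^ a - 1 ≠ 0 := by omega
  have : NeZero ((q ^ a - 1 : ℕ) : Ω) := ⟨by exact_mod_cast hn0⟩
  obtain ⟨ω, hω⟩ := HasEnoughRootsOfUnity.exists_primitiveRoot Ω (q ^ a - 1)
  have hvω : v ω = 1 := val_eq_one_of_pow_eq_one hn0 hω.pow_eq_one
  have hω0 : ω ≠ 0 := hω.ne_zero hn0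
  have hfix : Fix G ω := hQ.root ω hω.pow_eq_one
  have h1 : v (ω ^ (q ^ b) - ω) < 1 := hQ'.pow ω (fun g => hfix g.1) hvω.le
  have h2 : ω ^ (q ^ b) - ω = (ω ^ (q ^ b - 1) - 1) * ω := by
    have : q ^ b = (q ^ b - 1) + 1 := by omega
    rw [sub_mul, one_mul, ← pow_succ, ← this]
  rw [h2, map_mul, hvω, mul_one] at h1
  have hQm : v (((q ^ a - 1 : ℕ) : Ω)) = 1 := by
    have := hQ.val_pow_sub_one (n := 1) one_ne_zero
    rwa [pow_one] at this
  have h3 : ω ^ (q ^ b - 1) = 1 := by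
    by_contra hne
    have := val_sub_eq_one_of_roots (v := v) hQm
      (by rw [← pow_mul, mul_comm, pow_mul, hω.pow_eq_one, one_pow]) (one_pow _) hne
    rw [this] at h1
    exact lt_irrefl _ h1
  have h4 : q ^ a - 1 ∣ q ^ b - 1 := hω.dvd_of_pow_eq_one _ h3
  have h5 := Nat.pow_sub_one_gcd_pow_sub_one q a b
  rw [Nat.gcd_eq_left h4] at h5
  have h6 : q ^ a = q ^ (Nat.gcd a b) := by
    have : 0 < q ^ (Nat.gcd a b) := pow_pos hq.pos _
    omega
  have h7 : a = Nat.gcd a b := Nat.pow_right_injective hq.two_le h6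
  obtain ⟨f, hf⟩ : a ∣ b := by rw [h7]; exact Nat.gcd_dvd_right a b
  refine ⟨f, Nat.pos_of_ne_zero ?_, by rw [hf, pow_mul]⟩
  rintro rfl
  rw [mul_zero] at hf
  exact hb.ne' hf

end Fermat.Agent.CFT.LS
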