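import Fermat.Agent.CFT.LS.UrChar

/-!
# WP LS-UR2 : the unramified extension `E_n = Ω^(ker χ_n)` has the same value group, and `Q^n` residues.

`σ` with `χ σ = 1`, `ω` primitive `(Q^n-1)`-th root of unity, `ω_j = σ^j ω = ω^(Q^j)`, `x ∈ E_n`,
`x_j = σ^j x`.  Lagrange: `P = ∑_j x_j ∏_{l≠j} (X - ω_l)/(ω_j - ω_l)` (degree `< n`, `P ω_j = x_j`).
As `v (ω_j - ω_l) = 1`, `v ω_l = 1`, `v x_j = v x`: all coefficients `a_i` of `P` have `v (a_i) ≤ v x`.
Every `g ∈ G` permutes the pairs `(ω_j, x_j)` (`g ≡ σ^(χ g)` mod `ker χ`, and `ω, x ∈ E_n`), so `g P = P`,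
`a_i ∈ k`.  `x = P ω = ∑ a_i ω^i` gives `v x ≤ max v (a_i) ≤ v x`.
`x^(Q^n) ≡ ∑ a_i^(Q^n) ω^(i Q^n) ≡ ∑ a_i ω^i = x` for `v x ≤ 1`.
-/

set_option autoImplicit false

namespace Fermat.Agent.CFT.LS

open Fermat.Agent.CFT Fermat.Agent.CFT.Br

namespace UrAux

section lag
variable {Ω : Type} [Field Ω] {Γ₀ : Type} [LinearOrderedCommGroupWithZero Γ₀] {v : Valuation Ω Γ₀}

lemma coeff_le_of_mem_lifts {P : Polynomial Ω} (h : P ∈ Polynomial.lifts (v.integer.subtype))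
    (i : ℕ) : v (P.coeff i) ≤ 1 := by
  obtain ⟨c, hc⟩ := (Polynomial.lifts_iff_coeff_lifts P).1 h i
  rw [← hc]
  exact c.2

lemma C_mem_lifts_int {c : Ω} (hc : v c ≤ 1) :
    Polynomial.C c ∈ Polynomial.lifts (v.integer.subtype) :=
  Polynomial.C_mem_lifts _ (⟨c, hc⟩ : v.integer)

lemma basis_coeff_le {ι : Type} [DecidableEq ι] (s : Finset ι) (w : ι → Ω)
    (hw : ∀ i ∈ s, v (w i) ≤ 1) (hww : ∀ i ∈ s, ∀ j ∈ s, i ≠ j → v (w i - w j) = 1)
    {i : ι} (hi : i ∈ s) (k : ℕ) : v ((Lagrange.basis s w i).coeff k) ≤ 1 := by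
  apply coeff_le_of_mem_lifts
  unfold Lagrange.basis
  refine Subsemiring.prod_mem _ fun j hj => ?_
  unfold Lagrange.basisDivisor
  have hj' := Finset.mem_erase.1 hj
  refine mul_mem (C_mem_lifts_int ?_) ?_
  · rw [map_inv₀, hww i hi j hj'.2 (Ne.symm hj'.1), inv_one]
  · rw [sub_eq_add_neg, ← Polynomial.C_neg]
    exact add_mem (Polynomial.X_mem_lifts _) (C_mem_lifts_int (by rw [Valuation.map_neg]; exact hw j hj'.2))

end lag

end UrAux

variable {G : Type} [Group G] {𝒰 : Levels G} {Ω : Type} [Field Ω] [MulSemiringAction G Ω]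
  {Γ₀ : Type} [LinearOrderedCommGroupWithZero Γ₀] {v : Valuation Ω Γ₀}
  [IsAlgClosed Ω] [CharZero Ω] {Q n : ℕ} [NeZero n] {χ : G →* Multiplicative (ZMod n)}

theorem IsUrChar.exists_coeffs (h : IsLocSys 𝒰 v) (hQ : HasResCard G v Q)
    (hχ : IsUrChar Ω 𝒰 Q n χ) {ω : Ω} (hω : IsPrimitiveRoot ω (Q ^ n - 1)) {x : Ω}
    (hx : Fix ↥χ.ker x) :
    ∃ a : Fin n → Ω, (∀ i, Fix G (a i)) ∧ (∀ i, v (a i) ≤ v x) ∧ x = ∑ i, a i * ω ^ (i : ℕ) := by
  classical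
  obtain ⟨σ, hσ⟩ := hχ.surj
  have hn : n ≠ 0 := NeZero.ne n
  have hQ1 := hQ.one_lt
  have hm0 := (UrAux.m_pos hQ1 hn).ne'
  have hm : v (((Q ^ n - 1 : ℕ) : Ω)) = 1 := hQ.val_pow_sub_one hn
  have hχσ : ∀ j : ℕ, χ (σ ^ j) = Multiplicative.ofAdd (j : ZMod n) := by
    intro j
    rw [map_pow, hσ, ← ofAdd_nsmul, nsmul_eq_mul, mul_one]
  have hw : ∀ j : ℕ, σ ^ j • ω = ω ^ (Q ^ j) := by
    intro j
    rw [hχ.spec _ ω hω.pow_eq_one, hχσ, toAdd_ofAdd, ZMod.val_natCast,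
      ← UrAux.pow_Q_mod hQ1 hω.pow_eq_one]
  have hroot : ∀ j : ℕ, (σ ^ j • ω) ^ (Q ^ n - 1) = 1 := fun j =>
    (UrAux.smul_prim hω (σ ^ j)).pow_eq_one
  have hinj : Set.InjOn (fun j : ℕ => σ ^ j • ω) (Finset.range n) := by
    intro a ha b hb hab
    simp only [hw] at hab
    exact UrAux.pow_Q_inj hQ1 hω (Finset.mem_range.1 (Finset.mem_coe.1 ha))
      (Finset.mem_range.1 (Finset.mem_coe.1 hb)) hab
  set P : Polynomial Ω := Lagrange.interpolate (Finset.range n) (fun j : ℕ => σ ^ j • ω)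
    (fun j : ℕ => σ ^ j • x) with hP
  have hdeg : P.degree < (n : ℕ) := by
    have := Lagrange.degree_interpolate_lt (r := fun j : ℕ => σ ^ j • x) hinj
    rwa [Finset.card_range] at this
  have hnode : ∀ j < n, P.eval (σ ^ j • ω) = σ ^ j • x := fun j hj =>
    Lagrange.eval_interpolate_at_node (fun j : ℕ => σ ^ j • x) hinj (Finset.mem_range.2 hj)
  have hall : ∀ τ : G, P.eval (τ • ω) = τ • x := by
    intro τ
    have hj : (χ τ).toAdd.val < n := ZMod.val_lt _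
    have hκ : (σ ^ (χ τ).toAdd.val)⁻¹ * τ ∈ χ.ker := by
      rw [MonoidHom.mem_ker, map_mul, map_inv, hχσ, ZMod.natCast_zmod_val, ofAdd_toAdd,
        inv_mul_cancel]
    have e : τ = σ ^ (χ τ).toAdd.val * ((σ ^ (χ τ).toAdd.val)⁻¹ * τ) := by group
    have e1 : τ • ω = σ ^ (χ τ).toAdd.val • ω := by
      conv_lhs => rw [e, mul_smul, (hχ.mem_ker_iff hQ1 _).1 hκ ω hω.pow_eq_one]
    have e2 : τ • x = σ ^ (χ τ).toAdd.val • x := by
      conv_lhs => rw [e, mul_smul, (fix_sub_iff _ _).1 hx _ hκ]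
    rw [e1, e2, hnode _ hj]
  have hmap : ∀ g : G, P.map (MulSemiringAction.toRingHom G Ω g) = P := by
    intro g
    refine Polynomial.eq_of_degrees_lt_of_eval_index_eq (Finset.range n) hinj
      (lt_of_le_of_lt Polynomial.degree_map_le (by rwa [Finset.card_range]))
      (by rwa [Finset.card_range]) fun j _ => ?_
    have e : σ ^ j • ω = MulSemiringAction.toRingHom G Ω g ((g⁻¹ * σ ^ j) • ω) := by
      rw [MulSemiringAction.toRingHom_apply, ← mul_smul, mul_inv_cancel_left]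
    rw [hall]
    rw [e, Polynomial.eval_map, Polynomial.eval₂_at_apply, hall, MulSemiringAction.toRingHom_apply,
      ← mul_smul, mul_inv_cancel_left]
  refine ⟨fun i => P.coeff i, fun i g => ?_, fun i => ?_, ?_⟩
  · have := congrArg (fun R => Polynomial.coeff R (i : ℕ)) (hmap g)
    simpa [Polynomial.coeff_map] using this
  · change v (P.coeff (i : ℕ)) ≤ v x
    rw [hP, Lagrange.interpolate_apply, Polynomial.finsetSum_coeff]
    refine Valuation.map_sum_le v fun j hj => ?_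
    rw [Polynomial.coeff_C_mul, map_mul, h.inv]
    refine mul_le_of_le_one_right' ?_
    refine UrAux.basis_coeff_le _ _ (fun a _ => (val_eq_one_of_pow_eq_one hm0 (hroot a)).le)
      (fun a ha b hb hab => val_sub_eq_one_of_roots hm (hroot a) (hroot b)
        (fun e => hab (hinj (Finset.mem_coe.2 ha) (Finset.mem_coe.2 hb) e))) hj _
  · have h1 := hall 1
    rw [one_smul, one_smul] at h1
    have hnd : P.natDegree < n := by
      by_cases hP0 : P = 0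
      · rw [hP0, Polynomial.natDegree_zero]; exact Nat.pos_of_ne_zero hn
      · exact (Polynomial.natDegree_lt_iff_degree_lt hP0).2 hdeg
    rw [← h1, Polynomial.eval_eq_sum_range' hnd, Finset.sum_range]

theorem IsUrChar.exists_val_eq (h : IsLocSys 𝒰 v) (hQ : HasResCard G v Q)
    (hχ : IsUrChar Ω 𝒰 Q n χ) {x : Ω} (hx : Fix ↥χ.ker x) : ∃ y, Fix G y ∧ v x = v y := by
  have hn : n ≠ 0 := NeZero.ne n
  have hQ1 := hQ.one_lt
  have hm0 := (UrAux.m_pos hQ1 hn).ne'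
  obtain ⟨ω, hω⟩ := UrAux.exists_prim Ω hm0
  obtain ⟨a, ha, hav, hxa⟩ := hχ.exists_coeffs h hQ hω hx
  by_cases hx0 : x = 0
  · exact ⟨0, Fix.zero, by rw [hx0]⟩
  by_contra hcon
  push Not at hcon
  have hlt : ∀ i, v (a i) < v x := fun i => lt_of_le_of_ne (hav i) (fun e => hcon _ (ha i) e.symm)
  have : v x < v x := by
    conv_lhs => rw [hxa]
    refine Valuation.map_sum_lt v ((Valuation.ne_zero_iff v).2 hx0) fun i _ => ?_
    rw [map_mul, map_pow, val_eq_one_of_pow_eq_one hm0 hω.pow_eq_one, one_pow, mul_one]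
    exact hlt i
  exact lt_irrefl _ this

theorem IsUrChar.isUnif_ker (h : IsLocSys 𝒰 v) (hQ : HasResCard G v Q)
    (hχ : IsUrChar Ω 𝒰 Q n χ) {π : Ω} (hπ : IsUnif G v π) : IsUnif ↥χ.ker v π := by
  obtain ⟨h1, h2, h3, h4⟩ := hπ
  refine ⟨fun g => h1 g, h2, h3, fun x hx hx0 => ?_⟩
  obtain ⟨y, hy, hxy⟩ := hχ.exists_val_eq h hQ hx
  have hy0 : y ≠ 0 := by
    rintro rfl
    rw [map_zero] at hxy
    exact hx0 ((Valuation.zero_iff v).1 hxy)
  obtain ⟨k, hk⟩ := h4 y hy hy0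
  exact ⟨k, hxy.trans hk⟩

omit [IsAlgClosed Ω] [CharZero Ω] in
lemma HasResCard.pow_iter (hQ : HasResCard G v Q) {a : Ω} (ha : Fix G a) (hv : v a ≤ 1) (r : ℕ) :
    v (a ^ (Q ^ r) - a) < 1 := by
  induction r with
  | zero => simp
  | succ r ih =>
    have e : a ^ (Q ^ (r + 1)) - a = ((a ^ (Q ^ r)) ^ Q - a ^ (Q ^ r)) + (a ^ (Q ^ r) - a) := by
      rw [pow_succ, pow_mul]; ring
    rw [e]
    exact lt_of_le_of_lt (Valuation.map_add _ _ _)
      (max_lt (hQ.pow _ (ha.pow _) (by rw [map_pow]; exact pow_le_one' hv _)) ih)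

theorem IsUrChar.hasResCard_ker (h : IsLocSys 𝒰 v) (hQ : HasResCard G v Q)
    (hχ : IsUrChar Ω 𝒰 Q n χ) : HasResCard ↥χ.ker v (Q ^ n) := by
  have hn : n ≠ 0 := NeZero.ne n
  have hQ1 := hQ.one_lt
  have hm0 := (UrAux.m_pos hQ1 hn).ne'
  refine ⟨hQ.isPrimePow.pow hn, ?_, fun x hx hxv => ?_, fun ω hω g => ?_⟩
  · rw [Nat.cast_pow, map_pow]
    exact pow_lt_one₀ zero_le hQ.val_lt hn
  · obtain ⟨ω, hω⟩ := UrAux.exists_prim Ω hm0
    have hωv : v ω = 1 := val_eq_one_of_pow_eq_one hm0 hω.pow_eq_one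
    obtain ⟨a, ha, hav, hxa⟩ := hχ.exists_coeffs h hQ hω hx
    have h1 := hQ.sum_pow Finset.univ (fun i : Fin n => a i * ω ^ (i : ℕ)) (fun i _ => by
      rw [map_mul, map_pow, hωv, one_pow, mul_one]; exact (hav i).trans hxv) n
    rw [← hxa] at h1
    have h2 : v (∑ i : Fin n, (a i * ω ^ (i : ℕ)) ^ (Q ^ n) - x) < 1 := by
      conv_lhs => rw [hxa, ← Finset.sum_sub_distrib]
      refine Valuation.map_sum_lt v one_ne_zero fun i _ => ?_
      have e : (a i * ω ^ (i : ℕ)) ^ (Q ^ n) - a i * ω ^ (i : ℕ)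
          = (a i ^ (Q ^ n) - a i) * ω ^ (i : ℕ) := by
        rw [mul_pow, ← pow_mul, mul_comm (i : ℕ), pow_mul, UrAux.pow_Qn hQ1 hω.pow_eq_one]
        ring
      rw [e, map_mul, map_pow, hωv, one_pow, mul_one]
      exact hQ.pow_iter (ha i) ((hav i).trans hxv) n
    have e : x ^ (Q ^ n) - x = (x ^ (Q ^ n) - ∑ i : Fin n, (a i * ω ^ (i : ℕ)) ^ (Q ^ n))
        + (∑ i : Fin n, (a i * ω ^ (i : ℕ)) ^ (Q ^ n) - x) := by ring
    rw [e]
    exact lt_of_le_of_lt (Valuation.map_add _ _ _) (max_lt h1 h2)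
  · exact (hχ.mem_ker_iff hQ1 _).1 g.2 ω hω

end Fermat.Agent.CFT.LS
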