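import Fermat.Agent.CFT.LS.Sub
import Fermat.Agent.CFT.LS.Res
import Fermat.Agent.CFT.LS.UrVal

/-!
# WP LS-STEP : a cyclic extension of degree `p` is unramified (`f = p`, `e = 1`) or totally ramified
(`f = 1`, `e = p`).  (No `e f = n`, no completeness: "an immediate Galois extension is trivial".)

`ψ σ = 1`, `G₁ = ker ψ`, `k₁ = Ω^{G₁}`, `Q₁ = Q^f` (`exists_resCard` for `G₁`, `exists_resDeg`).
1. `G₁` fixes `μ_{Q^f - 1}`, so `G₁ ≤ ker χ_f` (`mem_ker_iff`); `χ_f` is onto `ZMod f` and factors through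
   `G/G₁` of order `p`: `f ∣ p`.
2. `f = p`: `G₁ ≤ ker χ_p`, both of index `p`: equal; `isUnif_ker`.
3. `f = 1`: `v π = v π₁ ^ e`; `∏_{i<p} σ^i π₁ ∈ k` has value `v π₁ ^ p = v π ^ t`: `p = e t`.
   If `e = 1`: for `x ∈ k₁^×`, `v x = v π ^ n`, `x/π^n` is a unit of `k₁`, `≡ t ∈ k` (`exists_fix_near` for
   `G₁` with `Q₁ = Q`; `t^Q = t` ⇒ `t ∈ k` by `hQ.root`), so `v (x - t π^n) < v x`.  Iterating
   (`le_mul_of_lt`): for all `m` there is `a ∈ k` with `v (x - a) ≤ v x · v π ^ m`; then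
   `v (σ x - x) = v (σ (x - a) - (x - a)) ≤ v x · v π ^ m` for all `m`, so `σ x = x`.
   So `σ` fixes `k₁`, `σ ∈ G₁` (`mem_of_fix`): contradiction.
-/

set_option autoImplicit false

namespace Fermat.Agent.CFT.LS

open Fermat.Agent.CFT Fermat.Agent.CFT.Br

variable {G : Type} [Group G] {𝒰 : Levels G} {Ω : Type} [Field Ω] [MulSemiringAction G Ω]
  {Γ₀ : Type} [LinearOrderedCommGroupWithZero Γ₀] {v : Valuation Ω Γ₀}
  [IsAlgClosed Ω] [CharZero Ω] {p : ℕ} [Fact p.Prime] {ψ : G →* Multiplicative (ZMod p)}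

omit [IsAlgClosed Ω] [CharZero Ω] [Field Ω] [MulSemiringAction G Ω] [Fact p.Prime] in
lemma step_isOpenSub_ker {N : ℕ} {χ : G →* Multiplicative (ZMod N)} (hχ : IsSmoothChar 𝒰 χ) :
    IsOpenSub 𝒰 χ.ker := by
  obtain ⟨U, hU, h⟩ := hχ
  exact ⟨U, hU, fun s hs => MonoidHom.mem_ker.2 (h s hs)⟩

omit [IsAlgClosed Ω] [CharZero Ω] [Field Ω] [MulSemiringAction G Ω] in
/-- every `g` is `σ ^ a` modulo the kernel -/
lemma step_decomp {σ : G} (hσ : ψ σ = Multiplicative.ofAdd 1) (g : G) :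
    (σ ^ (ψ g).toAdd.val)⁻¹ * g ∈ ψ.ker := by
  rw [MonoidHom.mem_ker, map_mul, map_inv, map_pow, hσ, ← ofAdd_nsmul, nsmul_eq_mul, mul_one,
    ZMod.natCast_zmod_val, ofAdd_toAdd, inv_mul_cancel]

omit [IsAlgClosed Ω] [CharZero Ω] in
lemma step_smul_eq {σ : G} (hσ : ψ σ = Multiplicative.ofAdd 1) {x : Ω} (hx : Fix ↥ψ.ker x)
    (g : G) : g • x = σ ^ (ψ g).toAdd.val • x := by
  have h := hx ⟨_, step_decomp hσ g⟩
  change ((σ ^ (ψ g).toAdd.val)⁻¹ * g) • x = x at h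
  rw [mul_smul, inv_smul_eq_iff] at h
  exact h

omit [IsAlgClosed Ω] [CharZero Ω] in
lemma step_fix_norm {σ : G} (hσ : ψ σ = Multiplicative.ofAdd 1) {x : Ω} (hx : Fix ↥ψ.ker x) :
    Fix G (∏ c : ZMod p, σ ^ c.val • x) := by
  intro g
  rw [Finset.smul_prod']
  refine Fintype.prod_equiv (Equiv.addLeft (ψ g).toAdd) _ _ (fun c => ?_)
  rw [← mul_smul, step_smul_eq hσ hx (g * σ ^ c.val)]
  congr 3
  rw [map_mul, map_pow, hσ, ← ofAdd_nsmul, nsmul_eq_mul, mul_one, ZMod.natCast_zmod_val]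
  rfl

omit [IsAlgClosed Ω] [CharZero Ω] in
lemma step_val_norm (hinv : ∀ (g : G) (x : Ω), v (g • x) = v x) (σ : G) (x : Ω) :
    v (∏ c : ZMod p, σ ^ c.val • x) = v x ^ p := by
  rw [map_prod, Finset.prod_congr rfl (fun c _ => hinv (σ ^ c.val) x), Finset.prod_const,
    Finset.card_univ, ZMod.card]

omit [IsAlgClosed Ω] [CharZero Ω] in
lemma step_fix_smul {x : Ω} (hx : Fix ↥ψ.ker x) (g : G) : Fix ↥ψ.ker (g • x) := by
  intro s
  have h1 : g⁻¹ * s.1 * g ∈ ψ.ker := by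
    have := (inferInstance : ψ.ker.Normal).conj_mem s.1 s.2 g⁻¹
    simpa using this
  have h2 := hx ⟨_, h1⟩
  change (g⁻¹ * s.1 * g) • x = x at h2
  change s.1 • g • x = g • x
  rw [mul_smul, mul_smul, inv_smul_eq_iff] at h2
  exact h2

/-- `f = 1`, `e = 1`: approximation of elements of `k₁` by elements of `k`. -/
lemma step_approx {Q : ℕ} (hQ : HasResCard G v Q) (hQ₁ : HasResCard ↥ψ.ker v Q) {π : Ω}
    (hπ : IsUnif G v π) (hπ₁ : IsUnif ↥ψ.ker v π) (m : ℕ) :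
    ∀ x, Fix ↥ψ.ker x → ∃ a, Fix G a ∧ v (x - a) ≤ v x * v π ^ m := by
  induction m with
  | zero =>
    intro x _
    exact ⟨0, Fix.zero, by simp⟩
  | succ m ih =>
    intro x hx
    by_cases hx0 : x = 0
    · exact ⟨0, Fix.zero, by simp [hx0]⟩
    obtain ⟨n, hn⟩ := hπ₁.2.2.2 x hx hx0
    have hπ0 : π ≠ 0 := hπ.2.1
    have hπn : π ^ n ≠ 0 := zpow_ne_zero _ hπ0
    have hfixπn : Fix G (π ^ n) := by
      intro g
      have := map_zpow₀ (MulSemiringAction.toRingHom G Ω g) π n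
      rw [MulSemiringAction.toRingHom_apply, MulSemiringAction.toRingHom_apply, hπ.1 g] at this
      exact this
    have hfixπn₁ : Fix ↥ψ.ker (π ^ n) := fun s => hfixπn s.1
    set u : Ω := x * (π ^ n)⁻¹ with hu
    have hfu : Fix ↥ψ.ker u := hx.mul hfixπn₁.inv
    have hvu : v u = 1 := by
      rw [hu, map_mul, map_inv₀, map_zpow₀, hn]
      exact mul_inv_cancel₀ (zpow_ne_zero _ ((Valuation.ne_zero_iff v).2 hπ0))
    obtain ⟨t, ht, -, htu⟩ := hQ.exists_fix_near (hQ₁.pow u hfu hvu.le)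
    have hx' : x - t * π ^ n = (u - t) * π ^ n := by
      rw [hu, sub_mul, mul_assoc, inv_mul_cancel₀ hπn, mul_one]
    have hfx' : Fix ↥ψ.ker (x - t * π ^ n) :=
      hx.sub (Fix.mul (fun s => ht s.1) hfixπn₁)
    have hlt : v (x - t * π ^ n) < v x := by
      rw [hx', map_mul, map_zpow₀, ← hn]
      exact mul_lt_of_lt_one_left (zero_lt_iff.2 ((Valuation.ne_zero_iff v).2 hx0)) htu
    have hle := hπ₁.le_mul_of_lt hfx' hx hx0 hlt
    obtain ⟨a, ha, hva⟩ := ih _ hfx'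
    refine ⟨t * π ^ n + a, (ht.mul hfixπn).add ha, ?_⟩
    rw [← sub_sub]
    refine hva.trans ?_
    rw [pow_succ', ← mul_assoc]
    exact mul_le_mul_left hle _

omit [IsAlgClosed Ω] [CharZero Ω] [Field Ω] [MulSemiringAction G Ω] in
lemma step_pow_mem_ker (g : G) : g ^ p ∈ ψ.ker := by
  rw [MonoidHom.mem_ker, map_pow, ← ofAdd_toAdd (ψ g), ← ofAdd_nsmul, nsmul_eq_mul,
    ZMod.natCast_self, zero_mul, ofAdd_zero]

omit [IsAlgClosed Ω] [CharZero Ω] [Field Ω] [MulSemiringAction G Ω] in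
lemma step_ofAdd_one_ne : (Multiplicative.ofAdd (1 : ZMod p)) ≠ 1 := by
  intro h
  have h1 : (1 : ZMod p) = 0 := Multiplicative.ofAdd.injective h
  exact one_ne_zero h1

omit [IsAlgClosed Ω] [CharZero Ω] [Field Ω] [MulSemiringAction G Ω] in
/-- two surjective characters of order `p` with comparable kernels have the same kernel -/
lemma step_ker_eq {χ : G →* Multiplicative (ZMod p)} {σ τ : G}
    (hσ : ψ σ = Multiplicative.ofAdd 1) (hτ : χ τ = Multiplicative.ofAdd 1)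
    (hle : ψ.ker ≤ χ.ker) : χ.ker = ψ.ker := by
  refine le_antisymm ?_ hle
  have key : ∀ g : G, χ g = χ σ ^ (ψ g).toAdd.val := by
    intro g
    have h1 := hle (step_decomp hσ g)
    rw [MonoidHom.mem_ker, map_mul, map_inv, map_pow, inv_mul_eq_one] at h1
    exact h1.symm
  have hc : (χ σ).toAdd ≠ 0 := by
    intro h0
    have h1 : χ σ = 1 := by rw [← ofAdd_toAdd (χ σ), h0, ofAdd_zero]
    have h2 := key τ
    rw [h1, one_pow, hτ] at h2
    exact step_ofAdd_one_ne h2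
  intro g hg
  rw [MonoidHom.mem_ker, key g, ← ofAdd_toAdd (χ σ), ← ofAdd_nsmul, nsmul_eq_mul,
    ZMod.natCast_zmod_val] at hg
  have h3 : (ψ g).toAdd * (χ σ).toAdd = 0 := Multiplicative.ofAdd.injective hg
  rcases mul_eq_zero.1 h3 with h4 | h4
  · rw [MonoidHom.mem_ker, ← ofAdd_toAdd (ψ g), h4, ofAdd_zero]
  · exact absurd h4 hc

/-- an immediate cyclic extension of degree `p` is trivial -/
lemma step_immediate (h : IsLocSys 𝒰 v) {Q : ℕ} (hQ : HasResCard G v Q)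
    (hQ₁ : HasResCard ↥ψ.ker v Q) {π : Ω} (hπ : IsUnif G v π) (hπ₁ : IsUnif ↥ψ.ker v π)
    (σ : G) {x : Ω} (hx : Fix ↥ψ.ker x) : σ • x = x := by
  by_contra hne
  have hy0 : σ • x - x ≠ 0 := sub_ne_zero.2 hne
  have hx0 : x ≠ 0 := by
    rintro rfl
    exact hne (smul_zero σ)
  have hfy : Fix ↥ψ.ker (σ • x - x) := (step_fix_smul hx σ).sub hx
  obtain ⟨j, hj⟩ := hπ₁.2.2.2 _ hfy hy0
  obtain ⟨n, hn⟩ := hπ₁.2.2.2 _ hx hx0
  obtain ⟨a, ha, hva⟩ := step_approx hQ hQ₁ hπ hπ₁ (j - n + 1).toNat x hx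
  have hπpos : 0 < v π := zero_lt_iff.2 ((Valuation.ne_zero_iff v).2 hπ.2.1)
  have e1 : σ • x - x = σ • (x - a) - (x - a) := by
    rw [smul_sub, ha σ]; ring
  have h1 : v (σ • x - x) ≤ v (x - a) := by
    rw [e1]
    refine (Valuation.map_sub v _ _).trans ?_
    rw [h.inv, max_self]
  have h2 := h1.trans hva
  rw [hj, hn, ← zpow_natCast, ← zpow_add₀ hπpos.ne',
    zpow_le_zpow_iff_right_of_lt_one₀ hπpos hπ.2.2.1] at h2
  omega

theorem IsLocSys.step (h : IsLocSys 𝒰 v) {Q : ℕ} (hQ : HasResCard G v Q)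
    (hψ : IsSmoothChar 𝒰 ψ) {σ : G} (hσ : ψ σ = Multiplicative.ofAdd 1) {π : Ω}
    (hπ : IsUnif G v π) :
    (HasResCard ↥ψ.ker v (Q ^ p) ∧ IsUnif ↥ψ.ker v π) ∨
    (HasResCard ↥ψ.ker v Q ∧ ∃ π₁ : Ω, IsUnif ↥ψ.ker v π₁ ∧ v π = v π₁ ^ p) := by
  have hp : p.Prime := Fact.out
  have hopen : IsOpenSub 𝒰 ψ.ker := step_isOpenSub_ker hψ
  have h₁ : IsLocSys (subLev 𝒰 ψ.ker) v := h.sub hopen
  obtain ⟨Q₁, hQ₁⟩ := h₁.exists_resCard
  obtain ⟨f, hf, rfl⟩ := hQ.exists_resDeg hQ₁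
  have : NeZero f := ⟨hf.ne'⟩
  obtain ⟨χ, hχ⟩ := h.exists_urChar hQ f
  have hle : ψ.ker ≤ χ.ker := by
    intro g hg
    rw [hχ.mem_ker_iff hQ.one_lt]
    intro ω hω
    exact hQ₁.root ω hω ⟨g, hg⟩
  obtain ⟨τ, hτ⟩ := hχ.surj
  have hfp : f ∣ p := by
    have h2 := hle (step_pow_mem_ker (ψ := ψ) τ)
    rw [MonoidHom.mem_ker, map_pow, hτ, ← ofAdd_nsmul, nsmul_eq_mul, mul_one] at h2
    exact (ZMod.natCast_eq_zero_iff p f).1 (Multiplicative.ofAdd.injective h2)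
  rcases (Nat.dvd_prime hp).1 hfp with hf1 | hfp'
  · -- `f = 1`
    right
    subst hf1
    rw [pow_one] at hQ₁
    refine ⟨hQ₁, ?_⟩
    obtain ⟨π₁, hπ₁⟩ := h₁.disc
    obtain ⟨e, he, hve⟩ := hπ.exists_ramIdx hπ₁
    have hπ₁pos : 0 < v π₁ := zero_lt_iff.2 ((Valuation.ne_zero_iff v).2 hπ₁.2.1)
    have hN0 : (∏ c : ZMod p, σ ^ c.val • π₁) ≠ 0 := by
      rw [← Valuation.ne_zero_iff v, step_val_norm h.inv]
      exact pow_ne_zero _ hπ₁pos.ne'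
    obtain ⟨n, hn⟩ := hπ.2.2.2 _ (step_fix_norm hσ hπ₁.1) hN0
    rw [step_val_norm h.inv, hve, ← zpow_natCast, ← zpow_natCast, ← zpow_mul] at hn
    have hpe : (p : ℤ) = (e : ℤ) * n :=
      (zpow_right_strictAnti₀ hπ₁pos hπ₁.2.2.1).injective hn
    have hep : e ∣ p := Int.natCast_dvd_natCast.1 ⟨n, hpe⟩
    rcases (Nat.dvd_prime hp).1 hep with he1 | hep'
    · exfalso
      subst he1
      rw [pow_one] at hve
      have hπ' : IsUnif ↥ψ.ker v π :=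
        ⟨fun s => hπ.1 s.1, hπ.2.1, hπ.2.2.1, fun x hx hx0 => by
          obtain ⟨n, hn⟩ := hπ₁.2.2.2 x hx hx0
          exact ⟨n, by rw [hn, hve]⟩⟩
      have hmem : σ ∈ ψ.ker := h.gal.mem_of_fix hopen σ (fun x hx =>
        step_immediate h hQ hQ₁ hπ hπ' σ ((fix_sub_iff _ _).2 hx))
      rw [MonoidHom.mem_ker, hσ] at hmem
      exact step_ofAdd_one_ne hmem
    · subst hep'
      exact ⟨π₁, hπ₁, hve⟩
  · -- `f = p`
    left
    subst hfp'
    refine ⟨hQ₁, ?_⟩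
    have hker : χ.ker = ψ.ker := step_ker_eq hσ hτ hle
    have := hχ.isUnif_ker h hQ hπ
    rwa [hker] at this

end Fermat.Agent.CFT.LS
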