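import Fermat.Agent.CFT.LS.UrNorm
import Fermat.Agent.CFT.LS.Step

/-!
# WP LS-STEPRES : restriction of unramified classes to a normal subgroup of index `p`
("`inv` is multiplied by `p`").

`G₁ = ker ψ`, `χ = χ_{p^(j+1)}` on `G`, `χ₁ = χ¹_{p^j}` on `G₁`, `χ₁' = χ¹_{p^(j+1)}` on `G₁`.
`res (χ, y) = (χ|G₁, y)` (`res2_cyc`), `χ|G₁ = χ₁'^f` (`comp_subtype`), `(χ₁'^f, y) ~ (χ₁', y^f)` (`cyc_pow_char`).
By LS-STEP:
* `f = p`, `π` uniformiser of `k₁`: `(χ₁', y^p) ~ (χ₁, y)` (`cyc_proj`, `proj`).  So `y' = y`.  Conversely a given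
  `y' ∈ k₁` has `v y' = v y` with `y = π^n ∈ k`; `cyc_sub_mem_B2_of_val_eq`.
* `f = 1`, `v π = v π₁^p`: `y ∈ k`, `v y = v π^n = v (π₁^n)^p`: `(χ₁', y) ~ (χ₁', (π₁^n)^p) ~ (χ₁, π₁^n)`.
  Conversely `y' ∈ k₁`, `v y' = v π₁^n`: take `y = π^n`.
(negative `n`: use `zpow`, or `cyc_neg`.)
-/

set_option autoImplicit false

namespace Fermat.Agent.CFT.LS

open Fermat.Agent.CFT Fermat.Agent.CFT.Br

variable {G : Type} [Group G] {𝒰 : Levels G} {Ω : Type} [Field Ω] [MulSemiringAction G Ω]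
  {Γ₀ : Type} [LinearOrderedCommGroupWithZero Γ₀] {v : Valuation Ω Γ₀}
  [IsAlgClosed Ω] [CharZero Ω] {p : ℕ} [Fact p.Prime] {ψ : G →* Multiplicative (ZMod p)}

namespace StepResAux

omit [IsAlgClosed Ω] [CharZero Ω] in
lemma uRep_fix {G : Type} [Group G] [MulSemiringAction G Ω] {y : Ωˣ} (hy : y ∈ fixU G Ω) (g : G) :
    uRep G Ω g (Additive.ofMul y) = Additive.ofMul y :=
  congrArg Additive.ofMul (hy g)

omit [IsAlgClosed Ω] [CharZero Ω] in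
lemma fixU_sub {y : Ωˣ} (hy : y ∈ fixU G Ω) (H : Subgroup G) : y ∈ fixU ↥H Ω :=
  (mem_fixU_iff y).mpr fun s => (mem_fixU_iff y).mp hy s.1

omit [IsAlgClosed Ω] [CharZero Ω] in
/-- the unit `π ^ n` -/
lemma exists_unit_zpow {G : Type} [Group G] [MulSemiringAction G Ω] {π : Ω} (hπ : IsUnif G v π)
    (n : ℤ) : ∃ u ∈ fixU G Ω, v (u : Ω) = v π ^ n := by
  refine ⟨Units.mk0 π hπ.2.1 ^ n, (mem_fixU_iff _).mpr ?_, ?_⟩
  · rw [Units.val_zpow_eq_zpow_val]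
    exact SubAux.fix_zpow hπ.1 n
  · rw [Units.val_zpow_eq_zpow_val, map_zpow₀]
    rfl

omit [IsAlgClosed Ω] [CharZero Ω] in
lemma exists_val_eq_zpow {G : Type} [Group G] [MulSemiringAction G Ω] {π : Ω}
    (hπ : IsUnif G v π) {y : Ωˣ} (hy : y ∈ fixU G Ω) : ∃ n : ℤ, v (y : Ω) = v π ^ n :=
  hπ.2.2.2 _ ((mem_fixU_iff y).mp hy) y.ne_zero

end StepResAux

open StepResAux

theorem IsLocSys.stepRes (h : IsLocSys 𝒰 v) {Q Q₁ : ℕ} (hQ : HasResCard G v Q)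
    (hQ₁ : HasResCard ↥ψ.ker v Q₁) (hψ : IsSmoothChar 𝒰 ψ) {σ : G}
    (hσ : ψ σ = Multiplicative.ofAdd 1) {j : ℕ} {χ : G →* Multiplicative (ZMod (p ^ (j + 1)))}
    (hχ : IsUrChar Ω 𝒰 Q (p ^ (j + 1)) χ) {χ₁ : ↥ψ.ker →* Multiplicative (ZMod (p ^ j))}
    (hχ₁ : IsUrChar Ω (subLev 𝒰 ψ.ker) Q₁ (p ^ j) χ₁) :
    (∀ y ∈ fixU G Ω, ∃ y' ∈ fixU ↥ψ.ker Ω,
      res2 ψ.ker (cyc χ (Additive.ofMul y)) - cyc χ₁ (Additive.ofMul y') ∈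
        B2 (subLev 𝒰 ψ.ker) (uRep ↥ψ.ker Ω)) ∧
    (∀ y' ∈ fixU ↥ψ.ker Ω, ∃ y ∈ fixU G Ω,
      res2 ψ.ker (cyc χ (Additive.ofMul y)) - cyc χ₁ (Additive.ofMul y') ∈
        B2 (subLev 𝒰 ψ.ker) (uRep ↥ψ.ker Ω)) := by
  have : NeZero p := ⟨(Fact.out : p.Prime).ne_zero⟩
  have hopen : IsOpenSub 𝒰 ψ.ker := by
    obtain ⟨U, hU, hUψ⟩ := hψ
    exact ⟨U, hU, fun s hs => MonoidHom.mem_ker.mpr (hUψ s hs)⟩
  have h₁ : IsLocSys (subLev 𝒰 ψ.ker) v := h.sub hopen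
  obtain ⟨χ₁', hχ₁'⟩ := h₁.exists_urChar hQ₁ (p ^ (j + 1))
  obtain ⟨π, hπ⟩ := h.disc
  -- `(χ₁', w^p) ~ (χ₁, w)`
  have hproj : ∀ w ∈ fixU ↥ψ.ker Ω,
      cyc χ₁' (Additive.ofMul (w ^ p)) - cyc χ₁ (Additive.ofMul w) ∈
        B2 (subLev 𝒰 ψ.ker) (uRep ↥ψ.ker Ω) := by
    intro w hw
    rw [ofMul_pow]
    exact cyc_proj (pow_succ' p j) hχ₁'.smooth χ₁
      (fun g => IsUrChar.proj hQ₁.one_lt (pow_succ' p j) hχ₁' hχ₁ g) (uRep_fix hw)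
  rcases h.step hQ hψ hσ hπ with ⟨hQp, hπ₁⟩ | ⟨hQ1, π₁, hπ₁, hππ₁⟩
  · -- unramified case
    have hQQ : Q₁ = Q ^ p := hQ₁.unique hQp
    subst hQQ
    have hcomp : χ.comp (ψ.ker).subtype = χ₁' ^ p := IsUrChar.comp_subtype hQ.one_lt hχ hχ₁'
    have key : ∀ y ∈ fixU G Ω, ∀ z ∈ fixU ↥ψ.ker Ω, v (y : Ω) = v (z : Ω) →
        res2 ψ.ker (cyc χ (Additive.ofMul y)) - cyc χ₁ (Additive.ofMul z) ∈
          B2 (subLev 𝒰 ψ.ker) (uRep ↥ψ.ker Ω) := by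
      intro y hy z hz hv
      have hy₁ := fixU_sub hy ψ.ker
      rw [res2_cyc, hcomp]
      have e1 := cyc_pow_char (ρ := uRep ↥ψ.ker Ω) hχ₁'.smooth (uRep_fix hy₁) p
      rw [← ofMul_pow] at e1
      have e2 := hproj y hy₁
      have e3 := IsUrChar.cyc_sub_mem_B2_of_val_eq h₁ hQ₁ hχ₁ hy₁ hz hv
      have := add_mem (add_mem e1 e2) e3
      convert this using 1
      abel
    refine ⟨fun y hy => ⟨y, fixU_sub hy _, key y hy y (fixU_sub hy _) rfl⟩, fun z hz => ?_⟩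
    obtain ⟨n, hn⟩ := exists_val_eq_zpow hπ₁ hz
    obtain ⟨y, hy, hyn⟩ := exists_unit_zpow hπ n
    exact ⟨y, hy, key y hy z hz (by rw [hyn, hn])⟩
  · -- totally ramified case
    have hQQ : Q₁ = Q := hQ₁.unique hQ1
    subst hQQ
    have hχ₁'' : IsUrChar Ω (subLev 𝒰 ψ.ker) (Q₁ ^ 1) (p ^ (j + 1)) χ₁' := by
      rw [pow_one]; exact hχ₁'
    have hcomp : χ.comp (ψ.ker).subtype = χ₁' := by
      rw [IsUrChar.comp_subtype hQ.one_lt hχ hχ₁'', pow_one]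
    have key : ∀ y ∈ fixU G Ω, ∀ z ∈ fixU ↥ψ.ker Ω, v (y : Ω) = v (z : Ω) ^ p →
        res2 ψ.ker (cyc χ (Additive.ofMul y)) - cyc χ₁ (Additive.ofMul z) ∈
          B2 (subLev 𝒰 ψ.ker) (uRep ↥ψ.ker Ω) := by
      intro y hy z hz hv
      have hy₁ := fixU_sub hy ψ.ker
      rw [res2_cyc, hcomp]
      have e2 := hproj z hz
      have e3 := IsUrChar.cyc_sub_mem_B2_of_val_eq h₁ hQ₁ hχ₁' hy₁
        ((fixU ↥ψ.ker Ω).pow_mem hz p) (by rw [hv, Units.val_pow_eq_pow_val, map_pow])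
      have := add_mem e3 e2
      convert this using 1
      abel
    refine ⟨fun y hy => ?_, fun z hz => ?_⟩
    · obtain ⟨n, hn⟩ := exists_val_eq_zpow hπ hy
      obtain ⟨z, hz, hzn⟩ := exists_unit_zpow hπ₁ n
      refine ⟨z, hz, key y hy z hz ?_⟩
      rw [hn, hzn, hππ₁, ← zpow_natCast, ← zpow_natCast, ← zpow_mul, ← zpow_mul, mul_comm]
    · obtain ⟨n, hn⟩ := exists_val_eq_zpow hπ₁ hz
      obtain ⟨y, hy, hyn⟩ := exists_unit_zpow hπ n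
      refine ⟨y, hy, key y hy z hz ?_⟩
      rw [hn, hyn, hππ₁, ← zpow_natCast, ← zpow_natCast, ← zpow_mul, ← zpow_mul, mul_comm]

end Fermat.Agent.CFT.LS
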