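import Fermat.Agent.CFT.LS.Basic
import Fermat.Agent.CFT.Br.Gal

/-!
# WP LS-SUB : an open subgroup of a local system is a local system.

`H ≤ G` open, `m = [G:H]`, `k_H = Ω^H`.
* disc: `x ∈ k_H^×` ⇒ `N x = ∏ t_i x ∈ k` (`exists_norm`), `v (N x) = (v x)^m`, so `(v x)^m ∈ ⟨v π⟩`.
  `x ↦ n(x)` with `(v x)^m = (v π)^(n x)` is a homomorphism `k_H^× → ℤ` whose image `dℤ` contains `m`;
  `v x = 1 ↔ n x = 0` (ordered groups are torsion free); an element with `n = d` is a uniformiser.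
* fin: `T'` := all roots in `Ω` of the monic polynomials of degree `m` with coefficients in `T`.
  For `x ∈ O_{k_H}` let `P` be its characteristic polynomial (`exists_charpoly`; coefficients in `O_k`),
  `P~` the polynomial with coefficients in `T` congruent to those of `P`: `v (P~ x) < 1`, and
  `P~ = ∏ (X - θ_j)` gives `v (x - θ_j) < 1` for some `j`.
-/

set_option autoImplicit false

namespace Fermat.Agent.CFT.LS

open Fermat.Agent.CFT Fermat.Agent.CFT.Br

variable {G : Type} [Group G] {𝒰 : Levels G} {Ω : Type} [Field Ω] [MulSemiringAction G Ω]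
  {Γ₀ : Type} [LinearOrderedCommGroupWithZero Γ₀] {v : Valuation Ω Γ₀}

namespace SubAux

lemma finiteIndex_of_open {H : Subgroup G} (hH : IsOpenSub 𝒰 H) : H.FiniteIndex := by
  obtain ⟨U, hU, hUH⟩ := hH
  have := 𝒰.finiteIndex U hU
  exact Subgroup.finiteIndex_of_le hUH

lemma fix_zpow {G : Type} [Group G] [MulSemiringAction G Ω] {x : Ω} (hx : Fix G x) (n : ℤ) :
    Fix G (x ^ n) := by
  cases n with
  | ofNat n => simpa using hx.pow n
  | negSucc n => simpa [zpow_negSucc] using (hx.pow (n + 1)).inv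

lemma smul_ne_zero' (g : G) {x : Ω} (hx : x ≠ 0) : g • x ≠ 0 := by
  intro h
  apply hx
  have := congrArg (fun y => g⁻¹ • y) h
  simpa using this

/-- the `m`-th power of the valuation of a nonzero element of `k_H` is a power of `v π` -/
lemma exists_pow_eq (hinv : ∀ (g : G) (x : Ω), v (g • x) = v x) {π : Ω} (hπ : IsUnif G v π)
    {H : Subgroup G} (hH : H.FiniteIndex) {x : Ω} (hx : Fix ↥H x) (hx0 : x ≠ 0) :
    ∃ n : ℤ, v x ^ H.index = v π ^ n := by
  obtain ⟨t, ht⟩ := exists_norm hH x ((fix_sub_iff H x).mp hx)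
  have h0 : (∏ i, t i • x) ≠ 0 := Finset.prod_ne_zero_iff.mpr fun i _ => smul_ne_zero' _ hx0
  obtain ⟨n, hn⟩ := hπ.2.2.2 _ ht h0
  refine ⟨n, ?_⟩
  rw [← hn, map_prod]
  simp [hinv]

lemma pow_inj {a b : Γ₀} {m : ℕ} (hm : m ≠ 0) (h : a ^ m = b ^ m) : a = b :=
  (pow_left_inj₀ zero_le zero_le hm).mp h

end SubAux

open SubAux

theorem IsLocSys.exists_unif_sub (h : IsLocSys 𝒰 v) {H : Subgroup G} (hH : IsOpenSub 𝒰 H) :
    ∃ π : Ω, IsUnif ↥H v π := by
  classical
  obtain ⟨π₀, hπ₀⟩ := h.disc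
  have hfi : H.FiniteIndex := finiteIndex_of_open hH
  set m := H.index with hm
  have hm0 : m ≠ 0 := hfi.index_ne_zero
  have hvπ₀ : v π₀ ≠ 0 := (Valuation.ne_zero_iff v).mpr hπ₀.2.1
  have hex : ∃ d : ℕ, 0 < d ∧ ∃ x : Ω, Fix ↥H x ∧ x ≠ 0 ∧ v x ^ m = v π₀ ^ d :=
    ⟨m, Nat.pos_of_ne_zero hm0, π₀, fun s => hπ₀.1 s.1, hπ₀.2.1, rfl⟩
  obtain ⟨hd0, π, hπfix, hπ0, hπd⟩ := Nat.find_spec hex
  set d := Nat.find hex with hd
  have hvπ : v π ≠ 0 := (Valuation.ne_zero_iff v).mpr hπ0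
  refine ⟨π, hπfix, hπ0, ?_, fun x hx hx0 => ?_⟩
  · by_contra hge
    have h1 : 1 ≤ v π ^ m := one_le_pow₀ (not_lt.mp hge)
    rw [hπd] at h1
    exact absurd h1 (not_le.mpr (pow_lt_one₀ zero_le hπ₀.2.2.1 hd0.ne'))
  · obtain ⟨n, hn⟩ := exists_pow_eq h.inv hπ₀ hfi hx hx0
    set q := n / d with hq
    set r := n % d with hr
    have hdpos : (0 : ℤ) < d := by exact_mod_cast hd0
    have hr0 : 0 ≤ r := Int.emod_nonneg _ hdpos.ne'
    have hrd : r < d := Int.emod_lt_of_pos _ hdpos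
    have hnqr : n = r + d * q := (Int.emod_add_mul_ediv n d).symm
    have hyfix : Fix ↥H (x * (π ^ q)⁻¹) := hx.mul (fix_zpow hπfix q).inv
    have hy0 : x * (π ^ q)⁻¹ ≠ 0 := mul_ne_zero hx0 (inv_ne_zero (zpow_ne_zero _ hπ0))
    have hy : v (x * (π ^ q)⁻¹) ^ m = v π₀ ^ r := by
      rw [map_mul, map_inv₀, map_zpow₀, mul_pow, hn, inv_pow, ← zpow_natCast (v π ^ q) m,
        ← zpow_mul, mul_comm q, zpow_mul, zpow_natCast, hπd, hnqr, zpow_add₀ hvπ₀, zpow_mul,
        zpow_natCast, mul_assoc, mul_inv_cancel₀ (zpow_ne_zero _ (pow_ne_zero _ hvπ₀)), mul_one]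
    have hr00 : r = 0 := by
      by_contra hne
      have hrpos : 0 < r.toNat := by omega
      have hlt : r.toNat < d := by omega
      refine Nat.find_min hex hlt ⟨hrpos, _, hyfix, hy0, ?_⟩
      rw [hy, ← zpow_natCast, Int.toNat_of_nonneg hr0]
    rw [hr00, zpow_zero] at hy
    have h1 : v (x * (π ^ q)⁻¹) = 1 := pow_inj hm0 (by rw [hy, one_pow])
    refine ⟨q, ?_⟩
    rw [map_mul, map_inv₀, map_zpow₀] at h1
    exact (mul_inv_eq_one₀ (zpow_ne_zero _ hvπ)).mp h1

theorem IsLocSys.fin_sub [IsAlgClosed Ω] (h : IsLocSys 𝒰 v) {H : Subgroup G}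
    (hH : IsOpenSub 𝒰 H) :
    ∃ T : Finset Ω, ∀ x, Fix ↥H x → v x ≤ 1 → ∃ t ∈ T, v (x - t) < 1 := by
  classical
  obtain ⟨T, hT⟩ := h.fin
  have hfi : H.FiniteIndex := finiteIndex_of_open hH
  set m := H.index with hm
  let pol : (Fin m → Ω) → Polynomial Ω := fun c =>
    Polynomial.X ^ m + ∑ i : Fin m, Polynomial.C (c i) * Polynomial.X ^ (i : ℕ)
  refine ⟨(Fintype.piFinset fun _ : Fin m => T).biUnion fun c => (pol c).roots.toFinset,
    fun x hx hx1 => ?_⟩
  obtain ⟨P, t, hP, ht0, hPfix⟩ := exists_charpoly hfi x ((fix_sub_iff H x).mp hx)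
  -- integrality of the coefficients
  have hint : ∀ n, v (P.coeff n) ≤ 1 := by
    intro n
    let Q : Polynomial v.integer :=
      ∏ i, (Polynomial.X - Polynomial.C (⟨t i • x, by
        show v (t i • x) ≤ 1
        rw [h.inv]; exact hx1⟩ : v.integer))
    have hQ : P = Q.map v.integer.subtype := by
      rw [hP, Polynomial.map_prod]
      refine Finset.prod_congr rfl fun i _ => ?_
      simp
    rw [hQ, Polynomial.coeff_map]
    exact (Q.coeff n).2
  have hPmonic : P.Monic := by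
    rw [hP]; exact Polynomial.monic_prod_of_monic _ _ fun i _ => Polynomial.monic_X_sub_C _
  have hPdeg : P.natDegree = m := by
    rw [hP, Polynomial.natDegree_prod_of_monic _ _ fun i _ => Polynomial.monic_X_sub_C _]
    simp [hm]
  have hPx : P.eval x = 0 := by
    rw [hP, Polynomial.eval_prod]
    refine Finset.prod_eq_zero (Finset.mem_univ ⟨0, Nat.pos_of_ne_zero hfi.index_ne_zero⟩) ?_
    rw [ht0]; simp
  choose c hcT hc using fun i : Fin m => hT (P.coeff i) (hPfix i) (hint i)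
  have hPsum : P = Polynomial.X ^ m
      + ∑ i : Fin m, Polynomial.C (P.coeff i) * Polynomial.X ^ (i : ℕ) := by
    conv_lhs => rw [hPmonic.as_sum, hPdeg]
    rw [Finset.sum_range]
  have hmonic : (pol c).Monic := Polynomial.monic_X_pow_add (Polynomial.degree_sum_fin_lt c)
  have heval : v ((pol c).eval x) < 1 := by
    have e : (pol c).eval x = ∑ i : Fin m, (c i - P.coeff i) * x ^ (i : ℕ) := by
      have e1 : (pol c).eval x = (pol c).eval x - P.eval x := by rw [hPx, sub_zero]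
      rw [e1]
      conv_lhs => rw [hPsum]
      simp only [pol, Polynomial.eval_add, Polynomial.eval_pow, Polynomial.eval_X,
        Polynomial.eval_finsetSum, Polynomial.eval_mul, Polynomial.eval_C]
      rw [add_sub_add_left_eq_sub, ← Finset.sum_sub_distrib]
      refine Finset.sum_congr rfl fun i _ => by ring
    rw [e]
    refine Valuation.map_sum_lt v one_ne_zero fun i _ => ?_
    rw [map_mul, map_pow]
    have h1 : v (c i - P.coeff i) < 1 := by rw [← Valuation.map_sub_swap]; exact hc i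
    calc v (c i - P.coeff i) * v x ^ (i : ℕ) ≤ v (c i - P.coeff i) * 1 :=
          mul_le_mul_right (pow_le_one₀ zero_le hx1) _
      _ < 1 := by rwa [mul_one]
  rw [(IsAlgClosed.splits (pol c)).eval_eq_prod_roots_of_monic hmonic, map_multiset_prod,
    Multiset.map_map] at heval
  by_contra hcon
  push Not at hcon
  refine absurd heval (not_lt.mpr ?_)
  refine Multiset.one_le_prod_of_one_le ?_
  intro y hy
  obtain ⟨θ, hθ, rfl⟩ := Multiset.mem_map.mp hy
  refine hcon θ ?_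
  rw [Finset.mem_biUnion]
  exact ⟨c, Fintype.mem_piFinset.mpr hcT, Multiset.mem_toFinset.mpr hθ⟩

theorem IsLocSys.sub [IsAlgClosed Ω] (h : IsLocSys 𝒰 v) {H : Subgroup G} (hH : IsOpenSub 𝒰 H) :
    IsLocSys (subLev 𝒰 H) v where
  gal := h.gal.sub H
  inv g x := h.inv g.1 x
  disc := h.exists_unif_sub hH
  fin := h.fin_sub hH

/-- ramification index -/
theorem IsUnif.exists_ramIdx {H : Subgroup G} {π π' : Ω} (hπ : IsUnif G v π)
    (hπ' : IsUnif ↥H v π') : ∃ e : ℕ, 0 < e ∧ v π = v π' ^ e := by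
  obtain ⟨n, hn⟩ := hπ'.2.2.2 π (fun s => hπ.1 s.1) hπ.2.1
  have hvπ' : v π' ≠ 0 := (Valuation.ne_zero_iff v).mpr hπ'.2.1
  have hn0 : 0 < n := by
    by_contra hle
    have hle' : n ≤ 0 := not_lt.mp hle
    have h1 : 1 ≤ v π' ^ n := by
      obtain ⟨k, rfl⟩ : ∃ k : ℕ, n = -k := ⟨(-n).toNat, by omega⟩
      rw [zpow_neg, zpow_natCast]
      exact (one_le_inv₀ (pow_pos (zero_lt_iff.mpr hvπ') _)).mpr (pow_le_one₀ zero_le hπ'.2.2.1.le)
    rw [← hn] at h1
    exact absurd hπ.2.2.1 (not_lt.mpr h1)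
  refine ⟨n.toNat, by omega, ?_⟩
  rw [hn, ← zpow_natCast, Int.toNat_of_nonneg hn0.le]

end Fermat.Agent.CFT.LS
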