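import Fermat.Agent.CFT.LS.Basic
import Fermat.Agent.CFT.Br.Cyc

/-!
# WP LS-UR1 : the unramified characters `χ_n : G → ZMod n`, `g ω = ω^(Q^(χ_n g))` on `μ_{Q^n-1}`.

`m = Q^n - 1`, `ω₀` a primitive `m`-th root of unity, `ω_i = ω₀^(Q^i)` (`i < n`, pairwise distinct,
`ω_n = ω₀`).  KEY: for every `g` there is `i < n` with `g ω₀ = ω_i`.
Proof.  `F = ∏_{i<n} (X - ω_i)`.  Its coefficients `c` satisfy `v (c^Q - c) < 1` (they are integer
polynomials in the `ω_i`, and `x ↦ x^Q` permutes the `ω_i`; use `HasResCard.sum_pow`/`add_pow`, or pass to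
the residue field of `Ω`), so `v (c - t) < 1` with `t ∈ k` (`exists_fix_near`), so `v (g c - c) < 1`.
Now `(gF)(g ω₀) = g (F ω₀) = 0`, hence `v (F (g ω₀)) = v (F (g ω₀) - (gF)(g ω₀)) < 1`, so
`v (g ω₀ - ω_i) < 1` for some `i`, so `g ω₀ = ω_i` (`val_sub_eq_one_of_roots`).
`χ g := i`.  Homomorphism: `g h ω₀ = g (ω₀^(Q^j)) = ω₀^(Q^(i+j))`.  Smooth: `ω₀` is fixed by a level.
Surjective: the image is `dℤ/n` with `d ∣ n`; then all `g` fix `μ_{Q^d - 1}`; a primitive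
`(Q^d-1)`-th root of unity `η ∈ k` satisfies `v (η^Q - η) < 1`, i.e. `η^(Q-1) = 1`, so `d = 1`.
-/

set_option autoImplicit false

namespace Fermat.Agent.CFT.LS

open Fermat.Agent.CFT Fermat.Agent.CFT.Br

namespace UrAux

section arith
variable {Ω : Type} [Field Ω]

lemma exists_prim (Ω : Type) [Field Ω] [IsAlgClosed Ω] [CharZero Ω] {m : ℕ} (hm : m ≠ 0) :
    ∃ ω : Ω, IsPrimitiveRoot ω m := by
  have : NeZero (m : Ω) := ⟨Nat.cast_ne_zero.2 hm⟩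
  exact HasEnoughRootsOfUnity.exists_primitiveRoot Ω m

lemma m_pos {Q n : ℕ} (hQ : 1 < Q) (hn : n ≠ 0) : 0 < Q ^ n - 1 := by
  have : 1 < Q ^ n := Nat.one_lt_pow hn hQ
  omega

lemma pow_Qn {ω : Ω} {Q n : ℕ} (hQ : 1 < Q) (h : ω ^ (Q ^ n - 1) = 1) : ω ^ (Q ^ n) = ω := by
  have h1 : 0 < Q ^ n := Nat.pow_pos (by omega)
  calc ω ^ (Q ^ n) = ω ^ ((Q ^ n - 1) + 1) := by congr 1; omega
    _ = ω := by rw [pow_succ, h, one_mul]

lemma pow_Qn_pow {ω : Ω} {Q n : ℕ} (hQ : 1 < Q) (h : ω ^ (Q ^ n - 1) = 1) (k : ℕ) :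
    ω ^ (Q ^ (n * k)) = ω := by
  induction k with
  | zero => simp
  | succ k ih => rw [Nat.mul_succ, pow_add, pow_mul, ih, pow_Qn hQ h]

lemma pow_Q_mod {ω : Ω} {Q n : ℕ} (hQ : 1 < Q) (h : ω ^ (Q ^ n - 1) = 1) (a : ℕ) :
    ω ^ (Q ^ a) = ω ^ (Q ^ (a % n)) := by
  conv_lhs => rw [← Nat.div_add_mod a n, pow_add, pow_mul, pow_Qn_pow hQ h]

lemma pow_Q_inj {ω : Ω} {Q n : ℕ} (hQ : 1 < Q) (hω : IsPrimitiveRoot ω (Q ^ n - 1)) {a b : ℕ}
    (ha : a < n) (hb : b < n) (h : ω ^ (Q ^ a) = ω ^ (Q ^ b)) : a = b := by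
  wlog hab : a ≤ b generalizing a b
  · exact (this hb ha h.symm (by omega)).symm
  have hn : n ≠ 0 := by omega
  have hm := m_pos hQ hn
  have hω0 : ω ≠ 0 := hω.ne_zero hm.ne'
  have h1 : Q ^ a ≤ Q ^ b := Nat.pow_le_pow_right (by omega) hab
  have h2 : ω ^ (Q ^ b - Q ^ a) = 1 := by
    have : ω ^ (Q ^ a) * ω ^ (Q ^ b - Q ^ a) = ω ^ (Q ^ a) * 1 := by
      rw [← pow_add, Nat.add_sub_cancel' h1, mul_one, h]
    exact mul_left_cancel₀ (pow_ne_zero _ hω0) this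
  have h3 := hω.dvd_of_pow_eq_one _ h2
  have h4 : Q ^ b * 2 ≤ Q ^ n := by
    calc Q ^ b * 2 ≤ Q ^ b * Q := Nat.mul_le_mul_left _ hQ
      _ = Q ^ (b + 1) := (pow_succ _ _).symm
      _ ≤ Q ^ n := Nat.pow_le_pow_right (by omega) hb
  have h5 : 0 < Q ^ a := Nat.pow_pos (by omega)
  have h6 : Q ^ b - Q ^ a = 0 := Nat.eq_zero_of_dvd_of_lt h3 (by omega)
  have h7 : Q ^ b ≤ Q ^ a := by omega
  have := (Nat.pow_le_pow_iff_right hQ).1 h7
  omega

lemma pow_Q_eq_iff {ω : Ω} {Q n : ℕ} (hQ : 1 < Q) (hn : n ≠ 0)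
    (hω : IsPrimitiveRoot ω (Q ^ n - 1)) (a b : ℕ) :
    ω ^ (Q ^ a) = ω ^ (Q ^ b) ↔ a % n = b % n := by
  rw [pow_Q_mod hQ hω.pow_eq_one a, pow_Q_mod hQ hω.pow_eq_one b]
  constructor
  · exact pow_Q_inj hQ hω (Nat.mod_lt _ (Nat.pos_of_ne_zero hn)) (Nat.mod_lt _ (Nat.pos_of_ne_zero hn))
  · intro h; rw [h]

/-- geometric sum over a root of unity -/
lemma geom_root {ξ : Ω} {m : ℕ} (h : ξ ^ m = 1) (P : Prop) [Decidable P] (hP : ξ = 1 ↔ P) :
    ∑ j ∈ Finset.range m, ξ ^ j = if P then (m : Ω) else 0 := by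
  split_ifs with h1
  · simp [hP.2 h1]
  · rw [geom_sum_eq (fun e => h1 (hP.1 e)), h, sub_self, zero_div]

end arith

section ortho
variable {Ω : Type} [Field Ω] {Γ₀ : Type} [LinearOrderedCommGroupWithZero Γ₀] {v : Valuation Ω Γ₀}

/-- orthogonality: two families of `m`-th roots of unity with congruent power sums -/
lemma exists_eq_of_powerSum {m : ℕ} (hm : v (m : Ω) = 1) {ι κ : Type} [DecidableEq ι]
    (s : Finset ι) (t : Finset κ)
    (a : ι → Ω) (b : κ → Ω) (ha : ∀ i ∈ s, a i ^ m = 1) (hb : ∀ k ∈ t, b k ^ m = 1)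
    (hinj : Set.InjOn a s)
    (h : ∀ j : ℕ, v (∑ i ∈ s, a i ^ j - ∑ k ∈ t, b k ^ j) < 1) {i₀ : ι} (h₀ : i₀ ∈ s) :
    ∃ k ∈ t, b k = a i₀ := by
  by_contra hcon
  push Not at hcon
  have hm0 : m ≠ 0 := by
    rintro rfl
    simp at hm
  have hv0 : v (a i₀) = 1 := val_eq_one_of_pow_eq_one hm0 (ha i₀ h₀)
  have ha0 : a i₀ ≠ 0 := by
    intro h0
    rw [h0, map_zero] at hv0
    exact zero_ne_one hv0
  have hS : v (∑ j ∈ Finset.range m, (a i₀)⁻¹ ^ j * (∑ i ∈ s, a i ^ j - ∑ k ∈ t, b k ^ j)) < 1 := by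
    refine Valuation.map_sum_lt v one_ne_zero fun j _ => ?_
    rw [map_mul, map_pow, map_inv₀, hv0, inv_one, one_pow, one_mul]
    exact h j
  have e1 : ∑ j ∈ Finset.range m, (a i₀)⁻¹ ^ j * (∑ i ∈ s, a i ^ j - ∑ k ∈ t, b k ^ j)
      = ∑ i ∈ s, ∑ j ∈ Finset.range m, (a i * (a i₀)⁻¹) ^ j
        - ∑ k ∈ t, ∑ j ∈ Finset.range m, (b k * (a i₀)⁻¹) ^ j := by
    rw [Finset.sum_comm (s := s), Finset.sum_comm (s := t), ← Finset.sum_sub_distrib]
    refine Finset.sum_congr rfl fun j _ => ?_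
    rw [mul_sub, Finset.mul_sum, Finset.mul_sum]
    congr 1 <;> exact Finset.sum_congr rfl fun _ _ => by rw [mul_pow, mul_comm]
  have e2 : ∑ i ∈ s, ∑ j ∈ Finset.range m, (a i * (a i₀)⁻¹) ^ j = m := by
    have : ∀ i ∈ s, ∑ j ∈ Finset.range m, (a i * (a i₀)⁻¹) ^ j = if i = i₀ then (m : Ω) else 0 := by
      intro i hi
      have : a i * (a i₀)⁻¹ = 1 ↔ i = i₀ := by
        rw [mul_inv_eq_one₀ ha0]
        exact ⟨fun e => hinj hi h₀ e, fun e => by rw [e]⟩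
      exact geom_root (by rw [mul_pow, inv_pow, ha i hi, ha i₀ h₀, inv_one, mul_one]) _ this
    rw [Finset.sum_congr rfl this, Finset.sum_ite_eq' s i₀, if_pos h₀]
  have e3 : ∑ k ∈ t, ∑ j ∈ Finset.range m, (b k * (a i₀)⁻¹) ^ j = 0 := by
    refine Finset.sum_eq_zero fun k hk => ?_
    rw [geom_root (by rw [mul_pow, inv_pow, hb k hk, ha i₀ h₀, inv_one, mul_one]) False
      (by rw [mul_inv_eq_one₀ ha0]; exact iff_false_intro (hcon k hk)), if_neg not_false]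
  rw [e1, e2, e3, sub_zero, hm] at hS
  exact lt_irrefl _ hS

end ortho

section key
variable {G : Type} [Group G] {Ω : Type} [Field Ω] [MulSemiringAction G Ω]
  {Γ₀ : Type} [LinearOrderedCommGroupWithZero Γ₀] {v : Valuation Ω Γ₀}

lemma val_smul_sub_lt [IsAlgClosed Ω] [CharZero Ω] (hinv : ∀ (g : G) (x : Ω), v (g • x) = v x)
    {Q : ℕ} (hQ : HasResCard G v Q) {c : Ω} (hc : v (c ^ Q - c) < 1) (g : G) :
    v (g • c - c) < 1 := by
  obtain ⟨t, ht, -, hct⟩ := hQ.exists_fix_near hc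
  have : g • c - c = g • (c - t) - (c - t) := by rw [smul_sub, ht g]; ring
  rw [this]
  exact lt_of_le_of_lt (Valuation.map_sub _ _ _) (max_lt (by rw [hinv]; exact hct) hct)

lemma smul_prim {ω : Ω} {m : ℕ} (hω : IsPrimitiveRoot ω m) (g : G) :
    IsPrimitiveRoot (g • ω) m :=
  hω.map_of_injective (f := MulSemiringAction.toRingHom G Ω g) (MulAction.injective g)

lemma key [IsAlgClosed Ω] [CharZero Ω] (hinv : ∀ (g : G) (x : Ω), v (g • x) = v x)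
    {Q : ℕ} (hQ : HasResCard G v Q) {n : ℕ} (hn : n ≠ 0) {ω : Ω}
    (hω : IsPrimitiveRoot ω (Q ^ n - 1)) (g : G) : ∃ k < n, g • ω = ω ^ (Q ^ k) := by
  have hQ1 := hQ.one_lt
  have hm0 := (m_pos hQ1 hn).ne'
  have hm : v (((Q ^ n - 1 : ℕ) : Ω)) = 1 := hQ.val_pow_sub_one hn
  have hgω : IsPrimitiveRoot (g • ω) (Q ^ n - 1) := smul_prim hω g
  have hT : ∀ j : ℕ, v (∑ i ∈ Finset.range n, ((g • ω) ^ (Q ^ i)) ^ j
      - ∑ i ∈ Finset.range n, (ω ^ (Q ^ i)) ^ j) < 1 := by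
    intro j
    have h1 : v ((∑ i ∈ Finset.range n, (ω ^ (Q ^ i)) ^ j) ^ Q
        - ∑ i ∈ Finset.range n, (ω ^ (Q ^ i)) ^ j) < 1 := by
      have h0 := hQ.sum_pow (Finset.range n) (fun i => (ω ^ (Q ^ i)) ^ j) (fun i _ => le_of_eq (by
        rw [map_pow, map_pow, val_eq_one_of_pow_eq_one hm0 hω.pow_eq_one, one_pow, one_pow])) 1
      rw [pow_one] at h0
      have e : ∑ i ∈ Finset.range n, ((ω ^ (Q ^ i)) ^ j) ^ Q
          = ∑ i ∈ Finset.range n, (ω ^ (Q ^ i)) ^ j := by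
        have e1 : ∀ i, ((ω ^ (Q ^ i)) ^ j) ^ Q = (ω ^ (Q ^ (i + 1))) ^ j := by
          intro i
          rw [← pow_mul, ← pow_mul, ← pow_mul, pow_succ]
          congr 1
          ring
        simp only [e1]
        have h3 := Finset.sum_range_succ (fun i => (ω ^ (Q ^ i)) ^ j) n
        rw [Finset.sum_range_succ'] at h3
        have e2 : (ω ^ (Q ^ n)) ^ j = (ω ^ (Q ^ 0)) ^ j := by
          rw [pow_Qn hQ1 hω.pow_eq_one, pow_zero, pow_one]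
        rw [e2] at h3
        exact add_right_cancel h3
      rwa [e] at h0
    have h2 := val_smul_sub_lt hinv hQ h1 g
    have e3 : g • (∑ i ∈ Finset.range n, (ω ^ (Q ^ i)) ^ j)
        = ∑ i ∈ Finset.range n, ((g • ω) ^ (Q ^ i)) ^ j := by
      rw [Finset.smul_sum]
      simp only [smul_pow']
    rwa [e3] at h2
  obtain ⟨k, hk, e⟩ := exists_eq_of_powerSum hm (Finset.range n) (Finset.range n)
    (fun i => (g • ω) ^ (Q ^ i)) (fun i => ω ^ (Q ^ i))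
    (fun i _ => by rw [← pow_mul, mul_comm, pow_mul, hgω.pow_eq_one, one_pow])
    (fun i _ => by rw [← pow_mul, mul_comm, pow_mul, hω.pow_eq_one, one_pow])
    (fun a ha b hb hab => pow_Q_inj hQ1 hgω (Finset.mem_range.1 ha) (Finset.mem_range.1 hb) hab)
    hT (i₀ := 0) (Finset.mem_range.2 (Nat.pos_of_ne_zero hn))
  exact ⟨k, Finset.mem_range.1 hk, by simpa using e.symm⟩

end key

end UrAux

variable {G : Type} [Group G] {𝒰 : Levels G} {Ω : Type} [Field Ω] [MulSemiringAction G Ω]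
  {Γ₀ : Type} [LinearOrderedCommGroupWithZero Γ₀] {v : Valuation Ω Γ₀}

theorem IsLocSys.exists_urChar [IsAlgClosed Ω] [CharZero Ω] (h : IsLocSys 𝒰 v) {Q : ℕ}
    (hQ : HasResCard G v Q) (n : ℕ) [NeZero n] :
    ∃ χ : G →* Multiplicative (ZMod n), IsUrChar Ω 𝒰 Q n χ := by
  classical
  have hn : n ≠ 0 := NeZero.ne n
  have hQ1 := hQ.one_lt
  have hm0 := (UrAux.m_pos hQ1 hn).ne'
  have hm : v (((Q ^ n - 1 : ℕ) : Ω)) = 1 := hQ.val_pow_sub_one hn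
  have : NeZero (Q ^ n - 1) := ⟨hm0⟩
  obtain ⟨ω₀, hω₀⟩ := UrAux.exists_prim Ω hm0
  choose idx hidx hidx' using fun g => UrAux.key h.inv hQ hn hω₀ g
  have hmul : ∀ g g' : G, ((idx (g * g') : ℕ) : ZMod n) = (idx g : ZMod n) + (idx g' : ZMod n) := by
    intro g g'
    rw [← Nat.cast_add, ZMod.natCast_eq_natCast_iff']
    rw [← UrAux.pow_Q_eq_iff hQ1 hn hω₀, ← hidx', mul_smul, hidx' g', smul_pow', hidx' g, ← pow_mul,
      pow_add]
  let χ : G →* Multiplicative (ZMod n) :=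
    MonoidHom.mk' (fun g => Multiplicative.ofAdd (idx g : ZMod n)) (fun g g' => by
      rw [hmul, ofAdd_add])
  have hχ : ∀ g, (χ g).toAdd.val = idx g := fun g => ZMod.val_natCast_of_lt (hidx g)
  have hspec : ∀ (g : G) (ω : Ω), ω ^ (Q ^ n - 1) = 1 → g • ω = ω ^ (Q ^ (χ g).toAdd.val) := by
    intro g ω hω
    obtain ⟨r, -, rfl⟩ := hω₀.eq_pow_of_pow_eq_one hω
    rw [hχ, smul_pow', hidx', ← pow_mul, ← pow_mul, mul_comm]
  refine ⟨χ, ?_, hspec, ?_⟩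
  · obtain ⟨U, hU, hs⟩ := h.gal.smooth ω₀
    refine ⟨U, hU, fun s hsU => ?_⟩
    have h1 : idx s % n = 0 % n := by
      rw [← UrAux.pow_Q_eq_iff hQ1 hn hω₀, ← hidx', hs s hsU, pow_zero, pow_one]
    change Multiplicative.ofAdd (idx s : ZMod n) = 1
    rw [(ZMod.natCast_eq_natCast_iff' _ _ _).2 h1, Nat.cast_zero, ofAdd_zero]
  · have hr : Nat.card χ.range ∣ n := by
      have := Subgroup.card_subgroup_dvd_card χ.range
      rwa [Nat.card_eq_fintype_card (α := Multiplicative (ZMod n)), Fintype.card_multiplicative,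
        ZMod.card] at this
    obtain ⟨d, hd⟩ := hr
    have hr0 : 0 < Nat.card χ.range := Nat.pos_of_ne_zero (by rintro h0; rw [h0, zero_mul] at hd; exact hn hd)
    have hd0 : d ≠ 0 := by rintro rfl; rw [mul_zero] at hd; exact hn hd
    have hdiv : ∀ g, d ∣ idx g := by
      intro g
      have h1 : (⟨χ g, g, rfl⟩ : χ.range) ^ Nat.card χ.range = 1 := pow_card_eq_one'
      have h2 : (χ g) ^ Nat.card χ.range = 1 := congrArg Subtype.val h1
      have h3 : ((Nat.card χ.range * idx g : ℕ) : ZMod n) = 0 := by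
        have := congrArg Multiplicative.toAdd h2
        rw [toAdd_pow, toAdd_one] at this
        rw [Nat.cast_mul, ← nsmul_eq_mul]
        exact this
      rw [ZMod.natCast_eq_zero_iff] at h3
      conv_lhs at h3 => rw [hd]
      exact Nat.dvd_of_mul_dvd_mul_left hr0 h3
    obtain ⟨η, hη⟩ := UrAux.exists_prim Ω (UrAux.m_pos hQ1 hd0).ne'
    have hηm : η ^ (Q ^ n - 1) = 1 := by
      obtain ⟨c, hc⟩ := Nat.pow_sub_one_dvd_pow_sub_one Q (Dvd.intro_left _ hd.symm : d ∣ n)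
      rw [hc, pow_mul, hη.pow_eq_one, one_pow]
    have hfix : Fix G η := by
      intro g
      obtain ⟨k, hk⟩ := hdiv g
      rw [hspec g η hηm, hχ, hk, UrAux.pow_Qn_pow hQ1 hη.pow_eq_one]
    have hv : v η = 1 := val_eq_one_of_pow_eq_one hm0 hηm
    have h1 := hQ.pow η hfix hv.le
    have h2 : η ^ Q = η := by
      by_contra hne
      rw [val_sub_eq_one_of_roots hm (by rw [← pow_mul, mul_comm, pow_mul, hηm, one_pow]) hηm hne]
        at h1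
      exact lt_irrefl _ h1
    have hη0 : η ≠ 0 := hη.ne_zero (UrAux.m_pos hQ1 hd0).ne'
    have h3 : η ^ (Q - 1) = 1 := by
      have : η ^ (Q - 1) * η = 1 * η := by
        rw [← pow_succ, Nat.sub_add_cancel hQ1.le, h2, one_mul]
      exact mul_right_cancel₀ hη0 this
    have h4 := Nat.le_of_dvd (by omega) (hη.dvd_of_pow_eq_one _ h3)
    have h5 : Q ^ d ≤ Q ^ 1 := by
      have := UrAux.m_pos hQ1 hd0
      rw [pow_one]
      omega
    have h6 := (Nat.pow_le_pow_iff_right hQ1).1 h5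
    have hd1 : d = 1 := by omega
    have htop : χ.range = ⊤ := by
      apply Subgroup.eq_top_of_card_eq
      rw [Nat.card_eq_fintype_card (α := Multiplicative (ZMod n)), Fintype.card_multiplicative,
        ZMod.card]
      rw [hd1, mul_one] at hd
      exact hd.symm
    exact MonoidHom.range_eq_top.1 htop _

theorem IsUrChar.unique [IsAlgClosed Ω] [CharZero Ω] {Q n : ℕ} [NeZero n] (hQ : 1 < Q)
    {χ χ' : G →* Multiplicative (ZMod n)} (h : IsUrChar Ω 𝒰 Q n χ) (h' : IsUrChar Ω 𝒰 Q n χ') :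
    χ = χ' := by
  have hn : n ≠ 0 := NeZero.ne n
  obtain ⟨ω₀, hω₀⟩ := UrAux.exists_prim Ω (UrAux.m_pos hQ hn).ne'
  ext g
  have h1 := h.spec g ω₀ hω₀.pow_eq_one
  rw [h'.spec g ω₀ hω₀.pow_eq_one] at h1
  have h2 := UrAux.pow_Q_inj hQ hω₀ (ZMod.val_lt _) (ZMod.val_lt _) h1
  exact Multiplicative.toAdd.injective (ZMod.val_injective n h2.symm)

theorem IsUrChar.mem_ker_iff [IsAlgClosed Ω] [CharZero Ω] {Q n : ℕ} [NeZero n] (hQ : 1 < Q)
    {χ : G →* Multiplicative (ZMod n)} (h : IsUrChar Ω 𝒰 Q n χ) (g : G) :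
    g ∈ χ.ker ↔ ∀ ω : Ω, ω ^ (Q ^ n - 1) = 1 → g • ω = ω := by
  have hn : n ≠ 0 := NeZero.ne n
  constructor
  · intro hg ω hω
    rw [h.spec g ω hω, MonoidHom.mem_ker.1 hg, toAdd_one, ZMod.val_zero, pow_zero, pow_one]
  · intro hg
    obtain ⟨ω₀, hω₀⟩ := UrAux.exists_prim Ω (UrAux.m_pos hQ hn).ne'
    have h1 := h.spec g ω₀ hω₀.pow_eq_one
    rw [hg ω₀ hω₀.pow_eq_one] at h1
    have h2 : 0 = (χ g).toAdd.val := UrAux.pow_Q_inj hQ hω₀ (Nat.pos_of_ne_zero hn) (ZMod.val_lt _)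
      (by rw [pow_zero, pow_one]; exact h1)
    rw [MonoidHom.mem_ker]
    apply Multiplicative.toAdd.injective
    rw [toAdd_one]
    exact (ZMod.val_eq_zero _).1 h2.symm

/-- `χ_{n'} = χ_n mod n'` for `n' ∣ n` -/
theorem IsUrChar.proj [IsAlgClosed Ω] [CharZero Ω] {Q n n' d : ℕ} [NeZero n] [NeZero n']
    (hQ : 1 < Q) (hn : n = d * n') {χ : G →* Multiplicative (ZMod n)}
    {χ' : G →* Multiplicative (ZMod n')} (h : IsUrChar Ω 𝒰 Q n χ) (h' : IsUrChar Ω 𝒰 Q n' χ')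
    (g : G) : (χ' g).toAdd.val = (χ g).toAdd.val % n' := by
  have hn' : n' ≠ 0 := NeZero.ne n'
  obtain ⟨ω₀, hω₀⟩ := UrAux.exists_prim Ω (UrAux.m_pos hQ hn').ne'
  have hω : ω₀ ^ (Q ^ n - 1) = 1 := by
    obtain ⟨c, hc⟩ := Nat.pow_sub_one_dvd_pow_sub_one Q (Dvd.intro_left _ hn.symm : n' ∣ n)
    rw [hc, pow_mul, hω₀.pow_eq_one, one_pow]
  have h1 := h.spec g ω₀ hω
  rw [h'.spec g ω₀ hω₀.pow_eq_one, UrAux.pow_Q_eq_iff hQ hn' hω₀, Nat.mod_eq_of_lt (ZMod.val_lt _)]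
    at h1
  exact h1

/-- restriction to a subgroup with residue cardinality `Q^f` : `χ_n|H = f · χ_n^H` -/
theorem IsUrChar.comp_subtype [IsAlgClosed Ω] [CharZero Ω] {Q n f : ℕ} [NeZero n] (hQ : 1 < Q)
    {H : Subgroup G} {χ : G →* Multiplicative (ZMod n)} {χ' : ↥H →* Multiplicative (ZMod n)}
    (h : IsUrChar Ω 𝒰 Q n χ) (h' : IsUrChar Ω (subLev 𝒰 H) (Q ^ f) n χ') :
    χ.comp H.subtype = χ' ^ f := by
  have hn : n ≠ 0 := NeZero.ne n
  obtain ⟨ω₀, hω₀⟩ := UrAux.exists_prim Ω (UrAux.m_pos hQ hn).ne'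
  have hω : ω₀ ^ ((Q ^ f) ^ n - 1) = 1 := by
    obtain ⟨c, hc⟩ := Nat.pow_sub_one_dvd_pow_sub_one Q (Dvd.intro_left f rfl : n ∣ f * n)
    rw [← pow_mul, hc, pow_mul, hω₀.pow_eq_one, one_pow]
  ext s
  have h1 := h.spec (s : G) ω₀ hω₀.pow_eq_one
  have h2 : (s : G) • ω₀ = ω₀ ^ ((Q ^ f) ^ (χ' s).toAdd.val) := h'.spec s ω₀ hω
  rw [h2, ← pow_mul, UrAux.pow_Q_eq_iff hQ hn hω₀, ← ZMod.natCast_eq_natCast_iff', Nat.cast_mul,
    ZMod.natCast_zmod_val, ZMod.natCast_zmod_val] at h1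
  apply Multiplicative.toAdd.injective
  rw [MonoidHom.pow_apply, toAdd_pow, nsmul_eq_mul, h1]
  rfl

end Fermat.Agent.CFT.LS
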