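import Fermat.Agent.CFT.LS.NormIdx
import Fermat.Agent.CFT.LS.UrVal

/-!
# WP LS-UR3 : norms from unramified extensions; the classes `(χ_n, y)`.

(a) `(χ_n, y) = 0` ⇒ `y = ∏_{i<n} σ^i z`, `z ∈ E_n` (`cyc_mem_B2_iff`), `v y = (v z)^n`, `v z = v y'`, `y' ∈ k`.
    Hence `(χ_n, π^b) = 0 ⇒ n ∣ b`; conversely `(χ_n, π^(n c)) = 0` (`nsmul_cyc_mem_B2`).
(b) units are norms, `n = p^j`, by induction on `j` over ALL local systems.  `j+1`: `χ_p := χ_{p^(j+1)} mod p`,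
    `G₁ = ker χ_p`.  `π` is not a norm from `k₁` by (a); `exists_pow_mul_norm` (`y₀ = π`):
    `u = π^b N z₁`; values: `p ∣ b`, `π^b = N (π^(b/p))`; so `u = N_{σ,p} z₁'`, `v z₁' = 1`.
    `G₁` is a local system with `Q₁ = Q^p` (`hasResCard_ker`); `χ_{p^(j+1)}|G₁ = (χ¹_{p^(j+1)})^p`
    (`comp_subtype`) so `χ¹_{p^j}(σ^p) = 1` and `ker χ¹_{p^j} = ker χ_{p^(j+1)}` (use `proj`);
    induction: `z₁' = N_{σ^p, p^j} z`; `N_{σ,p} ∘ N_{σ^p,p^j} = N_{σ,p^(j+1)}`.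
-/

set_option autoImplicit false

namespace Fermat.Agent.CFT.LS

open Fermat.Agent.CFT Fermat.Agent.CFT.Br Finset

variable {Ω : Type} [Field Ω] {Γ₀ : Type} [LinearOrderedCommGroupWithZero Γ₀] {v : Valuation Ω Γ₀}
  [IsAlgClosed Ω] [CharZero Ω]

section
variable {G : Type} [Group G] {𝒰 : Levels G} [MulSemiringAction G Ω]
  {Q n : ℕ} [NeZero n] {χ : G →* Multiplicative (ZMod n)}

omit [IsAlgClosed Ω] [CharZero Ω] in
/-- the value of a "norm" `∏_{i<N} σ^i z` -/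
lemma val_prod_uAct (hinv : ∀ (g : G) (x : Ω), v (g • x) = v x) (σ : G) (z : Ωˣ) (N : ℕ) :
    v ((∏ i ∈ range N, uAct G Ω (σ ^ i) z : Ωˣ) : Ω) = v (z : Ω) ^ N := by
  rw [Units.coe_prod, map_prod]
  simp only [coe_uAct, hinv, prod_const, card_range]

omit [IsAlgClosed Ω] [CharZero Ω] in
/-- the "norm" of a fixed element is a power -/
lemma prod_uAct_of_fix {y : Ωˣ} (hy : y ∈ fixU G Ω) (σ : G) (N : ℕ) :
    ∏ i ∈ range N, uAct G Ω (σ ^ i) y = y ^ N := by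
  simp only [hy _, prod_const, card_range]

omit [IsAlgClosed Ω] [CharZero Ω] in
lemma isUnif_zpow_inj {π : Ω} (hπ : IsUnif G v π) {a b : ℤ} (h : v π ^ a = v π ^ b) : a = b :=
  zpow_right_injective₀ (zero_lt_iff.mpr ((Valuation.ne_zero_iff v).mpr hπ.2.1)) hπ.2.2.1.ne h

theorem IsUrChar.val_of_cyc_mem_B2 (h : IsLocSys 𝒰 v) (hQ : HasResCard G v Q)
    (hχ : IsUrChar Ω 𝒰 Q n χ) {y : Ωˣ} (hy : y ∈ fixU G Ω)
    (hB : cyc χ (Additive.ofMul y) ∈ B2 𝒰 (uRep G Ω)) :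
    ∃ y' : Ω, Fix G y' ∧ v (y : Ω) = v y' ^ n := by
  obtain ⟨σ, hσ⟩ := hχ.surj
  obtain ⟨z, hz, rfl⟩ := (h.cyc_mem_B2_iff hχ.smooth hσ hy).mp hB
  obtain ⟨y', hy', hv⟩ := hχ.exists_val_eq h hQ (x := (z : Ω)) ((mem_fixU_iff z).mp hz)
  exact ⟨y', hy', by rw [val_prod_uAct h.inv, hv]⟩

theorem IsUrChar.cyc_unif_pow_mem_B2_iff (h : IsLocSys 𝒰 v) (hQ : HasResCard G v Q)
    (hχ : IsUrChar Ω 𝒰 Q n χ) {π : Ωˣ} (hπ : IsUnif G v (π : Ω)) (b : ℕ) :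
    cyc χ (Additive.ofMul (π ^ b)) ∈ B2 𝒰 (uRep G Ω) ↔ n ∣ b := by
  have hπfix : π ∈ fixU G Ω := (mem_fixU_iff π).mpr hπ.1
  constructor
  · intro hB
    obtain ⟨y', hy', hv⟩ := hχ.val_of_cyc_mem_B2 h hQ ((fixU G Ω).pow_mem hπfix b) hB
    have hy'0 : y' ≠ 0 := by
      rintro rfl
      rw [map_zero, zero_pow (NeZero.ne n)] at hv
      exact (Valuation.ne_zero_iff v).mpr (π ^ b).ne_zero hv
    obtain ⟨m, hm⟩ := hπ.2.2.2 y' hy' hy'0
    have h1 : v (π : Ω) ^ (b : ℤ) = v (π : Ω) ^ (m * n) := by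
      rw [zpow_natCast, zpow_mul, ← hm, zpow_natCast, ← hv, Units.val_pow_eq_pow_val, map_pow]
    have h2 := isUnif_zpow_inj hπ h1
    exact Int.natCast_dvd_natCast.mp ⟨m, by rw [h2, mul_comm]⟩
  · rintro ⟨c, rfl⟩
    have : Additive.ofMul (π ^ (n * c)) = n • Additive.ofMul (π ^ c) := by
      rw [← ofMul_pow, ← pow_mul, mul_comm]
    rw [this]
    refine nsmul_cyc_mem_B2 hχ.smooth fun g => ?_
    rw [uRep_apply, toMul_ofMul, (fixU G Ω).pow_mem hπfix c g]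

end

omit [IsAlgClosed Ω] [CharZero Ω] in
lemma prod_range_mul_blocks {M : Type*} [CommMonoid M] (f : ℕ → M) (a L : ℕ) :
    ∏ m ∈ range (a * L), f m = ∏ i ∈ range a, ∏ l ∈ range L, f (i + a * l) := by
  induction L with
  | zero => simp
  | succ L ih =>
    rw [Nat.mul_succ, prod_range_add, ih]
    simp only [prod_range_succ, prod_mul_distrib]
    congr 1
    exact prod_congr rfl fun i _ => by rw [add_comm]

/-- arithmetic: `p • a = c` in `ZMod (p^(j+1))` determines `a mod p^j` -/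
lemma val_mod_of_nsmul_eq {p j : ℕ} (hp : 0 < p) (a : ZMod (p ^ (j + 1))) (c : ℕ)
    (h : p • a = ((p * c : ℕ) : ZMod (p ^ (j + 1)))) : a.val % p ^ j = c % p ^ j := by
  have : NeZero (p ^ (j + 1)) := ⟨(pow_pos hp _).ne'⟩
  have h1 : ((p * a.val : ℕ) : ZMod (p ^ (j + 1))) = ((p * c : ℕ) : ZMod (p ^ (j + 1))) := by
    rw [← h, Nat.cast_mul, ZMod.natCast_val, ZMod.cast_id', id, nsmul_eq_mul]
  have h2 : p * a.val ≡ p * c [MOD p * p ^ j] := by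
    rw [← pow_succ']
    exact (ZMod.natCast_eq_natCast_iff _ _ _).mp h1
  exact Nat.ModEq.mul_left_cancel' hp.ne' h2

/-- units are norms from the unramified extension of degree `p^j` -/
theorem IsUrChar.cyc_unit_mem_B2 {p : ℕ} [Fact p.Prime] (j : ℕ) :
    ∀ {G : Type} [Group G] [MulSemiringAction G Ω] {𝒰 : Levels G} {Q : ℕ}
      {χ : G →* Multiplicative (ZMod (p ^ j))}, IsLocSys 𝒰 v → HasResCard G v Q →
      IsUrChar Ω 𝒰 Q (p ^ j) χ → ∀ u ∈ fixU G Ω, v (u : Ω) = 1 →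
      cyc χ (Additive.ofMul u) ∈ B2 𝒰 (uRep G Ω) := by
  have hp : p.Prime := Fact.out
  have : NeZero p := ⟨hp.ne_zero⟩
  induction j with
  | zero =>
    intro G _ _ 𝒰 Q χ h hQ hχ u hu hv
    obtain ⟨σ, hσ⟩ := hχ.surj
    refine (h.cyc_mem_B2_iff hχ.smooth hσ hu).mpr ⟨u, fun s => hu s.1, ?_⟩
    simp [hu 1]
  | succ j ih =>
    intro G _ _ 𝒰 Q χ h hQ hχ u hu hv
    obtain ⟨σ, hσ⟩ := hχ.surj
    obtain ⟨χp, hχp⟩ := h.exists_urChar hQ p
    have hproj := IsUrChar.proj hQ.one_lt (pow_succ p j) hχ hχp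
    have h1lt : 1 < p ^ (j + 1) := Nat.one_lt_pow (Nat.succ_ne_zero j) hp.one_lt
    have hσp : χp σ = Multiplicative.ofAdd 1 := by
      apply Multiplicative.toAdd.injective
      apply ZMod.val_injective p
      rw [hproj σ, hσ, toAdd_ofAdd, toAdd_ofAdd, ZMod.val_one_eq_one_mod, ZMod.val_one_eq_one_mod,
        Nat.mod_eq_of_lt h1lt]
    obtain ⟨π₀, hπ₀⟩ := h.disc
    obtain ⟨π, rfl⟩ : ∃ π : Ωˣ, (π : Ω) = π₀ := ⟨Units.mk0 π₀ hπ₀.2.1, rfl⟩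
    have hπ := hπ₀
    have hπfix : π ∈ fixU G Ω := (mem_fixU_iff π).mpr hπ.1
    have hnn : ∀ z ∈ fixU ↥χp.ker Ω, π ≠ ∏ i ∈ range p, uAct G Ω (σ ^ i) z := by
      intro z hz heq
      have h1 : cyc χp (Additive.ofMul (π ^ 1)) ∈ B2 𝒰 (uRep G Ω) := by
        rw [pow_one]
        exact (h.cyc_mem_B2_iff hχp.smooth hσp hπfix).mpr ⟨z, hz, heq⟩
      have h2 := (hχp.cyc_unif_pow_mem_B2_iff h hQ hπ 1).mp h1
      exact hp.one_lt.ne' (Nat.dvd_one.mp h2)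
    obtain ⟨b, z₁, hz₁, hu_eq⟩ := h.exists_pow_mul_norm hχp.smooth hσp hπfix hnn hu
    obtain ⟨y', hy', hvz⟩ := hχp.exists_val_eq h hQ (x := (z₁ : Ω)) ((mem_fixU_iff z₁).mp hz₁)
    have hy'0 : y' ≠ 0 := by
      rintro rfl
      rw [map_zero] at hvz
      exact (Valuation.ne_zero_iff v).mpr z₁.ne_zero hvz
    obtain ⟨m, hm⟩ := hπ.2.2.2 y' hy' hy'0
    have hvπ0 : v (π : Ω) ≠ 0 := (Valuation.ne_zero_iff v).mpr π.ne_zero
    have hbm : (b : ℤ) + m * p = 0 := by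
      apply isUnif_zpow_inj hπ
      rw [zpow_add₀ hvπ0, zpow_natCast, zpow_mul, zpow_natCast, ← hm, ← hvz, zpow_zero, ← hv, hu_eq,
        Units.val_mul, map_mul, val_prod_uAct h.inv, Units.val_pow_eq_pow_val, map_pow]
    obtain ⟨c, rfl⟩ : ∃ c : ℕ, m = -(c : ℤ) := by
      refine ⟨(-m).toNat, ?_⟩
      have : m ≤ 0 := by
        by_contra hcon
        have h3 : 0 < m * p := mul_pos (not_le.mp hcon) (by exact_mod_cast hp.pos)
        omega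
      omega
    have hbc : b = c * p := by
      have : (b : ℤ) = c * p := by linarith
      exact_mod_cast this
    have hπker : π ^ c ∈ fixU ↥χp.ker Ω := fun s => (fixU G Ω).pow_mem hπfix c s.1
    have hz₁' : π ^ c * z₁ ∈ fixU ↥χp.ker Ω := (fixU ↥χp.ker Ω).mul_mem hπker hz₁
    have hu_eq' : u = ∏ i ∈ range p, uAct G Ω (σ ^ i) (π ^ c * z₁) := by
      simp only [map_mul, prod_mul_distrib]
      rw [prod_uAct_of_fix ((fixU G Ω).pow_mem hπfix c), ← pow_mul, ← hbc, hu_eq]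
    have hvz₁' : v ((π ^ c * z₁ : Ωˣ) : Ω) = 1 := by
      rw [Units.val_mul, map_mul, hvz, hm, Units.val_pow_eq_pow_val, map_pow, zpow_neg, zpow_natCast,
        mul_inv_cancel₀ (pow_ne_zero _ hvπ0)]
    have hopen : IsOpenSub 𝒰 χp.ker := by
      obtain ⟨U, hU, hUs⟩ := hχp.smooth
      exact ⟨U, hU, fun s hs => MonoidHom.mem_ker.mpr (hUs s hs)⟩
    have h₁ : IsLocSys (subLev 𝒰 χp.ker) v := h.sub hopen
    have hQ₁ : HasResCard ↥χp.ker v (Q ^ p) := hχp.hasResCard_ker h hQ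
    obtain ⟨χ₁, hχ₁⟩ := h₁.exists_urChar hQ₁ (p ^ j)
    obtain ⟨χ₁', hχ₁'⟩ := h₁.exists_urChar hQ₁ (p ^ (j + 1))
    have hcomp : χ.comp χp.ker.subtype = χ₁' ^ p := IsUrChar.comp_subtype hQ.one_lt hχ hχ₁'
    have hproj₁ := IsUrChar.proj hQ₁.one_lt (pow_succ' p j) hχ₁' hχ₁
    have hkey : ∀ g : ↥χp.ker, p • (χ₁' g).toAdd = (χ g.1).toAdd := by
      intro g
      have := congrArg (fun φ => (φ g).toAdd) hcomp
      simpa using this.symm
    have hσpmem : σ ^ p ∈ χp.ker := by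
      rw [MonoidHom.mem_ker, map_pow, hσp, ← ofAdd_nsmul, nsmul_eq_mul, mul_one, ZMod.natCast_self]
      rfl
    have hσ₁ : χ₁ ⟨σ ^ p, hσpmem⟩ = Multiplicative.ofAdd 1 := by
      apply Multiplicative.toAdd.injective
      apply ZMod.val_injective (p ^ j)
      rw [hproj₁, toAdd_ofAdd, ZMod.val_one_eq_one_mod]
      apply val_mod_of_nsmul_eq hp.pos
      rw [hkey, map_pow, hσ, toAdd_pow, toAdd_ofAdd, nsmul_eq_mul, mul_one, mul_one]
    have hih := ih h₁ hQ₁ hχ₁ _ hz₁' hvz₁'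
    obtain ⟨z, hz, hz_eq⟩ := (h₁.cyc_mem_B2_iff hχ₁.smooth hσ₁ hz₁').mp hih
    refine (h.cyc_mem_B2_iff hχ.smooth hσ hu).mpr ⟨z, ?_, ?_⟩
    · rintro ⟨g, hg⟩
      have hg0 : (χ g).toAdd = 0 := by rw [MonoidHom.mem_ker.mp hg]; rfl
      have hgp : g ∈ χp.ker := by
        rw [MonoidHom.mem_ker]
        apply Multiplicative.toAdd.injective
        apply ZMod.val_injective p
        rw [hproj g, hg0]
        simp
      have hg₁ : (⟨g, hgp⟩ : ↥χp.ker) ∈ χ₁.ker := by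
        rw [MonoidHom.mem_ker]
        apply Multiplicative.toAdd.injective
        apply ZMod.val_injective (p ^ j)
        rw [hproj₁, toAdd_one, ZMod.val_zero, ← Nat.zero_mod (p ^ j)]
        apply val_mod_of_nsmul_eq hp.pos
        rw [hkey, hg0]
        simp
      exact hz ⟨⟨g, hgp⟩, hg₁⟩
    · rw [pow_succ', prod_range_mul_blocks, hu_eq', hz_eq]
      refine prod_congr rfl fun i _ => ?_
      rw [map_prod]
      refine prod_congr rfl fun l _ => ?_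
      apply Units.ext
      change σ ^ i • ((σ ^ p) ^ l • (z : Ω)) = σ ^ (i + p * l) • (z : Ω)
      rw [smul_smul, ← pow_mul, ← pow_add]

/-- `(χ_{p^j}, y)` only depends on `v y` -/
theorem IsUrChar.cyc_sub_mem_B2_of_val_eq {p : ℕ} [Fact p.Prime] {j : ℕ}
    {G : Type} [Group G] [MulSemiringAction G Ω] {𝒰 : Levels G} {Q : ℕ}
    {χ : G →* Multiplicative (ZMod (p ^ j))} (h : IsLocSys 𝒰 v) (hQ : HasResCard G v Q)
    (hχ : IsUrChar Ω 𝒰 Q (p ^ j) χ) {y y' : Ωˣ} (hy : y ∈ fixU G Ω) (hy' : y' ∈ fixU G Ω)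
    (hv : v (y : Ω) = v (y' : Ω)) :
    cyc χ (Additive.ofMul y) - cyc χ (Additive.ofMul y') ∈ B2 𝒰 (uRep G Ω) := by
  have : NeZero p := ⟨(Fact.out : p.Prime).ne_zero⟩
  have h1 : cyc χ (Additive.ofMul y) - cyc χ (Additive.ofMul y') =
      cyc χ (Additive.ofMul (y * y'⁻¹)) := by
    rw [ofMul_mul, ofMul_inv, cyc_add, cyc_neg, sub_eq_add_neg]
  rw [h1]
  refine IsUrChar.cyc_unit_mem_B2 j h hQ hχ _ ((fixU G Ω).mul_mem hy ((fixU G Ω).inv_mem hy')) ?_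
  rw [Units.val_mul, map_mul, Units.val_inv_eq_inv_val, map_inv₀, hv,
    mul_inv_cancel₀ ((Valuation.ne_zero_iff v).mpr y'.ne_zero)]

end Fermat.Agent.CFT.LS
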